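import Fermat.Agent.BAD.Core.Data
import Mathlib.LinearAlgebra.FiniteDimensional.Basic
import Mathlib.LinearAlgebra.FiniteDimensional.Lemmas
import Mathlib.LinearAlgebra.LinearIndependent.Lemmas

/-!
# Reduced bases of finite-dimensional subspaces
-/

set_option autoImplicit false

noncomputable section

open IsLocalRing

namespace Fermat.Agent.BAD

variable {L k : Type*} [Field L] [Field k]

/-- Every subspace of `L ^ N` has a basis of integral vectors with independent reductions. -/
theorem exists_integral_basis {A : ValuationSubring L} (π : A →+* k) {ι : Type*} [Fintype ι]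
    (V : Submodule L (ι → L)) :
    ∃ (m : ℕ) (v : Fin m → ι → A),
      Submodule.span L (Set.range fun j i => (v j i : L)) = V ∧
      LinearIndependent k fun j i => π (v j i) := by
  classical
  suffices h : ∀ (r : ℕ) (V : Submodule L (ι → L)), Module.finrank L V ≤ r →
      ∃ (m : ℕ) (v : Fin m → ι → A),
        Submodule.span L (Set.range fun j i => (v j i : L)) = V ∧
        LinearIndependent k fun j i => π (v j i) from
    h _ V le_rfl
  intro r
  induction r with
  | zero =>
    intro V hV
    refine ⟨0, Fin.elim0, ?_, linearIndependent_empty_type⟩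
    rw [Submodule.finrank_eq_zero.mp (Nat.le_zero.mp hV), Set.range_eq_empty, Submodule.span_empty]
  | succ r ih =>
    intro V hV
    by_cases hbot : V = ⊥
    · refine ⟨0, Fin.elim0, ?_, linearIndependent_empty_type⟩
      rw [hbot, Set.range_eq_empty, Submodule.span_empty]
    obtain ⟨w, hwV, hw0⟩ := Submodule.exists_mem_ne_zero_of_ne_bot hbot
    obtain ⟨i₁, hi₁⟩ := Function.ne_iff.mp hw0
    obtain ⟨i₀, -, hmax⟩ := Finset.exists_max_image Finset.univ (fun i => A.valuation (w i))
      ⟨i₁, Finset.mem_univ _⟩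
    have hpos : 0 < A.valuation (w i₁) := (Valuation.pos_iff _).mpr hi₁
    have hpos₀ : 0 < A.valuation (w i₀) := hpos.trans_le (hmax i₁ (Finset.mem_univ _))
    have hw₀ : w i₀ ≠ 0 := (Valuation.pos_iff _).mp hpos₀
    have hmem : ∀ i, w i / w i₀ ∈ A := fun i => by
      rw [← A.valuation_le_one_iff, map_div₀, div_le_one₀ hpos₀]
      exact hmax i (Finset.mem_univ _)
    let v₀ : ι → A := fun i => ⟨_, hmem i⟩
    have hv₀V : (fun i => (v₀ i : L)) ∈ V := by
      have : (fun i => (v₀ i : L)) = (w i₀)⁻¹ • w := by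
        funext i
        show w i / w i₀ = _
        rw [Pi.smul_apply, smul_eq_mul, div_eq_inv_mul]
      rw [this]
      exact V.smul_mem _ hwV
    have hv₀one : v₀ i₀ = 1 := Subtype.ext (div_self hw₀)
    let V' : Submodule L (ι → L) := V ⊓ LinearMap.ker (LinearMap.proj i₀ : (ι → L) →ₗ[L] L)
    have hlt : V' < V := by
      refine lt_of_le_of_ne inf_le_left fun he => ?_
      have : (fun i => (v₀ i : L)) ∈ V' := he ▸ hv₀V
      have h0 : (v₀ i₀ : L) = 0 := LinearMap.mem_ker.mp this.2
      rw [hv₀one] at h0
      exact one_ne_zero h0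
    obtain ⟨m, v, hspan, hli⟩ := ih V' (by
      have := Submodule.finrank_lt_finrank_of_lt hlt
      omega)
    have hvmem : ∀ j, (fun i => (v j i : L)) ∈ V' := fun j =>
      hspan ▸ Submodule.subset_span ⟨j, rfl⟩
    have hv0 : ∀ j, v j i₀ = 0 := fun j => Subtype.ext (LinearMap.mem_ker.mp (hvmem j).2)
    refine ⟨m + 1, Fin.cons v₀ v, ?_, ?_⟩
    · refine le_antisymm (Submodule.span_le.mpr ?_) fun x hx => ?_
      · rintro _ ⟨j, rfl⟩
        refine Fin.cases ?_ (fun j => ?_) j
        · simpa using hv₀V
        · simpa using (hvmem j).1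
      · have h1 : x - x i₀ • (fun i => (v₀ i : L)) ∈ V' := by
          refine ⟨V.sub_mem hx (V.smul_mem _ hv₀V), ?_⟩
          simp [hv₀one]
        rw [← hspan] at h1
        have hle : Submodule.span L (Set.range fun j i => (v j i : L)) ≤
            Submodule.span L (Set.range fun j i => ((Fin.cons v₀ v : Fin (m + 1) → ι → A) j i : L)) := by
          refine Submodule.span_mono ?_
          rintro _ ⟨j, rfl⟩
          exact ⟨j.succ, by simp⟩
        have h2 : (fun i => (v₀ i : L)) ∈
            Submodule.span L (Set.range fun j i => ((Fin.cons v₀ v : Fin (m + 1) → ι → A) j i : L)) :=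
          Submodule.subset_span ⟨0, by simp⟩
        simpa using Submodule.add_mem _ (hle h1) (Submodule.smul_mem _ (x i₀) h2)
    · have hcons : (fun j i => π ((Fin.cons v₀ v : Fin (m + 1) → ι → A) j i)) =
          Fin.cons (fun i => π (v₀ i))
            (fun j i => π (v j i)) := by
        funext j
        refine Fin.cases ?_ (fun j => ?_) j <;> simp
      rw [hcons, linearIndependent_finCons]
      refine ⟨hli, fun hmem' => ?_⟩
      have hle : Submodule.span k (Set.range fun j i => π (v j i)) ≤
          LinearMap.ker (LinearMap.proj i₀ : (ι → k) →ₗ[k] k) := by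
        rw [Submodule.span_le]
        rintro _ ⟨j, rfl⟩
        simp [hv0 j]
      have := hle hmem'
      simp [hv₀one] at this

namespace TwoBranch

variable {A : ValuationSubring L} {π : A →+* k} {F C : Type*} [Field F] [Algebra L F] [Field C]
  [Algebra k C] (D : TwoBranch π F C)

/-- A family of functions integral on both branches with independent reductions. -/
structure Reduced {ι : Type*} (v : ι → F) : Prop where
  mem : ∀ j, v j ∈ D.O
  indep : LinearIndependent k fun j => D.red2 (v j)

/-- Subspaces of the span of a reduced family have reduced bases. -/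
theorem exists_reduced_basis_of_le {ι : Type*} [Fintype ι] {w : ι → F} (hw : D.Reduced w)
    {V : Submodule L F} (hV : V ≤ Submodule.span L (Set.range w)) :
    ∃ (m : ℕ) (v : Fin m → F), D.Reduced v ∧ Submodule.span L (Set.range v) = V := by
  classical
  obtain ⟨m, c, hspan, hli⟩ := exists_integral_basis π (V.comap (Fintype.linearCombination L w))
  refine ⟨m, fun j => ∑ i, (c j i : L) • w i, ⟨fun j => sum_mem fun i _ => ?_, ?_⟩, ?_⟩
  · exact D.smul_mem_O (hw.mem i) (c j i).2
  · have heq : (fun j => D.red2 (∑ i, (c j i : L) • w i)) =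
        (Fintype.linearCombination k fun i => D.red2 (w i)) ∘
          fun j i => π (c j i) := by
      funext j
      rw [D.red2_sum Finset.univ (c j) w fun i _ => hw.mem i, Function.comp_apply,
        Fintype.linearCombination_apply]
    rw [heq]
    exact hli.map' _ (LinearMap.ker_eq_bot.mpr
      (linearIndependent_iff_injective_fintypeLinearCombination.mp hw.indep))
  · have himg : (Set.range fun j => ∑ i, (c j i : L) • w i) =
        (Fintype.linearCombination L w) '' (Set.range fun j i => (c j i : L)) := by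
      rw [← Set.range_comp]
      exact congrArg Set.range (funext fun j => (Fintype.linearCombination_apply L w _).symm)
    rw [himg, ← Submodule.map_span, hspan]
    exact Submodule.map_comap_eq_self (Fintype.range_linearCombination L (v := w) ▸ hV)

/-- The reductions of the integral elements of a subspace. -/
def redSpace (V : Submodule L F) : Submodule k (Fin 2 → C) where
  carrier := D.red2 '' {a : F | a ∈ V ∧ a ∈ D.O}
  zero_mem' := ⟨0, ⟨V.zero_mem, zero_mem _⟩, funext fun i => D.red_zero⟩
  add_mem' := by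
    rintro _ _ ⟨a, ⟨haV, haO⟩, rfl⟩ ⟨b, ⟨hbV, hbO⟩, rfl⟩
    exact ⟨a + b, ⟨V.add_mem haV hbV, add_mem haO hbO⟩,
      funext fun i => D.red_add (D.mem_of_mem_O haO i) (D.mem_of_mem_O hbO i)⟩
  smul_mem' := by
    rintro x _ ⟨a, ⟨haV, haO⟩, rfl⟩
    obtain ⟨y, rfl⟩ := D.hπ x
    exact ⟨(y : L) • a, ⟨V.smul_mem _ haV, D.smul_mem_O haO y.2⟩,
      funext fun i => D.red_smul (D.mem_of_mem_O haO i) y⟩

theorem red2_mem_redSpace {V : Submodule L F} {a : F} (haV : a ∈ V) (haO : a ∈ D.O) :
    D.red2 a ∈ D.redSpace V := ⟨a, ⟨haV, haO⟩, rfl⟩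

theorem mem_redSpace {V : Submodule L F} {p : Fin 2 → C} :
    p ∈ D.redSpace V ↔ ∃ a ∈ V, a ∈ D.O ∧ D.red2 a = p :=
  ⟨fun ⟨a, ⟨h1, h2⟩, h3⟩ => ⟨a, h1, h2, h3⟩, fun ⟨a, h1, h2, h3⟩ => ⟨a, ⟨h1, h2⟩, h3⟩⟩

theorem redSpace_eq_span {ι : Type*} [Fintype ι] {v : ι → F} (hv : D.Reduced v) :
    D.redSpace (Submodule.span L (Set.range v)) =
      Submodule.span k (Set.range fun j => D.red2 (v j)) := by
  refine le_antisymm ?_ (Submodule.span_le.mpr ?_)
  · rintro _ ⟨a, ⟨haV, haO⟩, rfl⟩
    obtain ⟨b, rfl⟩ := Submodule.mem_span_range_iff_exists_fun L |>.mp haV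
    have hb := D.coeff_mem_of_linearIndependent hv.mem hv.indep haO
    have h := D.red2_sum Finset.univ (fun j => ⟨b j, hb j⟩) v fun j _ => hv.mem j
    refine (Submodule.mem_span_range_iff_exists_fun k).mpr ⟨_, h.symm⟩
  · rintro _ ⟨j, rfl⟩
    exact D.red2_mem_redSpace (Submodule.subset_span ⟨j, rfl⟩) (hv.mem j)

theorem finrank_redSpace {m : ℕ} {v : Fin m → F} (hv : D.Reduced v) :
    Module.finrank k (D.redSpace (Submodule.span L (Set.range v))) =
      Module.finrank L (Submodule.span L (Set.range v)) := by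
  rw [D.redSpace_eq_span hv, finrank_span_eq_card hv.indep,
    finrank_span_eq_card (D.linearIndependent_of_red2 hv.mem hv.indep)]

/-- Kernel lifting: if a combination of a reduced family is small, so are the coefficients. -/
theorem Reduced.small_coeff {ι : Type*} [Fintype ι] {v : ι → F} (hv : D.Reduced v) {b : ι → L}
    {c : L} (h : D.Small c (∑ j, b j • v j)) : ∀ j, b j / c ∈ A :=
  D.small_coeff_of_linearIndependent hv.mem hv.indep h

theorem Reduced.coeff_mem {ι : Type*} [Fintype ι] {v : ι → F} (hv : D.Reduced v) {b : ι → L}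
    (h : ∑ j, b j • v j ∈ D.O) : ∀ j, b j ∈ A :=
  D.coeff_mem_of_linearIndependent hv.mem hv.indep h

end TwoBranch

end Fermat.Agent.BAD
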