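import Fermat.Agent.BAD.Core.Curve
import Fermat.Agent.BAD.Core.Echelon
import Fermat.Agent.FF.Basic

/-!
# A chart: separating elements, reduced bases, integrality of reductions
-/

set_option autoImplicit false

noncomputable section

open AlgebraicCurve IntermediateField Polynomial Fermat.Agent.RED

namespace Fermat.Agent.BAD

variable {L k : Type*} [Field L] [Field k]

section Coord

variable {K E : Type*} [Field K] [Field E] [Algebra K E] {x : E}

theorem mem_coordRing_of_isIntegral_adjoin {f : E}
    (hf : IsIntegral (Algebra.adjoin K ({x} : Set E)) f) : f ∈ coordRing K x := by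
  obtain ⟨P, hP, hroot⟩ := hf
  have hl : P.map (algebraMap (Algebra.adjoin K ({x} : Set E)) E) ∈
      Polynomial.lifts (coordEval K x) := by
    rw [Polynomial.lifts_iff_coeff_lifts]
    intro k
    rw [Polynomial.coeff_map]
    obtain ⟨r, hr⟩ := (Algebra.adjoin_singleton_eq_range_aeval K x).le (P.coeff k).2
    exact ⟨r, hr⟩
  obtain ⟨Q, hQ, -, hQm⟩ := Polynomial.lifts_and_natDegree_eq_and_monic hl (hP.map _)
  refine ⟨Q, hQm, ?_⟩
  rw [Polynomial.eval₂_eq_eval_map, hQ, Polynomial.eval_map]
  exact hroot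

/-- Every element has a multiple by a polynomial in `x` which is integral over `K[x]`. -/
theorem exists_aeval_mul_mem_coordRing [FiniteDimensional K⟮x⟯ E] (f : E) :
    ∃ p : K[X], aeval x p ≠ 0 ∧ aeval x p * f ∈ coordRing K x := by
  have : Algebra.IsAlgebraic K⟮x⟯ E := inferInstance
  have halg : Algebra.IsAlgebraic (Algebra.adjoin K ({x} : Set E)) E :=
    IntermediateField.isAlgebraic_adjoin_iff_top.mp this
  obtain ⟨y, hy0, hy⟩ := IsAlgebraic.exists_integral_multiple (halg.isAlgebraic f)
  obtain ⟨p, hp⟩ := (Algebra.adjoin_singleton_eq_range_aeval K x).le y.2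
  have hp' : aeval x p = (y : E) := hp
  refine ⟨p, fun h0 => hy0 (Subtype.ext (hp'.symm.trans h0)), ?_⟩
  rw [hp']
  exact mem_coordRing_of_isIntegral_adjoin hy

end Coord

variable {A : ValuationSubring L} {π : A →+* k} {F C : Type*} [Field F] [Algebra L F] [Field C]
    [Algebra k C] {D : BadBase π F C}

namespace TwoBranch

variable (D : TwoBranch π F C)

/-- Multiplying a reduced family by a unit of `O` keeps it reduced. -/
theorem Reduced.mul {ι : Type*} {v : ι → F} (hv : D.Reduced v) {g : F} (hg : g ∈ D.O)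
    (hg0 : ∀ i, D.red i g ≠ 0) : D.Reduced fun j => g * v j := by
  refine ⟨fun j => mul_mem hg (hv.mem j), ?_⟩
  have heq : (fun j => D.red2 (g * v j)) =
      (LinearMap.mulLeft k (D.red2 g)) ∘ fun j => D.red2 (v j) := by
    funext j i
    exact D.red_mul (D.mem_of_mem_O hg i) (D.mem_of_mem_O (hv.mem j) i)
  rw [heq]
  refine hv.indep.map' _ (LinearMap.ker_eq_bot.mpr fun p r hpr => funext fun i => ?_)
  exact mul_left_cancel₀ (hg0 i) (congrFun hpr i)

end TwoBranch

namespace Chart

variable {u : F} {ubar : C} {d : ℕ} (h : Chart D u ubar d)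

include h

theorem transcendental_ubar : Transcendental k ubar := h.coord.transcendental

theorem ubar_ne_zero : ubar ≠ 0 := fun h0 => h.transcendental_ubar (h0 ▸ isAlgebraic_zero)

theorem aeval_ubar_ne_zero {p : k[X]} (hp : p ≠ 0) : aeval ubar p ≠ 0 := fun h0 =>
  hp (transcendental_iff.mp h.transcendental_ubar p h0)

theorem aeval_u_mem (p : A[X]) : aeval u (p.map A.subtype) ∈ D.O := by
  rw [aeval_eq_sum_range]
  refine sum_mem fun k _ => D.smul_mem_O (pow_mem h.u_mem k) ?_
  rw [coeff_map]
  exact (p.coeff k).2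

theorem red_aeval_u (p : A[X]) (i : Fin 2) :
    D.red i (aeval u (p.map A.subtype)) = aeval ubar (p.map (π)) := by
  induction p using Polynomial.induction_on' with
  | add p r hp hr =>
    rw [Polynomial.map_add, Polynomial.map_add, map_add, map_add,
      D.red_add (D.mem_of_mem_O (h.aeval_u_mem p) i) (D.mem_of_mem_O (h.aeval_u_mem r) i), hp, hr]
  | monomial k a =>
    have ha : (a : L) = A.subtype a := rfl
    rw [map_monomial, map_monomial, aeval_monomial, aeval_monomial, ← Algebra.smul_def,
      ← Algebra.smul_def, ← ha, D.red_smul (pow_mem (D.mem_of_mem_O h.u_mem i) k),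
      D.red_pow (D.mem_of_mem_O h.u_mem i), h.red_u]

theorem red_u_pow (i : Fin 2) (k : ℕ) : D.red i (u ^ k) = ubar ^ k := by
  rw [D.red_pow (D.mem_of_mem_O h.u_mem i), h.red_u]

/-- Integral functions reducing to `(ε, 0)`, resp. `(0, ε)`, with `ε ≠ 0`. -/
theorem exists_separating :
    ∃ (e : Fin 2 → F) (ε : C), ε ≠ 0 ∧ ε ∈ coordRing k ubar ∧
      (∀ i, e i ∈ coordRing L u ∧ e i ∈ D.O) ∧
      ∀ i j, D.red i (e j) = if i = j then ε else 0 := by
  obtain ⟨t, htR, hΦt, hne⟩ := h.exists_t
  obtain ⟨a, haR, haO, ha0, ha1⟩ := h.lift₀ t htR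
  obtain ⟨b, hbR, hbO, hb1, hb0⟩ := h.lift₁ t htR
  refine ⟨![a - b ^ D.q, b - a ^ D.q], t - t ^ (D.q * D.q), sub_ne_zero.mpr (Ne.symm hne),
    sub_mem htR (pow_mem htR _), Fin.forall_fin_two.mpr
      ⟨⟨sub_mem haR (pow_mem hbR _), sub_mem haO (pow_mem hbO _)⟩,
       ⟨sub_mem hbR (pow_mem haR _), sub_mem hbO (pow_mem haO _)⟩⟩, ?_⟩
  intro i j
  fin_cases i <;> fin_cases j <;>
    simp [D.red_sub, D.red_pow, D.mem_of_mem_O haO, D.mem_of_mem_O hbO,
      D.mem_of_mem_O (pow_mem haO D.q), D.mem_of_mem_O (pow_mem hbO D.q), ha0, ha1, hb0, hb1,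
      hΦt, pow_mul]

/-- A family of integral functions whose reductions are a basis of the pairs over `k(ubar)`. -/
theorem exists_omega :
    ∃ (n : ℕ) (ω : Fin 2 × Fin n → F), (∀ x, ω x ∈ coordRing L u) ∧
      (∀ N : ℕ, D.Reduced fun x : Fin N × (Fin 2 × Fin n) => u ^ (x.1 : ℕ) * ω x.2) ∧
      Module.finrank L⟮u⟯ F ≤ 2 * n := by
  classical
  have := h.finite_C
  obtain ⟨e, ε, hε, hεR, he, hred⟩ := h.exists_separating
  let b := Module.finBasis k⟮ubar⟯ C
  choose p hp0 hp using fun j =>
    exists_aeval_mul_mem_coordRing (K := k) (x := ubar) (b j)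
  choose c hcR hcO hc0 hc0' using fun j => h.lift₀ _ (hp j)
  choose c' hcR' hcO' hc1 hc1' using fun j => h.lift₁ _ (hp j)
  refine ⟨Module.finrank k⟮ubar⟯ C, fun x => if x.1 = 0 then e 0 * c x.2 else e 1 * c' x.2,
    fun x => ?_, fun N => ⟨fun x => ?_, ?_⟩, h.finrank_le⟩
  · dsimp only
    split <;> [exact mul_mem (he 0).1 (hcR _); exact mul_mem (he 1).1 (hcR' _)]
  · refine mul_mem (pow_mem h.u_mem _) ?_
    dsimp only
    split <;> [exact mul_mem (he 0).2 (hcO _); exact mul_mem (he 1).2 (hcO' _)]
  · have hval : ∀ (x : Fin N × (Fin 2 × Fin (Module.finrank k⟮ubar⟯ C))) (i : Fin 2),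
        D.red i (u ^ (x.1 : ℕ) * if x.2.1 = 0 then e 0 * c x.2.2 else e 1 * c' x.2.2) =
          if x.2.1 = i then ubar ^ (x.1 : ℕ) * (ε * (aeval ubar (p x.2.2) * b x.2.2)) else 0 := by
      intro x i
      obtain ⟨k, i₀, j⟩ := x
      have hu : u ^ (k : ℕ) ∈ D.V i := pow_mem (D.mem_of_mem_O h.u_mem i) _
      have key0 : D.red i (e 0 * c j) =
          if (0 : Fin 2) = i then ε * (aeval ubar (p j) * b j) else 0 := by
        rw [D.red_mul (D.mem_of_mem_O (he 0).2 i) (D.mem_of_mem_O (hcO j) i), hred]
        by_cases hi0 : i = 0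
        · subst hi0
          rw [if_pos rfl, if_pos rfl, hc0]
        · rw [if_neg hi0, if_neg (Ne.symm hi0), zero_mul]
      have key1 : D.red i (e 1 * c' j) =
          if (1 : Fin 2) = i then ε * (aeval ubar (p j) * b j) else 0 := by
        rw [D.red_mul (D.mem_of_mem_O (he 1).2 i) (D.mem_of_mem_O (hcO' j) i), hred]
        by_cases hi0 : i = 1
        · subst hi0
          rw [if_pos rfl, if_pos rfl, hc1]
        · rw [if_neg hi0, if_neg (Ne.symm hi0), zero_mul]
      dsimp only
      by_cases hi₀ : i₀ = 0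
      · subst hi₀
        rw [if_pos rfl, D.red_mul hu (D.mem_of_mem_O (mul_mem (he 0).2 (hcO j)) i),
          h.red_u_pow, key0, mul_ite, mul_zero]
      · have hi₁ : i₀ = 1 := by omega
        subst hi₁
        rw [if_neg hi₀, D.red_mul hu (D.mem_of_mem_O (mul_mem (he 1).2 (hcO' j)) i),
          h.red_u_pow, key1, mul_ite, mul_zero]
    rw [Fintype.linearIndependent_iff]
    intro g hg x
    have key : ∀ i j, ∑ k : Fin N, g (k, i, j) • ubar ^ (k : ℕ) = 0 := by
      intro i
      have hi := congrFun hg i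
      simp only [Finset.sum_apply, Pi.smul_apply, TwoBranch.red2_apply, Pi.zero_apply,
        Fintype.sum_prod_type, hval] at hi
      simp only [smul_ite, smul_zero] at hi
      have hsum : ∀ j, ∑ k : Fin N, g (k, i, j) • (ubar ^ (k : ℕ) *
          (ε * (aeval ubar (p j) * b j))) =
          (∑ k : Fin N, g (k, i, j) • ubar ^ (k : ℕ)) * aeval ubar (p j) * (ε * b j) := by
        intro j
        rw [Finset.sum_mul, Finset.sum_mul]
        refine Finset.sum_congr rfl fun k _ => ?_
        simp only [Algebra.smul_def]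
        ring
      have hi' : ∑ j, (∑ k : Fin N, g (k, i, j) • ubar ^ (k : ℕ)) * aeval ubar (p j) * b j = 0 := by
        apply (mul_eq_zero.mp ?_).resolve_left hε
        rw [Finset.mul_sum, ← hi, Finset.sum_comm (s := (Finset.univ : Finset (Fin N)))]
        rw [Finset.sum_eq_single i]
        · rw [Finset.sum_comm (s := (Finset.univ : Finset (Fin N)))]
          refine Finset.sum_congr rfl fun j _ => ?_
          simp only [if_true]
          rw [hsum j]
          ring
        · intro i' _ hne
          simp [hne]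
        · simp
      have hmem : ∀ j, (∑ k : Fin N, g (k, i, j) • ubar ^ (k : ℕ)) * aeval ubar (p j) ∈
          k⟮ubar⟯ := by
        intro j
        refine mul_mem (sum_mem fun k _ => ?_) ?_
        · exact IntermediateField.smul_mem _ (pow_mem (mem_adjoin_simple_self _ ubar) _)
        · exact algebra_adjoin_le_adjoin _ _ (aeval_mem_adjoin_singleton _ _)
      intro j
      have hz := Fintype.linearIndependent_iff.mp b.linearIndependent (fun j => ⟨_, hmem j⟩)
        (by simpa [IntermediateField.smul_def] using hi') j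
      rcases mul_eq_zero.mp (congrArg Subtype.val hz) with h1 | h1
      · exact h1
      · exact absurd h1 (hp0 j)
    obtain ⟨k₀, i₀, j₀⟩ := x
    have h0 := key i₀ j₀
    have hpoly : aeval ubar (∑ k : Fin N, monomial (k : ℕ) (g (k, i₀, j₀))) = 0 := by
      rw [map_sum, ← h0]
      exact Finset.sum_congr rfl fun k _ => by rw [aeval_monomial, Algebra.smul_def]
    have hz : (∑ k : Fin N, monomial (k : ℕ) (g (k, i₀, j₀))) = 0 :=
      transcendental_iff.mp h.transcendental_ubar _ hpoly
    have := congrArg (fun P => Polynomial.coeff P (k₀ : ℕ)) hz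
    simpa [Polynomial.finsetSum_coeff, Polynomial.coeff_monomial, Fin.val_inj] using this

omit h in
/-- The span of the basis monomials of degree `< N`. -/
def blockSpan (u : F) {n : ℕ} (ω : Fin 2 × Fin n → F) (N : ℕ) : Submodule L F :=
  Submodule.span L (Set.range fun x : Fin N × (Fin 2 × Fin n) => u ^ (x.1 : ℕ) * ω x.2)

omit h in
theorem combo_mem_blockSpan (u : F) {n : ℕ} (ω : Fin 2 × Fin n → F) (p : Fin 2 × Fin n → L[X])
    {N : ℕ} (hN : ∀ x, (p x).natDegree < N) :
    ∑ x, aeval u (p x) * ω x ∈ blockSpan (L := L) u ω N := by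
  refine sum_mem fun x _ => ?_
  rw [aeval_eq_sum_range' (hN x), Finset.sum_mul]
  refine sum_mem fun k hk => ?_
  rw [smul_mul_assoc]
  exact Submodule.smul_mem _ _
    (Submodule.subset_span ⟨(⟨k, Finset.mem_range.mp hk⟩, x), rfl⟩)

omit h in
theorem blockSpan_mono (u : F) {n : ℕ} (ω : Fin 2 × Fin n → F) {N N' : ℕ} (hNN : N ≤ N') :
    blockSpan (L := L) u ω N ≤ blockSpan (L := L) u ω N' := by
  refine Submodule.span_mono ?_
  rintro _ ⟨x, rfl⟩
  exact ⟨(Fin.castLE hNN x.1, x.2), rfl⟩

omit h in
theorem mul_u_mem_blockSpan (u : F) {n : ℕ} (ω : Fin 2 × Fin n → F) {N : ℕ} {a : F}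
    (ha : a ∈ blockSpan (L := L) u ω N) : u * a ∈ blockSpan (L := L) u ω (N + 1) := by
  induction ha using Submodule.span_induction with
  | mem y hy =>
    obtain ⟨x, rfl⟩ := hy
    refine Submodule.subset_span ⟨(x.1.succ, x.2), ?_⟩
    simp [pow_succ']
    ring
  | zero => simp
  | add y z _ _ hy hz => rw [mul_add]; exact add_mem hy hz
  | smul c y _ hy => rw [mul_smul_comm]; exact Submodule.smul_mem _ c hy

/-- A nonzero polynomial in `u` becomes a unit of `O` after scaling. -/
theorem exists_primitive {s : L[X]} (hs : s ≠ 0) :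
    ∃ c : L, c ≠ 0 ∧ aeval u (Polynomial.C c * s) ∈ D.O ∧
      ∀ i, D.red i (aeval u (Polynomial.C c * s)) ≠ 0 := by
  classical
  obtain ⟨k₀, hk₀, hmax⟩ := Finset.exists_max_image s.support (fun k => A.valuation (s.coeff k))
    (Polynomial.support_nonempty.mpr hs)
  have hk : s.coeff k₀ ≠ 0 := Polynomial.mem_support_iff.mp hk₀
  have hmem : ∀ k, (Polynomial.C (s.coeff k₀)⁻¹ * s).coeff k ∈ A := by
    intro k
    rw [coeff_C_mul]
    by_cases hks : k ∈ s.support
    · rw [← A.valuation_le_one_iff, map_mul, map_inv₀]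
      rw [inv_mul_le_one₀ ((Valuation.pos_iff _).mpr hk)]
      exact hmax k hks
    · rw [Polynomial.notMem_support_iff.mp hks, mul_zero]
      exact zero_mem _
  obtain ⟨r, hr⟩ : ∃ r : A[X], r.map A.subtype = Polynomial.C (s.coeff k₀)⁻¹ * s := by
    rw [← Polynomial.mem_lifts]
    exact (Polynomial.lifts_iff_coeff_lifts _).mpr fun k => ⟨⟨_, hmem k⟩, rfl⟩
  refine ⟨(s.coeff k₀)⁻¹, inv_ne_zero hk, hr ▸ h.aeval_u_mem r, fun i => ?_⟩
  rw [← hr, h.red_aeval_u]
  refine h.aeval_ubar_ne_zero fun h0 => ?_
  have h1 := congrArg (fun P => Polynomial.coeff P k₀) h0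
  have hone : r.coeff k₀ = 1 := by
    apply Subtype.ext
    have := congrArg (fun P => Polynomial.coeff P k₀) hr
    simpa [coeff_map, coeff_C_mul, inv_mul_cancel₀ hk] using this
  simp [coeff_map, hone] at h1

/-- Finitely many functions have a common unit denominator over the basis. -/
theorem exists_common_denominator {n : ℕ} {ω : Fin 2 × Fin n → F}
    (hω : ∀ N : ℕ, D.Reduced fun x : Fin N × (Fin 2 × Fin n) => u ^ (x.1 : ℕ) * ω x.2)
    (hn : Module.finrank L⟮u⟯ F ≤ 2 * n) (T : Finset F) :
    ∃ s : L[X], aeval u s ∈ D.O ∧ (∀ i, D.red i (aeval u s) ≠ 0) ∧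
      ∃ N, ∀ f ∈ T, aeval u s * f ∈ blockSpan (L := L) u ω N := by
  classical
  have := h.finite_F
  have hli : LinearIndependent L⟮u⟯ ω := by
    refine FF.linearIndependent_adjoin_of_polynomial h.transcendental_u ω fun p hp x => ?_
    set N := Finset.univ.sup (fun y => (p y).natDegree) + 1 with hN
    have hsum : ∑ y : Fin N × (Fin 2 × Fin n), (p y.2).coeff y.1 • (u ^ (y.1 : ℕ) * ω y.2) = 0 := by
      rw [Fintype.sum_prod_type, Finset.sum_comm, ← hp]
      refine Finset.sum_congr rfl fun y _ => ?_
      have hy : (p y).natDegree < N :=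
        Nat.lt_succ_of_le (Finset.le_sup (f := fun y => (p y).natDegree) (Finset.mem_univ y))
      rw [aeval_eq_sum_range' hy, Finset.sum_mul, Finset.sum_range]
      exact Finset.sum_congr rfl fun k _ => (smul_mul_assoc _ _ _).symm
    have hz := Fintype.linearIndependent_iff.mp
      (D.linearIndependent_of_red2 (hω N).mem (hω N).indep)
      (fun y => (p y.2).coeff y.1) hsum
    ext k
    by_cases hk : k < N
    · simpa using hz (⟨k, hk⟩, x)
    · rw [Polynomial.coeff_zero]
      refine Polynomial.coeff_eq_zero_of_natDegree_lt ?_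
      have := Finset.le_sup (f := fun y => (p y).natDegree) (Finset.mem_univ x)
      simp only [hN] at hk
      omega
  have hspan : Submodule.span L⟮u⟯ (Set.range ω) = ⊤ := by
    refine hli.span_eq_top_of_card_eq_finrank' (le_antisymm ?_ ?_)
    · exact hli.fintype_card_le_finrank
    · simpa using hn
  have hrep : ∀ f : F, ∃ (s : L[X]) (p : Fin 2 × Fin n → L[X]),
      s ≠ 0 ∧ aeval u s * f = ∑ x, aeval u (p x) * ω x := by
    intro f
    obtain ⟨g, hg⟩ := (Submodule.mem_span_range_iff_exists_fun L⟮u⟯).mp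
      (hspan ▸ Submodule.mem_top : f ∈ Submodule.span L⟮u⟯ (Set.range ω))
    have hrs : ∀ x, ∃ r s : L[X], s ≠ 0 ∧ (g x : F) = aeval u r / aeval u s := by
      intro x
      obtain ⟨r, s, hrs⟩ := (mem_adjoin_simple_iff L (g x : F)).mp (g x).2
      rcases eq_or_ne s 0 with rfl | hs
      · exact ⟨0, 1, one_ne_zero, by simp [hrs]⟩
      · exact ⟨r, s, hs, hrs⟩
    choose r s hs hrs using hrs
    refine ⟨∏ x, s x, fun x => r x * ∏ y ∈ Finset.univ.erase x, s y,
      Finset.prod_ne_zero_iff.mpr fun x _ => hs x, ?_⟩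
    rw [← hg, Finset.mul_sum]
    refine Finset.sum_congr rfl fun x hx => ?_
    have hsx : aeval u (s x) ≠ 0 := fun h0 =>
      hs x (transcendental_iff.mp h.transcendental_u _ h0)
    rw [IntermediateField.smul_def, smul_eq_mul, hrs x, map_mul, map_prod, map_prod,
      ← Finset.mul_prod_erase _ _ hx]
    field_simp
  induction T using Finset.induction_on with
  | empty => exact ⟨1, by simp [one_mem], fun i => by simp, 0, by simp⟩
  | insert f T _ ih =>
    obtain ⟨s, hsO, hs0, N, hN⟩ := ih
    obtain ⟨s', p, hs', hp⟩ := hrep f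
    obtain ⟨c, hc, hcO, hc0⟩ := h.exists_primitive hs'
    set t := Polynomial.C c * s' with ht
    have htf : aeval u t * f = ∑ x, aeval u (Polynomial.C c * p x) * ω x := by
      simp only [ht, map_mul, mul_assoc, hp, Finset.mul_sum]
    have hclosed : ∀ (r : L[X]) {M : ℕ} {a : F}, a ∈ blockSpan (L := L) u ω M →
        aeval u r * a ∈ blockSpan (L := L) u ω (M + r.natDegree) := by
      intro r M a ha
      rw [aeval_eq_sum_range, Finset.sum_mul]
      refine sum_mem fun k hk => ?_
      rw [smul_mul_assoc]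
      refine Submodule.smul_mem _ _ (blockSpan_mono u ω
        (Nat.add_le_add_left (Nat.lt_succ_iff.mp (Finset.mem_range.mp hk)) M) ?_)
      clear hk
      induction k with
      | zero => simpa using ha
      | succ k ihk =>
        rw [pow_succ', mul_assoc, ← Nat.add_assoc]
        exact mul_u_mem_blockSpan u ω ihk
    set M := Finset.univ.sup (fun x => (Polynomial.C c * p x).natDegree) + 1 with hM
    refine ⟨s * t, ?_, fun i => ?_, max (N + t.natDegree) (M + s.natDegree), fun f' hf' => ?_⟩
    · rw [map_mul]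
      exact mul_mem hsO hcO
    · rw [map_mul, D.red_mul (D.mem_of_mem_O hsO i) (D.mem_of_mem_O hcO i)]
      exact mul_ne_zero (hs0 i) (hc0 i)
    · rcases Finset.mem_insert.mp hf' with rfl | hf'
      · rw [map_mul, mul_assoc, htf]
        refine blockSpan_mono u ω (le_max_right _ _) (hclosed s (combo_mem_blockSpan u ω _ fun x =>
          Nat.lt_succ_of_le (Finset.le_sup (f := fun x => (Polynomial.C c * p x).natDegree)
            (Finset.mem_univ x))))
      · rw [map_mul, mul_comm (aeval u s), mul_assoc]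
        exact blockSpan_mono u ω (le_max_left _ _) (hclosed t (hN f' hf'))

/-- Finite-dimensional spaces have reduced bases. -/
theorem exists_reduced_basis (V : Submodule L F) [FiniteDimensional L V] :
    ∃ (m : ℕ) (v : Fin m → F), D.Reduced v ∧ Submodule.span L (Set.range v) = V := by
  classical
  obtain ⟨n, ω, -, hω, hn⟩ := h.exists_omega
  obtain ⟨T, hT⟩ := (Submodule.fg_iff_finiteDimensional V).mpr ‹_›
  obtain ⟨s, hsO, hs0, N, hN⟩ := h.exists_common_denominator hω hn T
  have hg0 : aeval u s ≠ 0 := fun h0 => hs0 0 (by rw [h0, TwoBranch.red_zero])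
  obtain ⟨m, v, hv, hspan⟩ := D.exists_reduced_basis_of_le (hω N)
    (V := V.map (LinearMap.mulLeft L (aeval u s))) (by
      rw [← hT, Submodule.map_span, Submodule.span_le]
      rintro _ ⟨f, hf, rfl⟩
      exact hN f hf)
  refine ⟨m, fun j => (aeval u s)⁻¹ * v j,
    hv.mul _ (D.inv_mem_O hsO hs0) (fun i => ?_), ?_⟩
  · rw [D.red_inv (D.mem_of_mem_O hsO i) (hs0 i)]
    exact inv_ne_zero (hs0 i)
  · have himg : (Set.range fun j => (aeval u s)⁻¹ * v j) =
        (LinearMap.mulLeft L (aeval u s)⁻¹) '' Set.range v := by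
      rw [← Set.range_comp]
      rfl
    rw [himg, ← Submodule.map_span, hspan, ← Submodule.map_comp]
    have : (LinearMap.mulLeft L (aeval u s)⁻¹).comp (LinearMap.mulLeft L (aeval u s)) =
        LinearMap.id := LinearMap.ext fun x => by simp [hg0]
    rw [this, Submodule.map_id]

/-- Reductions of integral functions on the chart are integral over `k[ubar]`. -/
theorem red_mem_coordRing {a : F} (haR : a ∈ coordRing L u) (haO : a ∈ D.O) (i : Fin 2) :
    D.red i a ∈ coordRing k ubar := by
  classical
  obtain ⟨n, ω, -, hω, hn⟩ := h.exists_omega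
  obtain ⟨P, hP, hroot⟩ : ∃ P : Polynomial L[X], P.Monic ∧ P.eval₂ (coordEval L u) a = 0 := haR
  set e := P.natDegree with he
  obtain ⟨s, hsO, hs0, N, hN⟩ :=
    h.exists_common_denominator hω hn ((Finset.range e).image fun l => a ^ l)
  -- all powers of `a` times the denominator are combinations
  have hall : ∀ k, ∃ M, aeval u s * a ^ k ∈ blockSpan (L := L) u ω M := by
    intro k
    induction k using Nat.strong_induction_on with
    | _ k ih =>
      rcases lt_or_ge k e with hk | hk
      · exact ⟨N, hN _ (Finset.mem_image.mpr ⟨k, Finset.mem_range.mpr hk, rfl⟩)⟩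
      · have hae : a ^ e = - ∑ l ∈ Finset.range e, aeval u (P.coeff l) * a ^ l := by
          have h1 : P.eval₂ (coordEval L u) a = 0 := hroot
          rw [eval₂_eq_sum_range, ← he, Finset.sum_range_succ, he, hP.coeff_natDegree, map_one,
            one_mul, ← he] at h1
          exact eq_neg_of_add_eq_zero_right h1
        choose! M hM using ih
        refine ⟨(Finset.range e).sup (fun l => M (l + (k - e)) + (P.coeff l).natDegree), ?_⟩
        rw [show a ^ k = a ^ e * a ^ (k - e) by rw [← pow_add, Nat.add_sub_cancel' hk], hae,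
          neg_mul, mul_neg, neg_mem_iff, Finset.sum_mul, Finset.mul_sum]
        refine sum_mem fun l hl => ?_
        have hre : aeval u s * (aeval u (P.coeff l) * a ^ l * a ^ (k - e)) =
            aeval u (P.coeff l) * (aeval u s * a ^ (l + (k - e))) := by rw [pow_add]; ring
        rw [hre]
        refine blockSpan_mono (L := L) u ω
          (Finset.le_sup (f := fun l => M (l + (k - e)) + (P.coeff l).natDegree) hl) ?_
        have hl' := Finset.mem_range.mp hl
        have hmem := hM (l + (k - e)) (by omega)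
        rw [aeval_eq_sum_range, Finset.sum_mul]
        refine sum_mem fun j hj => ?_
        rw [smul_mul_assoc]
        refine Submodule.smul_mem _ _ (blockSpan_mono u ω
          (Nat.add_le_add_left (Nat.lt_succ_iff.mp (Finset.mem_range.mp hj)) _) ?_)
        clear hj
        induction j with
        | zero => simpa using hmem
        | succ j ihj =>
          rw [pow_succ', mul_assoc, ← Nat.add_assoc]
          exact mul_u_mem_blockSpan u ω ihj
  -- reduce
  let _ : Algebra k[X] C := (coordEval k ubar).toAlgebra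
  let G : Submodule k[X] C := Submodule.span _ (Set.range fun x => D.red i (ω x))
  have hred : ∀ ℓ, D.red i (aeval u s) * D.red i a ^ ℓ ∈ G := by
    intro ℓ
    obtain ⟨M, hM⟩ := hall ℓ
    have hO : aeval u s * a ^ ℓ ∈ D.O := mul_mem hsO (pow_mem haO ℓ)
    have h2 := D.red2_mem_redSpace hM hO
    rw [blockSpan, D.redSpace_eq_span (hω M)] at h2
    rw [← D.red_pow (D.mem_of_mem_O haO i),
      ← D.red_mul (D.mem_of_mem_O hsO i) (pow_mem (D.mem_of_mem_O haO i) ℓ), ← D.red2_apply]
    obtain ⟨g, hg⟩ := (Submodule.mem_span_range_iff_exists_fun k).mp h2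
    rw [← hg, Finset.sum_apply]
    refine sum_mem fun x _ => ?_
    have hωmem : ω x.2 ∈ D.V i := by
      simpa using D.mem_of_mem_O ((hω (1 : ℕ)).mem ((0 : Fin 1), x.2)) i
    have hform : (g x • D.red2 (u ^ (x.1 : ℕ) * ω x.2)) i =
        (monomial (x.1 : ℕ) (g x) : k[X]) • D.red i (ω x.2) := by
      rw [Pi.smul_apply, D.red2_apply, D.red_mul (pow_mem (D.mem_of_mem_O h.u_mem i) _) hωmem,
        h.red_u_pow]
      rw [Algebra.smul_def (g x)]
      show _ = coordEval k ubar (monomial (x.1 : ℕ) (g x)) * _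
      simp [coordEval, aeval_monomial, mul_assoc]
    rw [hform]
    exact Submodule.smul_mem _ _ (Submodule.subset_span ⟨x.2, rfl⟩)
  let S := Algebra.adjoin k[X] ({D.red i a} : Set C)
  have hfg : S.toSubmodule.FG := by
    have hG : G.FG := Submodule.fg_span (Set.finite_range _)
    have : Module.Finite k[X] G := Module.Finite.iff_fg.mpr hG
    let φ : S.toSubmodule →ₗ[k[X]] G :=
      ((LinearMap.mulLeft k[X] (D.red i (aeval u s))).domRestrict S.toSubmodule).codRestrict G
        fun y => by
          have hy : (y : C) ∈ Submodule.span k[X]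
              (Submonoid.closure ({D.red i a} : Set C) : Set C) := by
            rw [← Algebra.adjoin_eq_span]
            exact y.2
          show D.red i (aeval u s) * (y : C) ∈ G
          generalize (y : C) = z₀ at hy ⊢
          induction hy using Submodule.span_induction with
          | mem z hz =>
            obtain ⟨k, rfl⟩ := Submonoid.mem_closure_singleton.mp hz
            exact hred k
          | zero => simp
          | add z w _ _ hz hw => rw [mul_add]; exact add_mem hz hw
          | smul r z _ hz => rw [mul_smul_comm]; exact Submodule.smul_mem _ r hz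
    have hinj : Function.Injective φ := fun y z hyz =>
      Subtype.ext (mul_left_cancel₀ (hs0 i) (congrArg Subtype.val hyz))
    have : Module.Finite k[X] S.toSubmodule := Module.Finite.of_injective φ hinj
    exact Module.Finite.iff_fg.mp this
  exact IsIntegral.of_mem_of_fg S hfg _ (Algebra.subset_adjoin rfl)

end Chart

end Fermat.Agent.BAD
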