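import Fermat.Agent.BAD.Core.Data
import Fermat.Agent.RED.CoordData
import Fermat.Prelude.Def_AlgebraicCurve_Repartitions
import Fermat.Prelude.Def_AlgebraicCurve_BaseChangeGalois

/-!
# Abstract bad reduction data for a curve with two branches over one reduced curve

The data models `X₀(Mq)` at `q`: both branches reduce to the curve of level `M`, the two
pullbacks reducing to `(c, Φ c)` and `(Φ c, c)`.
-/

set_option autoImplicit false

noncomputable section

open AlgebraicCurve IntermediateField Fermat.Agent.RED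

namespace Fermat.Agent.BAD

variable {L k : Type*} [Field L] [Field k]

section Twist

variable (L) {F : Type*} [Field F] [Algebra L F]

/-- `a ^ n * f` is integral over `L[u]` and `(a / u ^ m) ^ n * f` over `L[u⁻¹]`. -/
def TwistCond (u : F) (n : ℕ) (f : F) (m : ℕ) (a : F) : Prop :=
  a ^ n * f ∈ coordRing L u ∧ (a / u ^ m) ^ n * f ∈ coordRing L u⁻¹

/-- The Riemann-Roch space of the `n`-th root of `f`, twisted by `m` poles of `u`. -/
def twistSpace (u : F) (n : ℕ) (f : F) (m : ℕ) : Submodule L F :=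
  Submodule.span L {a | TwistCond L u n f m a}

end Twist

/-- The data not depending on a chart. -/
structure BadBase {A : ValuationSubring L} (π : A →+* k) (F C : Type*) [Field F] [Algebra L F] [Field C]
    [Algebra k C] extends TwoBranch π F C where
  q : ℕ
  two_le_q : 2 ≤ q
  Φ : C →ₐ[k] C
  Φ_pow : ∀ c : C, ∃ c' : C, Φ c = c' ^ q

/-- The hypotheses on one chart of the coordinate `u`, whose reduction is `ubar` on both
branches. -/
structure Chart {A : ValuationSubring L} {π : A →+* k} {F C : Type*} [Field F] [Algebra L F] [Field C]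
    [Algebra k C] (D : BadBase π F C) (u : F) (ubar : C) (d : ℕ) : Prop where
  u_mem : u ∈ D.O
  red_u : ∀ i, D.red i u = ubar
  transcendental_u : Transcendental L u
  finite_F : FiniteDimensional L⟮u⟯ F
  finite_C : FiniteDimensional k⟮ubar⟯ C
  finrank_le : Module.finrank L⟮u⟯ F ≤ 2 * Module.finrank k⟮ubar⟯ C
  coord : CoordData k ubar d
  lift₀ : ∀ c ∈ coordRing k ubar,
    ∃ a ∈ coordRing L u, a ∈ D.O ∧ D.red 0 a = c ∧ D.red 1 a = D.Φ c
  lift₁ : ∀ c ∈ coordRing k ubar,
    ∃ a ∈ coordRing L u, a ∈ D.O ∧ D.red 1 a = c ∧ D.red 0 a = D.Φ c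
  exists_t : ∃ t ∈ coordRing k ubar, D.Φ t = t ^ D.q ∧ t ^ (D.q * D.q) ≠ t

/-- The whole data: two charts, Riemann-Roch on `C`, constants and twist invariance on `F`. -/
structure BadCurve {A : ValuationSubring L} (π : A →+* k) (F C : Type*) [Field F] [Algebra L F] [Field C]
    [Algebra k C] extends BadBase π F C where
  u : F
  ubar : C
  d : ℕ
  chartFin : Chart toBadBase u ubar d
  chartInf : Chart toBadBase u⁻¹ ubar⁻¹ d
  rrC : ∃ (g c₀ : ℤ), ∀ E : Divisor k C, c₀ ≤ Divisor.degree E →
    (Module.finrank k (riemannRochSpace E) : ℤ) = Divisor.degree E + 1 - g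
  d_pos : 0 < d
  const : ∀ f ∈ coordRing L u, f ∈ coordRing L u⁻¹ → ∃ a : L, f = algebraMap L F a
  twist : ∀ (n : ℕ), n ≠ 0 → ∀ f : F, f ≠ 0 → (∀ v : Place L F, (n : ℤ) ∣ v.ord f) →
    ∃ m₀ : ℕ, ∀ m, m₀ ≤ m → FiniteDimensional L (twistSpace L u n f m) ∧
      Module.finrank L (twistSpace L u n f m) = Module.finrank L (twistSpace L u 1 1 m)

namespace BadCurve

variable {A : ValuationSubring L} {π : A →+* k} {F C : Type*} [Field F] [Algebra L F] [Field C]
    [Algebra k C] (D : BadCurve π F C)

/-- A semilinear symmetry of the data: it fixes `u`, preserves both branches and induces `σC`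
on the reductions. -/
structure Sym (σ : SemilinearAut L F) (σC : C ≃+* C) : Prop where
  map_u : σ • D.u = D.u
  mem : ∀ (i : Fin 2) (f : F), f ∈ D.V i → σ • f ∈ D.V i
  red_eq : ∀ (i : Fin 2) (f : F), f ∈ D.V i → D.red i (σ • f) = σC (D.red i f)

/-- Every scaled reduction of `f` is a constant times an `n`-th power. -/
def RedIsPow (n : ℕ) (f : F) : Prop :=
  ∀ (i : Fin 2) (c : L), c • f ∈ D.V i → D.red i (c • f) ≠ 0 →
    ∃ (a : k) (h : C), D.red i (c • f) = a • h ^ n

end BadCurve

end Fermat.Agent.BAD
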