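import Mathlib.RingTheory.Valuation.ValuationSubring
import Mathlib.RingTheory.LocalRing.ResidueField.Basic
import Mathlib.LinearAlgebra.LinearIndependent.Defs
import Mathlib.LinearAlgebra.Dimension.Finrank

/-!
# Two branch reductions of a function field

A field `F` over a valued field `(L, A)` with two reduction maps (valuation rings with residue
maps into one field `C` over the residue field of `A`).
-/

set_option autoImplicit false

noncomputable section

open IsLocalRing

namespace Fermat.Agent.BAD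

variable {L k : Type*} [Field L] [Field k]

/-- Two valuation rings of `F` above `A`, with residue maps to `C`, and with the property that
every nonzero function has a scalar multiple with nonzero reduction. -/
structure TwoBranch {A : ValuationSubring L} (π : A →+* k) (F C : Type*) [Field F] [Algebra L F] [Field C]
    [Algebra k C] where
  hπ : Function.Surjective π
  V : Fin 2 → Subring F
  res : ∀ i, V i →+* C
  algebraMap_mem : ∀ (i : Fin 2) (a : A), algebraMap L F a ∈ V i
  res_algebraMap : ∀ (i : Fin 2) (a : A), res i ⟨algebraMap L F a, algebraMap_mem i a⟩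
    = algebraMap k C (π a)
  scale : ∀ (i : Fin 2) (f : F), f ≠ 0 → ∃ (c : L) (h : c • f ∈ V i), res i ⟨c • f, h⟩ ≠ 0
  arch : ∀ x ∈ A.nonunits, ∀ c : L, c ≠ 0 → ∃ N : ℕ, x ^ N / c ∈ A
  nontriv : ∃ x ∈ A.nonunits, x ≠ 0

namespace TwoBranch

variable {A : ValuationSubring L} {π : A →+* k} {F C : Type*} [Field F] [Algebra L F] [Field C]
  [Algebra k C] (D : TwoBranch π F C)

open Classical in
/-- The reduction, extended by zero. -/
def red (i : Fin 2) (f : F) : C := if h : f ∈ D.V i then D.res i ⟨f, h⟩ else 0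

theorem red_of_mem {i : Fin 2} {f : F} (h : f ∈ D.V i) : D.red i f = D.res i ⟨f, h⟩ := dif_pos h

/-- Functions integral on both branches. -/
def O : Subring F := D.V 0 ⊓ D.V 1

theorem mem_O {f : F} : f ∈ D.O ↔ ∀ i, f ∈ D.V i := by
  rw [Fin.forall_fin_two]
  exact Iff.rfl

theorem mem_of_mem_O {f : F} (h : f ∈ D.O) (i : Fin 2) : f ∈ D.V i := D.mem_O.mp h i

/-- The pair of reductions. -/
def red2 (f : F) : Fin 2 → C := fun i => D.red i f

theorem red2_apply (f : F) (i : Fin 2) : D.red2 f i = D.red i f := rfl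

variable {i : Fin 2}

@[simp] theorem red_zero : D.red i 0 = 0 := by
  rw [D.red_of_mem (zero_mem _)]
  exact map_zero (D.res i)

@[simp] theorem red_one : D.red i 1 = 1 := by
  rw [D.red_of_mem (one_mem _)]
  exact map_one (D.res i)

theorem red_add {f g : F} (hf : f ∈ D.V i) (hg : g ∈ D.V i) :
    D.red i (f + g) = D.red i f + D.red i g := by
  rw [D.red_of_mem hf, D.red_of_mem hg, D.red_of_mem (add_mem hf hg), ← map_add]
  rfl

theorem red_sub {f g : F} (hf : f ∈ D.V i) (hg : g ∈ D.V i) :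
    D.red i (f - g) = D.red i f - D.red i g := by
  rw [D.red_of_mem hf, D.red_of_mem hg, D.red_of_mem (sub_mem hf hg), ← map_sub]
  rfl

theorem red_neg {f : F} (hf : f ∈ D.V i) : D.red i (-f) = - D.red i f := by
  rw [D.red_of_mem hf, D.red_of_mem (neg_mem hf), ← map_neg]
  rfl

theorem red_mul {f g : F} (hf : f ∈ D.V i) (hg : g ∈ D.V i) :
    D.red i (f * g) = D.red i f * D.red i g := by
  rw [D.red_of_mem hf, D.red_of_mem hg, D.red_of_mem (mul_mem hf hg), ← map_mul]
  rfl

theorem red_pow {f : F} (hf : f ∈ D.V i) (n : ℕ) : D.red i (f ^ n) = D.red i f ^ n := by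
  rw [D.red_of_mem hf, D.red_of_mem (pow_mem hf n), ← map_pow]
  rfl

theorem red_algebraMap (a : A) :
    D.red i (algebraMap L F a) = algebraMap k C (π a) := by
  rw [D.red_of_mem (D.algebraMap_mem i a), D.res_algebraMap]

theorem smul_mem {f : F} (hf : f ∈ D.V i) (a : A) : (a : L) • f ∈ D.V i := by
  rw [Algebra.smul_def]
  exact mul_mem (D.algebraMap_mem i a) hf

theorem red_smul {f : F} (hf : f ∈ D.V i) (a : A) :
    D.red i ((a : L) • f) = π a • D.red i f := by
  rw [Algebra.smul_def, D.red_mul (D.algebraMap_mem i a) hf, D.red_algebraMap, Algebra.smul_def]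

theorem red_sum {ι : Type*} (s : Finset ι) (f : ι → F) (h : ∀ j ∈ s, f j ∈ D.V i) :
    D.red i (∑ j ∈ s, f j) = ∑ j ∈ s, D.red i (f j) := by
  classical
  induction s using Finset.induction_on with
  | empty => simp
  | insert a s ha ih =>
    rw [Finset.sum_insert ha, Finset.sum_insert ha,
      D.red_add (h a (Finset.mem_insert_self _ _))
        (sum_mem fun j hj => h j (Finset.mem_insert_of_mem hj)),
      ih fun j hj => h j (Finset.mem_insert_of_mem hj)]

include D in
theorem residue_eq_zero_of_nonunit (a : A) (ha : (a : L) ∈ A.nonunits) :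
    π a = 0 := by
  obtain ⟨h, h'⟩ := (A.mem_nonunits_iff_exists_mem_maximalIdeal).mp ha
  have hker : RingHom.ker π = IsLocalRing.maximalIdeal A :=
    IsLocalRing.eq_maximalIdeal (RingHom.ker_isMaximal_of_surjective π D.hπ)
  rw [← RingHom.mem_ker, hker]
  simpa using h'

theorem inv_mem_nonunits_of_notMem {c : L} (hc : c ∉ A) : c⁻¹ ∈ A.nonunits := by
  have h : (1 : A.ValueGroup) < A.valuation c := by
    rw [← not_le]
    exact fun h => hc ((A.valuation_le_one_iff c).mp h)
  rw [ValuationSubring.mem_nonunits_iff, map_inv₀]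
  exact inv_lt_one_of_one_lt₀ h

theorem inv_mem_of_red_ne_zero {f : F} (hf : f ∈ D.V i) (h : D.red i f ≠ 0) :
    f⁻¹ ∈ D.V i := by
  have hf0 : f ≠ 0 := fun h0 => h (by rw [h0, red_zero])
  obtain ⟨c, hc, hr⟩ := D.scale i f⁻¹ (inv_ne_zero hf0)
  rw [← D.red_of_mem hc] at hr
  have hc0 : c ≠ 0 := fun h0 => hr (by simp [h0])
  have key : (c • f⁻¹) * f = algebraMap L F c := by
    rw [Algebra.smul_def, inv_mul_cancel_right₀ hf0]
  have back : c⁻¹ ∈ A → f⁻¹ ∈ D.V i := by
    intro h'
    have := D.smul_mem hc ⟨c⁻¹, h'⟩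
    simpa [smul_smul, inv_mul_cancel₀ hc0] using this
  by_cases hcA : c ∈ A
  · refine back ?_
    by_contra hcon
    have hnu : ((⟨c, hcA⟩ : A) : L) ∈ A.nonunits := by
      simpa using inv_mem_nonunits_of_notMem (A := A) hcon
    have h2 := D.red_mul hc hf
    rw [key, show algebraMap L F c = algebraMap L F ((⟨c, hcA⟩ : A) : L) from rfl,
      D.red_algebraMap, D.residue_eq_zero_of_nonunit _ hnu, map_zero] at h2
    exact mul_ne_zero hr h h2.symm
  · exact back ((A.mem_or_inv_mem c).resolve_left hcA)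

theorem inv_mem_O {f : F} (hf : f ∈ D.O) (h : ∀ i, D.red i f ≠ 0) : f⁻¹ ∈ D.O :=
  D.mem_O.mpr fun i => D.inv_mem_of_red_ne_zero (D.mem_of_mem_O hf i) (h i)

theorem red_inv {f : F} (hf : f ∈ D.V i) (h : D.red i f ≠ 0) :
    D.red i f⁻¹ = (D.red i f)⁻¹ := by
  have hf0 : f ≠ 0 := fun h0 => h (by rw [h0, red_zero])
  refine eq_inv_of_mul_eq_one_left ?_
  rw [← D.red_mul (D.inv_mem_of_red_ne_zero hf h) hf, inv_mul_cancel₀ hf0, red_one]

/-- `x` is divisible by the scalar `c` inside `O`. -/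
def Small (c : L) (x : F) : Prop := c⁻¹ • x ∈ D.O

theorem smul_mem_O {f : F} (hf : f ∈ D.O) {a : L} (ha : a ∈ A) : a • f ∈ D.O :=
  D.mem_O.mpr fun i => D.smul_mem (D.mem_of_mem_O hf i) ⟨a, ha⟩

theorem Small.zero (c : L) : D.Small c (0 : F) := by simp [Small, zero_mem]

variable {D} in
theorem Small.add {c : L} {x y : F} (hx : D.Small c x) (hy : D.Small c y) :
    D.Small c (x + y) := by
  simpa [Small, smul_add] using add_mem hx hy

variable {D} in
theorem Small.neg {c : L} {x : F} (hx : D.Small c x) : D.Small c (-x) := by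
  simpa [Small, smul_neg] using neg_mem hx

variable {D} in
theorem Small.sub {c : L} {x y : F} (hx : D.Small c x) (hy : D.Small c y) :
    D.Small c (x - y) := by
  simpa [sub_eq_add_neg] using hx.add hy.neg

variable {D} in
theorem Small.mul_right {c : L} {x g : F} (hx : D.Small c x) (hg : g ∈ D.O) :
    D.Small c (x * g) := by
  simpa [Small, smul_mul_assoc] using mul_mem (show c⁻¹ • x ∈ D.O from hx) hg

variable {D} in
theorem Small.mul_left {c : L} {x g : F} (hx : D.Small c x) (hg : g ∈ D.O) :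
    D.Small c (g * x) := mul_comm x g ▸ hx.mul_right hg

variable {D} in
theorem Small.cancel {c : L} {x g : F} (hx : D.Small c (x * g)) (hg : g ∈ D.O)
    (h : ∀ i, D.red i g ≠ 0) : D.Small c x := by
  have hg0 : g ≠ 0 := fun h0 => h 0 (by rw [h0, red_zero])
  simpa [mul_assoc, mul_inv_cancel₀ hg0] using hx.mul_right (D.inv_mem_O hg h)

variable {D} in
theorem Small.red_eq_zero {c : L} {x : F} (hc : c ≠ 0) (hcn : c ∈ A.nonunits)
    (hx : D.Small c x) : ∀ i, D.red i x = 0 := by
  intro i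
  have hcA : c ∈ A := A.nonunits_subset hcn
  have : x = ((⟨c, hcA⟩ : A) : L) • (c⁻¹ • x) := by simp [smul_smul, mul_inv_cancel₀ hc]
  rw [this, D.red_smul (D.mem_of_mem_O hx i), D.residue_eq_zero_of_nonunit _ hcn, zero_smul]

variable {D} in
theorem Small.red_congr {c : L} {x y : F} (hc : c ≠ 0) (hcn : c ∈ A.nonunits)
    (hy : y ∈ D.O) (hx : D.Small c (x - y)) : ∀ i, D.red i x = D.red i y := by
  intro i
  have h0 := Small.red_eq_zero hc hcn hx i
  have hxy : x - y ∈ D.O := by
    have := D.smul_mem_O hx (A.nonunits_subset hcn)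
    simpa [smul_smul, mul_inv_cancel₀ hc] using this
  conv_lhs => rw [← sub_add_cancel x y]
  rw [D.red_add (D.mem_of_mem_O hxy i) (D.mem_of_mem_O hy i), h0, zero_add]

variable {D} in
theorem Small.mono {c d : L} {x : F} (hc : c ≠ 0) (hx : D.Small c x) (h : c / d ∈ A) :
    D.Small d x := by
  have := D.smul_mem_O hx h
  simpa [Small, smul_smul, div_mul_eq_mul_div, mul_inv_cancel₀ hc, one_div] using this

theorem exists_small_of_red_eq_zero {x : F} (hx : x ∈ D.O) (h : ∀ i, D.red i x = 0) :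
    ∃ c : L, c ≠ 0 ∧ c ∈ A.nonunits ∧ D.Small c x := by
  rcases eq_or_ne x 0 with rfl | hx0
  · obtain ⟨c, hc, hc0⟩ := D.nontriv
    exact ⟨c, hc0, hc, Small.zero D c⟩
  have key : ∀ i, ∃ c : L, c ≠ 0 ∧ c ∈ A.nonunits ∧ c⁻¹ • x ∈ D.V i := by
    intro i
    obtain ⟨c, hc, hr⟩ := D.scale i x hx0
    rw [← D.red_of_mem hc] at hr
    have hc0 : c ≠ 0 := fun h0 => hr (by simp [h0])
    have hcA : c ∉ A := fun hcA => hr (by
      simpa [h i] using D.red_smul (D.mem_of_mem_O hx i) ⟨c, hcA⟩)
    exact ⟨c⁻¹, inv_ne_zero hc0, inv_mem_nonunits_of_notMem hcA, by rwa [inv_inv]⟩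
  choose c hc0 hcn hc using key
  have mono : ∀ i j, c j / c i ∈ A → (c i)⁻¹ • x ∈ D.V j := by
    intro i j hij
    have := D.smul_mem (hc j) ⟨_, hij⟩
    simpa [smul_smul, div_mul_eq_mul_div, mul_inv_cancel₀ (hc0 j), one_div] using this
  rcases A.mem_or_inv_mem (c 1 / c 0) with h10 | h10
  · refine ⟨c 0, hc0 0, hcn 0, D.mem_O.mpr (Fin.forall_fin_two.mpr ⟨hc 0, mono 0 1 h10⟩)⟩
  · rw [inv_div] at h10
    refine ⟨c 1, hc0 1, hcn 1, D.mem_O.mpr (Fin.forall_fin_two.mpr ⟨mono 1 0 h10, hc 1⟩)⟩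

theorem red2_sum {ι : Type*} (s : Finset ι) (b : ι → A) (v : ι → F) (hv : ∀ j ∈ s, v j ∈ D.O) :
    D.red2 (∑ j ∈ s, (b j : L) • v j) = ∑ j ∈ s, π (b j) • D.red2 (v j) := by
  funext i
  rw [red2_apply, D.red_sum _ _ fun j hj => D.smul_mem (D.mem_of_mem_O (hv j hj) i) (b j),
    Finset.sum_apply]
  exact Finset.sum_congr rfl fun j hj => D.red_smul (D.mem_of_mem_O (hv j hj) i) (b j)

/-- A finite family with independent reductions is orthonormal. -/
theorem coeff_mem_of_linearIndependent {ι : Type*} [Fintype ι] {v : ι → F}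
    (hv : ∀ j, v j ∈ D.O) (hli : LinearIndependent k fun j => D.red2 (v j)) {b : ι → L}
    (h : ∑ j, b j • v j ∈ D.O) : ∀ j, b j ∈ A := by
  classical
  by_contra hcon
  push Not at hcon
  obtain ⟨j₁, hj₁⟩ := hcon
  obtain ⟨j₀, -, hmax⟩ := Finset.exists_max_image Finset.univ (fun j => A.valuation (b j))
    ⟨j₁, Finset.mem_univ _⟩
  have h1 : (1 : A.ValueGroup) < A.valuation (b j₁) := by
    rw [← not_le]
    exact fun h => hj₁ ((A.valuation_le_one_iff _).mp h)
  have hb : (1 : A.ValueGroup) < A.valuation (b j₀) := h1.trans_le (hmax j₁ (Finset.mem_univ _))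
  have hb0 : b j₀ ≠ 0 := fun h0 => by simp [h0] at hb
  have hj₀ : b j₀ ∉ A := fun hmem => (not_le.mpr hb) ((A.valuation_le_one_iff _).mpr hmem)
  have hmem : ∀ j, b j / b j₀ ∈ A := fun j => by
    rw [← A.valuation_le_one_iff, map_div₀,
      div_le_one₀ (zero_lt_one.trans hb)]
    exact hmax j (Finset.mem_univ _)
  have hinv : (b j₀)⁻¹ ∈ A.nonunits := inv_mem_nonunits_of_notMem hj₀
  have hsum : D.red2 (∑ j, ((⟨_, hmem j⟩ : A) : L) • v j) = 0 := by
    funext i
    have : ∑ j, ((⟨_, hmem j⟩ : A) : L) • v j =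
        ((⟨_, A.nonunits_subset hinv⟩ : A) : L) • ∑ j, b j • v j := by
      rw [Finset.smul_sum]
      refine Finset.sum_congr rfl fun j _ => ?_
      rw [smul_smul]
      congr 1
      simp [div_eq_mul_inv, mul_comm]
    rw [red2_apply, this, D.red_smul (D.mem_of_mem_O h i), D.residue_eq_zero_of_nonunit _ hinv,
      zero_smul]
    rfl
  rw [D.red2_sum Finset.univ (fun j => ⟨_, hmem j⟩) v fun j _ => hv j] at hsum
  have := Fintype.linearIndependent_iff.mp hli _ hsum j₀
  rw [show (⟨_, hmem j₀⟩ : A) = 1 from Subtype.ext (by simp [div_self hb0]), map_one] at this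
  exact one_ne_zero this

theorem small_coeff_of_linearIndependent {ι : Type*} [Fintype ι] {v : ι → F}
    (hv : ∀ j, v j ∈ D.O) (hli : LinearIndependent k fun j => D.red2 (v j)) {b : ι → L}
    {c : L} (h : D.Small c (∑ j, b j • v j)) : ∀ j, b j / c ∈ A := by
  have h' : ∑ j, (b j / c) • v j ∈ D.O := by
    simpa [Small, Finset.smul_sum, smul_smul, div_eq_inv_mul] using h
  exact D.coeff_mem_of_linearIndependent hv hli h'

theorem linearIndependent_of_red2 {ι : Type*} [Fintype ι] {v : ι → F}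
    (hv : ∀ j, v j ∈ D.O) (hli : LinearIndependent k fun j => D.red2 (v j)) :
    LinearIndependent L v := by
  rw [Fintype.linearIndependent_iff]
  intro b hb j
  by_contra hj
  obtain ⟨x, hx, hx0⟩ := D.nontriv
  have h := D.small_coeff_of_linearIndependent hv hli
    (b := b) (c := x * b j) (by rw [hb]; exact Small.zero D _) j
  have : x⁻¹ ∈ A := by
    convert h using 1
    field_simp
  have h1 := A.valuation_le_one_iff x⁻¹ |>.mpr this
  rw [ValuationSubring.mem_nonunits_iff] at hx
  have hxp : 0 < A.valuation x := (Valuation.pos_iff _).mpr hx0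
  rw [map_inv₀, inv_le_one₀ hxp] at h1
  exact (not_le.mpr hx) h1

end TwoBranch

end Fermat.Agent.BAD
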