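import Fermat.Agent.BAD.Core.Twist
import Mathlib.LinearAlgebra.FiniteDimensional.Lemmas

/-!
# The graded reductions: sections with node conditions
-/

set_option autoImplicit false

noncomputable section

open AlgebraicCurve IntermediateField Polynomial Fermat.Agent.RED WithZero

namespace Fermat.Agent.BAD

variable {L k : Type*} [Field L] [Field k] {A : ValuationSubring L} {π : A →+* k}
  {F C : Type*} [Field F] [Algebra L F] [Field C] [Algebra k C]

namespace BadCurve

variable (D : BadCurve π F C)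

include D in
theorem deg_one (x : Place k C) : x.deg = 1 := D.chartFin.coord.deg_one x

/-- The divisor of poles of `ubar`. -/
def pole : Divisor k C := (D.chartInf.coord.exists_zeros 0).choose

theorem pole_apply (x : Place k C) : D.pole x = max (- x.ord D.ubar) 0 := by
  rw [pole, (D.chartInf.coord.exists_zeros 0).choose_spec.1 x, map_zero, sub_zero, x.ord_inv]

theorem degree_pole : Divisor.degree D.pole = D.d :=
  (D.chartInf.coord.exists_zeros 0).choose_spec.2

theorem ord_ubar_nonneg_iff {x : Place k C} : D.ubar ∈ x.toValuationSubring ↔ 0 ≤ x.ord D.ubar :=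
  mem_iff_ord_nonneg x

theorem inv_ubar_mem_of_notMem {x : Place k C} (hx : D.ubar ∉ x.toValuationSubring) :
    D.ubar⁻¹ ∈ x.toValuationSubring :=
  (x.toValuationSubring.mem_or_inv_mem _).resolve_left hx

theorem ord_div_pow {c : C} (hc : c ≠ 0) (x : Place k C) (m : ℕ) :
    x.ord (c / D.ubar ^ m) = x.ord c - m * x.ord D.ubar := by
  rw [div_eq_mul_inv, x.ord_mul hc (inv_ne_zero (pow_ne_zero _ D.ubar_ne_zero)), x.ord_inv,
    ← zpow_natCast, x.ord_zpow]
  ring

theorem mem_rr_iff {m : ℕ} {c : C} :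
    c ∈ riemannRochSpace (m • D.pole) ↔
      c ∈ coordRing k D.ubar ∧ c / D.ubar ^ m ∈ coordRing k D.ubar⁻¹ := by
  rw [mem_riemannRochSpace_iff]
  constructor
  · intro h
    refine ⟨D.chartFin.coord.mem_coordRing_of_forall _ fun x hx => ?_,
      D.chartInf.coord.mem_coordRing_of_forall _ fun x hx => ?_⟩
    · rw [mem_iff_ord_nonneg] at hx ⊢
      rcases h x with h0 | h0
      · simp [h0]
      · rw [Finsupp.smul_apply, pole_apply, max_eq_right (by omega), smul_zero] at h0
        simpa using h0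
    · rw [mem_iff_ord_nonneg, x.ord_inv] at hx
      rw [mem_iff_ord_nonneg]
      rcases eq_or_ne c 0 with hc | hc
      · simp [hc]
      · have h0 := (h x).resolve_left hc
        rw [Finsupp.smul_apply, pole_apply, max_eq_left hx, nsmul_eq_mul] at h0
        rw [D.ord_div_pow hc]
        linarith
  · rintro ⟨h1, h2⟩ x
    rcases eq_or_ne c 0 with hc | hc
    · exact Or.inl hc
    refine Or.inr ?_
    rw [Finsupp.smul_apply, pole_apply, nsmul_eq_mul]
    by_cases hx : D.ubar ∈ x.toValuationSubring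
    · have := ord_nonneg_of_mem x (mem_place_of_mem_coordRing _ _ x hx h1)
      rw [mem_iff_ord_nonneg] at hx
      rw [max_eq_right (by omega), mul_zero, neg_zero]
      exact this
    · have h := ord_nonneg_of_mem x
        (mem_place_of_mem_coordRing _ _ x (D.inv_ubar_mem_of_notMem hx) h2)
      rw [D.ord_div_pow hc] at h
      rw [mem_iff_ord_nonneg] at hx
      rw [max_eq_left (by omega)]
      linarith

/-- The pairs of reductions with pole order at most `m` and glued along both charts. -/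
def Nm (m : ℕ) : Submodule k (Fin 2 → C) :=
  Chart.chartAlg D.toBadBase D.u ⊓
    (Chart.chartAlg D.toBadBase D.u⁻¹).comap (LinearMap.mulRight k (fun _ => (D.ubar ^ m)⁻¹))

theorem mem_Nm {m : ℕ} {p : Fin 2 → C} :
    p ∈ D.Nm m ↔ p ∈ Chart.chartAlg D.toBadBase D.u ∧
      (fun i => p i / D.ubar ^ m) ∈ Chart.chartAlg D.toBadBase D.u⁻¹ := by
  simp only [Nm, Submodule.mem_inf, Submodule.mem_comap, LinearMap.mulRight_apply, div_eq_mul_inv]
  rfl

/-- The reductions of `L(m poles u)`. -/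
def Wm (m : ℕ) : Submodule k (Fin 2 → C) := D.redSpace (twistSpace L D.u 1 1 m)

theorem Wm_le_Nm (m : ℕ) : D.Wm m ≤ D.Nm m := by
  intro p hp
  obtain ⟨a, ha, haO, rfl⟩ := D.mem_redSpace.mp hp
  rw [mem_twistSpace_one] at ha
  exact D.mem_Nm.mpr ⟨Chart.mem_chartAlg.mpr ⟨a, ha.1, haO, rfl⟩,
    Chart.mem_chartAlg.mpr ⟨_, ha.2, D.div_u_pow_mem_O haO m,
      funext fun i => D.red_div_u_pow haO m i⟩⟩

/-- Two places (one on each branch) are glued. -/
def IsNode (s : Place k C × Place k C) : Prop :=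
  (D.ubar ∈ s.1.toValuationSubring ∧ D.ubar ∈ s.2.toValuationSubring ∧
    D.chartFin.Rel ((0 : Fin 2), s.1) ((1 : Fin 2), s.2)) ∨
  (D.ubar ∉ s.1.toValuationSubring ∧ D.ubar ∉ s.2.toValuationSubring ∧
    D.chartInf.Rel ((0 : Fin 2), s.1) ((1 : Fin 2), s.2))

theorem isNode_of_rel {x y : Place k C} (hx : D.ubar ∈ x.toValuationSubring)
    (hy : D.ubar ∈ y.toValuationSubring)
    (h : D.chartFin.Rel ((0 : Fin 2), x) ((1 : Fin 2), y)) : D.IsNode (x, y) :=
  Or.inl ⟨hx, hy, h⟩

theorem isNode_of_rel_inf {x y : Place k C} (hx : D.ubar⁻¹ ∈ x.toValuationSubring)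
    (hy : D.ubar⁻¹ ∈ y.toValuationSubring)
    (h : D.chartInf.Rel ((0 : Fin 2), x) ((1 : Fin 2), y)) : D.IsNode (x, y) := by
  by_cases hxf : D.ubar ∈ x.toValuationSubring
  · have hu0 := D.ubar_ne_zero
    have hvx : pv x (D.deg_one x) D.ubar * pv x (D.deg_one x) D.ubar⁻¹ = 1 := by
      rw [← pv_mul hxf hx, mul_inv_cancel₀ hu0, pv_one]
    have hc : pv x (D.deg_one x) D.ubar⁻¹ = pv y (D.deg_one y) D.ubar⁻¹ :=
      h _ D.chartInf.const_ubar_mem
    have hne : pv y (D.deg_one y) D.ubar⁻¹ ≠ 0 := fun h0 => by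
      rw [hc, h0, mul_zero] at hvx
      exact zero_ne_one hvx
    rw [ne_eq, pv_eq_zero_iff hy, not_or] at hne
    have hyf : D.ubar ∈ y.toValuationSubring := by
      rw [mem_iff_ord_nonneg]
      have h1 := ord_nonneg_of_mem y hy
      rw [y.ord_inv] at h1
      have h2 := hne.2
      rw [y.ord_inv] at h2
      omega
    have hvy : pv y (D.deg_one y) D.ubar * pv y (D.deg_one y) D.ubar⁻¹ = 1 := by
      rw [← pv_mul hyf hy, mul_inv_cancel₀ hu0, pv_one]
    have huv : pv x (D.deg_one x) D.ubar = pv y (D.deg_one y) D.ubar := by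
      rw [eq_inv_of_mul_eq_one_left hvx, eq_inv_of_mul_eq_one_left hvy, hc]
    refine D.isNode_of_rel hxf hyf fun p hp => ?_
    obtain ⟨e, he⟩ := D.exists_div_pow_mem_chartAlg hp
    have hq := he e le_rfl
    have h1 := h _ hq
    simp only [Chart.ev] at h1 ⊢
    have key : ∀ (z : Place k C) (hz : D.ubar ∈ z.toValuationSubring)
        (hz' : D.ubar⁻¹ ∈ z.toValuationSubring) (i : Fin 2),
        pv z (D.deg_one z) (p i) =
          pv z (D.deg_one z) (p i / D.ubar ^ e) * pv z (D.deg_one z) D.ubar ^ e := by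
      intro z hz hz' i
      rw [← pv_pow hz, ← pv_mul (D.chartInf.chartAlg_mem_place hq i hz') (pow_mem hz e),
        div_mul_cancel₀ _ (pow_ne_zero _ hu0)]
    rw [key x hxf hx 0, key y hyf hy 1, huv, h1]
  · by_cases hyf : D.ubar ∈ y.toValuationSubring
    · exfalso
      have hc : pv x (D.deg_one x) D.ubar⁻¹ = pv y (D.deg_one y) D.ubar⁻¹ :=
        h _ D.chartInf.const_ubar_mem
      have h0 : pv x (D.deg_one x) D.ubar⁻¹ = 0 := by
        rw [pv_eq_zero_iff hx, x.ord_inv]
        rw [mem_iff_ord_nonneg] at hxf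
        exact Or.inr (by omega)
      have hvy : pv y (D.deg_one y) D.ubar * pv y (D.deg_one y) D.ubar⁻¹ = 1 := by
        rw [← pv_mul hyf hy, mul_inv_cancel₀ D.ubar_ne_zero, pv_one]
      rw [← hc, h0, mul_zero] at hvy
      exact zero_ne_one hvy
    · exact Or.inr ⟨hxf, hyf, h⟩

theorem isNode_fst_inj {x y y' : Place k C} (h : D.IsNode (x, y)) (h' : D.IsNode (x, y')) :
    y = y' := by
  rcases h with ⟨hx, hy, h⟩ | ⟨hx, hy, h⟩ <;> rcases h' with ⟨hx', hy', h'⟩ | ⟨hx', hy', h'⟩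
  · exact D.chartFin.eq_of_rel_same hy hy' (Chart.Rel.trans D.chartFin h.symm h')
  · exact absurd hx hx'
  · exact absurd hx' hx
  · exact D.chartInf.eq_of_rel_same (D.inv_ubar_mem_of_notMem hy) (D.inv_ubar_mem_of_notMem hy')
      (Chart.Rel.trans D.chartInf h.symm h')

theorem isNode_snd_inj {x x' y : Place k C} (h : D.IsNode (x, y)) (h' : D.IsNode (x', y)) :
    x = x' := by
  rcases h with ⟨hx, hy, h⟩ | ⟨hx, hy, h⟩ <;> rcases h' with ⟨hx', hy', h'⟩ | ⟨hx', hy', h'⟩
  · exact D.chartFin.eq_of_rel_same hx hx' (Chart.Rel.trans D.chartFin h h'.symm)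
  · exact absurd hy hy'
  · exact absurd hy' hy
  · exact D.chartInf.eq_of_rel_same (D.inv_ubar_mem_of_notMem hx) (D.inv_ubar_mem_of_notMem hx')
      (Chart.Rel.trans D.chartInf h h'.symm)

theorem finite_isNode : {s : Place k C × Place k C | D.IsNode s}.Finite := by
  classical
  obtain ⟨ε, hε, hεR, hδ⟩ := D.chartFin.exists_delta
  obtain ⟨ε', hε', hεR', hδ'⟩ := D.chartInf.exists_delta
  refine Set.Finite.of_finite_image (f := Prod.fst) ?_ ?_
  · refine ((D.chartFin.finite_zeros hε hεR).union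
      (D.chartInf.finite_zeros hε' hεR')).subset ?_
    rintro x ⟨⟨x', y⟩, hs, rfl⟩
    rcases hs with ⟨hx, hy, h⟩ | ⟨hx, hy, h⟩
    · refine Or.inl ⟨hx, ?_⟩
      have := h _ (hδ 0)
      simpa [Chart.ev, pv_zero] using this
    · refine Or.inr ⟨D.inv_ubar_mem_of_notMem hx, ?_⟩
      have := h _ (hδ' 0)
      simpa [Chart.ev, pv_zero] using this
  · rintro ⟨x, y⟩ hs ⟨x', y'⟩ hs' (rfl : x = x')
    exact Prod.ext rfl (D.isNode_fst_inj hs hs')

/-- The crossing pairs. -/
def nodes : Finset (Place k C × Place k C) := D.finite_isNode.toFinset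

theorem mem_nodes {s : Place k C × Place k C} : s ∈ D.nodes ↔ D.IsNode s :=
  D.finite_isNode.mem_toFinset

open Classical in
/-- The value of a section of degree `m` at a place. -/
def lev (m : ℕ) (x : Place k C) (c : C) : k :=
  if D.ubar ∈ x.toValuationSubring then pv x (D.deg_one x) c
  else pv x (D.deg_one x) (c / D.ubar ^ m)

theorem lev_of_mem {m : ℕ} {x : Place k C} (hx : D.ubar ∈ x.toValuationSubring) (c : C) :
    D.lev m x c = pv x (D.deg_one x) c := if_pos hx

theorem lev_of_notMem {m : ℕ} {x : Place k C} (hx : D.ubar ∉ x.toValuationSubring) (c : C) :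
    D.lev m x c = pv x (D.deg_one x) (c / D.ubar ^ m) := if_neg hx

theorem rr_mem_place {m : ℕ} {c : C} (hc : c ∈ riemannRochSpace (m • D.pole)) {x : Place k C} :
    (D.ubar ∈ x.toValuationSubring → c ∈ x.toValuationSubring) ∧
      (D.ubar ∉ x.toValuationSubring → c / D.ubar ^ m ∈ x.toValuationSubring) :=
  ⟨fun hx => mem_place_of_mem_coordRing _ _ x hx (D.mem_rr_iff.mp hc).1,
    fun hx => mem_place_of_mem_coordRing _ _ x (D.inv_ubar_mem_of_notMem hx)
      (D.mem_rr_iff.mp hc).2⟩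

/-- Evaluation at a place, on sections of degree `m`. -/
def levHom (m : ℕ) (x : Place k C) : riemannRochSpace (m • D.pole) →ₗ[k] k where
  toFun c := D.lev m x c
  map_add' a b := by
    show D.lev m x ((a : C) + b) = D.lev m x a + D.lev m x b
    by_cases hx : D.ubar ∈ x.toValuationSubring
    · simp only [D.lev_of_mem hx]
      exact pv_add ((D.rr_mem_place a.2).1 hx) ((D.rr_mem_place b.2).1 hx)
    · simp only [D.lev_of_notMem hx, add_div]
      exact pv_add ((D.rr_mem_place a.2).2 hx) ((D.rr_mem_place b.2).2 hx)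
  map_smul' t a := by
    show D.lev m x (t • (a : C)) = t * D.lev m x a
    by_cases hx : D.ubar ∈ x.toValuationSubring
    · simp only [D.lev_of_mem hx]
      exact pv_smul ((D.rr_mem_place a.2).1 hx) t
    · simp only [D.lev_of_notMem hx, smul_div_assoc]
      exact pv_smul ((D.rr_mem_place a.2).2 hx) t

theorem levHom_apply (m : ℕ) (x : Place k C) (c : riemannRochSpace (m • D.pole)) :
    D.levHom m x c = D.lev m x c := rfl

theorem mem_Nm_iff {m : ℕ} {p : Fin 2 → C} :
    p ∈ D.Nm m ↔ (∀ i, p i ∈ riemannRochSpace (m • D.pole)) ∧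
      ∀ s ∈ D.nodes, D.lev m s.1 (p 0) = D.lev m s.2 (p 1) := by
  rw [D.mem_Nm, D.chartFin.mem_chartAlg_iff, D.chartInf.mem_chartAlg_iff]
  constructor
  · rintro ⟨⟨hR, hN⟩, hR', hN'⟩
    refine ⟨fun i => D.mem_rr_iff.mpr ⟨hR i, hR' i⟩, fun ⟨x, y⟩ hs => ?_⟩
    rcases D.mem_nodes.mp hs with ⟨hx, hy, h⟩ | ⟨hx, hy, h⟩
    · rw [D.lev_of_mem hx, D.lev_of_mem hy]
      exact hN x y hx hy h
    · rw [D.lev_of_notMem hx, D.lev_of_notMem hy]
      exact hN' x y (D.inv_ubar_mem_of_notMem hx) (D.inv_ubar_mem_of_notMem hy) h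
  · rintro ⟨hR, hN⟩
    refine ⟨⟨fun i => (D.mem_rr_iff.mp (hR i)).1, fun x y hx hy h => ?_⟩,
      fun i => (D.mem_rr_iff.mp (hR i)).2, fun x y hx hy h => ?_⟩
    · have := hN _ (D.mem_nodes.mpr (D.isNode_of_rel hx hy h))
      rwa [D.lev_of_mem hx, D.lev_of_mem hy] at this
    · have hs := D.isNode_of_rel_inf hx hy h
      have hlev := hN _ (D.mem_nodes.mpr hs)
      simp only at hlev
      rcases hs with ⟨hxf, hyf, h'⟩ | ⟨hxf, hyf, -⟩
      · rw [D.lev_of_mem hxf, D.lev_of_mem hyf] at hlev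
        have hu : pv x (D.deg_one x) D.ubar⁻¹ = pv y (D.deg_one y) D.ubar⁻¹ :=
          h _ D.chartInf.const_ubar_mem
        have e : ∀ (z : Place k C), D.ubar ∈ z.toValuationSubring →
            D.ubar⁻¹ ∈ z.toValuationSubring → ∀ i, pv z (D.deg_one z) (p i / D.ubar ^ m) =
              pv z (D.deg_one z) (p i) * pv z (D.deg_one z) D.ubar⁻¹ ^ m := by
          intro z hz hz' i
          rw [← pv_pow hz', ← pv_mul ((D.rr_mem_place (hR i)).1 hz) (pow_mem hz' m), inv_pow,
            div_eq_mul_inv]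
        rw [e x hxf hx 0, e y hyf hy 1, hlev, hu]
      · rwa [D.lev_of_notMem hxf, D.lev_of_notMem hyf] at hlev

/-! ### Dimensions -/

theorem exists_finrank_rr : ∃ (g : ℤ) (m₀ : ℕ), ∀ (T : Finset (Place k C)),
    ∀ m, m₀ + T.card ≤ m →
      (Module.finrank k (riemannRochSpace (m • D.pole - ∑ x ∈ T, Finsupp.single x 1)) : ℤ) =
        m * D.d - T.card + 1 - g := by
  obtain ⟨g, c₀, h⟩ := D.rrC
  refine ⟨g, c₀.toNat, fun T m hm => ?_⟩
  have hdeg : Divisor.degree (m • D.pole - ∑ x ∈ T, Finsupp.single x (1 : ℤ)) =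
      m * D.d - T.card := by
    rw [map_sub, map_nsmul, D.degree_pole, map_sum, nsmul_eq_mul]
    simp [D.deg_one]
  rw [h _ ?_, hdeg]
  rw [hdeg]
  have hd : (1 : ℤ) ≤ D.d := by exact_mod_cast D.d_pos
  have h1 : (m : ℤ) ≤ m * D.d := le_mul_of_one_le_right (by omega) hd
  have h2 : (c₀.toNat : ℤ) + T.card ≤ m := by exact_mod_cast hm
  have := Int.self_le_toNat c₀
  omega

theorem mem_rr_sub_iff {T : Finset (Place k C)} {m : ℕ} {c : C} :
    c ∈ riemannRochSpace (m • D.pole - ∑ x ∈ T, Finsupp.single x (1 : ℤ)) ↔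
      c ∈ riemannRochSpace (m • D.pole) ∧ ∀ x ∈ T, D.lev m x c = 0 := by
  classical
  have happ : ∀ x, (m • D.pole - ∑ x ∈ T, Finsupp.single x (1 : ℤ)) x =
      m * max (-x.ord D.ubar) 0 - if x ∈ T then 1 else 0 := by
    intro x
    simp [D.pole_apply, Finsupp.single_apply]
  have happ' : ∀ x, (m • D.pole) x = m * max (-x.ord D.ubar) 0 := fun x => by
    simp [D.pole_apply]
  constructor
  · intro h
    have hmem : c ∈ riemannRochSpace (m • D.pole) := by
      rw [mem_riemannRochSpace_iff] at h ⊢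
      intro x
      refine (h x).imp id fun hx => ?_
      rw [happ] at hx
      rw [happ']
      split_ifs at hx <;> omega
    refine ⟨hmem, fun x hx => ?_⟩
    rcases eq_or_ne c 0 with rfl | hc
    · exact map_zero (D.levHom m x)
    have h' := (mem_riemannRochSpace_iff.mp h x).resolve_left hc
    rw [happ, if_pos hx] at h'
    by_cases hxf : D.ubar ∈ x.toValuationSubring
    · rw [D.lev_of_mem hxf, pv_eq_zero_iff ((D.rr_mem_place hmem).1 hxf)]
      rw [mem_iff_ord_nonneg] at hxf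
      rw [max_eq_right (by omega), mul_zero] at h'
      exact Or.inr (by omega)
    · rw [D.lev_of_notMem hxf, pv_eq_zero_iff ((D.rr_mem_place hmem).2 hxf), D.ord_div_pow hc]
      rw [mem_iff_ord_nonneg] at hxf
      rw [max_eq_left (by omega)] at h'
      exact Or.inr (by linarith)
  · rintro ⟨hmem, h⟩
    rw [mem_riemannRochSpace_iff]
    intro x
    rcases eq_or_ne c 0 with hc | hc
    · exact Or.inl hc
    refine Or.inr ?_
    rw [happ]
    have h0 := (mem_riemannRochSpace_iff.mp hmem x).resolve_left hc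
    rw [happ'] at h0
    split_ifs with hx
    · have hl := h x hx
      by_cases hxf : D.ubar ∈ x.toValuationSubring
      · rw [D.lev_of_mem hxf, pv_eq_zero_iff ((D.rr_mem_place hmem).1 hxf)] at hl
        have := hl.resolve_left hc
        rw [mem_iff_ord_nonneg] at hxf
        rw [max_eq_right (by omega), mul_zero]
        omega
      · rw [D.lev_of_notMem hxf, pv_eq_zero_iff ((D.rr_mem_place hmem).2 hxf)] at hl
        have := hl.resolve_left (div_ne_zero hc (pow_ne_zero _ D.ubar_ne_zero))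
        rw [D.ord_div_pow hc] at this
        rw [mem_iff_ord_nonneg] at hxf
        rw [max_eq_left (by omega)]
        linarith
    · omega

/-- Sections of large degree take any values at finitely many places. -/
theorem exists_lev_eq : ∃ (g : ℤ) (m₁ : ℕ), ∀ m, m₁ ≤ m →
    FiniteDimensional k (riemannRochSpace (m • D.pole)) ∧
    (Module.finrank k (riemannRochSpace (m • D.pole)) : ℤ) = m * D.d + 1 - g ∧
    ∀ T : Finset (Place k C), T.card ≤ D.nodes.card → ∀ v : Place k C → k,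
      ∃ c ∈ riemannRochSpace (m • D.pole), ∀ x ∈ T, D.lev m x c = v x := by
  classical
  obtain ⟨g, m₀, h⟩ := D.exists_finrank_rr
  refine ⟨g, m₀ + D.nodes.card + g.toNat, fun m hm => ?_⟩
  have hd : (1 : ℤ) ≤ D.d := by exact_mod_cast D.d_pos
  have hm0 := h ∅ m (by simp only [Finset.card_empty]; omega)
  have e0 : riemannRochSpace (m • D.pole - ∑ x ∈ (∅ : Finset (Place k C)), Finsupp.single x 1) =
      riemannRochSpace (m • D.pole) := congrArg _ (by rw [Finset.sum_empty]; exact sub_zero _)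
  rw [congrArg (fun W : Submodule k C => Module.finrank k W) e0] at hm0
  simp only [Finset.card_empty, Nat.cast_zero, sub_zero] at hm0
  have hfin : FiniteDimensional k (riemannRochSpace (m • D.pole)) := by
    refine FiniteDimensional.of_finrank_pos ?_
    have h1 : (m : ℤ) ≤ m * D.d := le_mul_of_one_le_right (by omega) hd
    have h2 := Int.self_le_toNat g
    omega
  refine ⟨hfin, hm0, fun T hT v => ?_⟩
  let ev : riemannRochSpace (m • D.pole) →ₗ[k] (T → k) :=
    LinearMap.pi fun x => D.levHom m x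
  have hker : (LinearMap.ker ev).map (riemannRochSpace (m • D.pole)).subtype =
      riemannRochSpace (m • D.pole - ∑ x ∈ T, Finsupp.single x (1 : ℤ)) := by
    ext c
    rw [D.mem_rr_sub_iff]
    constructor
    · rintro ⟨c, hc, rfl⟩
      exact ⟨c.2, fun x hx => congrFun (LinearMap.mem_ker.mp hc) ⟨x, hx⟩⟩
    · rintro ⟨hc, hx⟩
      exact ⟨⟨c, hc⟩, LinearMap.mem_ker.mpr (funext fun x => hx x x.2), rfl⟩
  have hk := (Submodule.equivMapOfInjective _
    (Submodule.injective_subtype (riemannRochSpace (m • D.pole))) (LinearMap.ker ev)).finrank_eq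
  rw [hker] at hk
  have hT' := h T m (by omega)
  have hrn := ev.finrank_range_add_finrank_ker
  have hrange : Module.finrank k (LinearMap.range ev) = T.card := by
    rw [hk] at hrn
    have : ((Module.finrank k (LinearMap.range ev) : ℕ) : ℤ) = T.card := by
      have h3 : (Module.finrank k (LinearMap.range ev) : ℤ) +
          Module.finrank k (riemannRochSpace (m • D.pole - ∑ x ∈ T, Finsupp.single x (1 : ℤ))) =
          Module.finrank k (riemannRochSpace (m • D.pole)) := by exact_mod_cast hrn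
      linarith
    exact_mod_cast this
  have htop : LinearMap.range ev = ⊤ := by
    refine Submodule.eq_top_of_finrank_eq ?_
    rw [hrange, Module.finrank_pi, Fintype.card_coe]
  obtain ⟨c, hc⟩ := LinearMap.range_eq_top.mp htop (fun x => v x)
  exact ⟨c, c.2, fun x hx => congrFun hc ⟨x, hx⟩⟩

/-- Pairs of sections of degree `m` subject to a linear condition at each node. -/
def condSpace (m : ℕ) (a b : Place k C × Place k C → k) : Submodule k (Fin 2 → C) where
  carrier := {p | (∀ i, p i ∈ riemannRochSpace (m • D.pole)) ∧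
    ∀ s ∈ D.nodes, a s * D.lev m s.1 (p 0) + b s * D.lev m s.2 (p 1) = 0}
  zero_mem' := ⟨fun _ => Submodule.zero_mem _, fun s _ => by
    have h : ∀ x, D.lev m x 0 = 0 := fun x => map_zero (D.levHom m x)
    simp [h]⟩
  add_mem' := by
    rintro p r ⟨hp, hp'⟩ ⟨hr, hr'⟩
    refine ⟨fun i => Submodule.add_mem _ (hp i) (hr i), fun s hs => ?_⟩
    have e1 := map_add (D.levHom m s.1) ⟨p 0, hp 0⟩ ⟨r 0, hr 0⟩
    have e2 := map_add (D.levHom m s.2) ⟨p 1, hp 1⟩ ⟨r 1, hr 1⟩
    simp only [levHom_apply, AddMemClass.mk_add_mk] at e1 e2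
    rw [Pi.add_apply, Pi.add_apply, e1, e2]
    linear_combination hp' s hs + hr' s hs
  smul_mem' := by
    rintro t p ⟨hp, hp'⟩
    refine ⟨fun i => Submodule.smul_mem _ t (hp i), fun s hs => ?_⟩
    have e1 := map_smul (D.levHom m s.1) t ⟨p 0, hp 0⟩
    have e2 := map_smul (D.levHom m s.2) t ⟨p 1, hp 1⟩
    simp only [levHom_apply, SetLike.mk_smul_mk, smul_eq_mul] at e1 e2
    rw [Pi.smul_apply, Pi.smul_apply, e1, e2]
    linear_combination t * hp' s hs

theorem mem_condSpace {m : ℕ} {a b : Place k C × Place k C → k} {p : Fin 2 → C} :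
    p ∈ D.condSpace m a b ↔ (∀ i, p i ∈ riemannRochSpace (m • D.pole)) ∧
      ∀ s ∈ D.nodes, a s * D.lev m s.1 (p 0) + b s * D.lev m s.2 (p 1) = 0 := Iff.rfl

theorem Nm_eq_condSpace (m : ℕ) : D.Nm m = D.condSpace m (fun _ => 1) (fun _ => -1) := by
  ext p
  simp only [D.mem_Nm_iff, D.mem_condSpace, one_mul, neg_one_mul, ← sub_eq_add_neg, sub_eq_zero]

theorem exists_finrank_condSpace : ∃ (g : ℤ) (m₁ : ℕ), ∀ m, m₁ ≤ m →
    ∀ a b : Place k C × Place k C → k, (∀ s ∈ D.nodes, a s ≠ 0 ∨ b s ≠ 0) →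
      FiniteDimensional k (D.condSpace m a b) ∧
      (Module.finrank k (D.condSpace m a b) : ℤ) = 2 * (m * D.d + 1 - g) - D.nodes.card ∧
      ∀ t ∈ D.nodes, ∃ p ∈ D.condSpace m a b,
        D.lev m t.1 (p 0) = b t ∧ D.lev m t.2 (p 1) = -a t := by
  classical
  obtain ⟨g, m₁, h⟩ := D.exists_lev_eq
  refine ⟨g, m₁, fun m hm a b hab => ?_⟩
  obtain ⟨hfin, hdim, hv⟩ := h m hm
  have hinj1 : ∀ s ∈ D.nodes, ∀ s' ∈ D.nodes, s.1 = s'.1 → s = s' := by
    rintro ⟨x, y⟩ hs ⟨x', y'⟩ hs' (rfl : x = x')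
    exact Prod.ext rfl (D.isNode_fst_inj (D.mem_nodes.mp hs) (D.mem_nodes.mp hs'))
  have hinj2 : ∀ s ∈ D.nodes, ∀ s' ∈ D.nodes, s.2 = s'.2 → s = s' := by
    rintro ⟨x, y⟩ hs ⟨x', y'⟩ hs' (rfl : y = y')
    exact Prod.ext (D.isNode_snd_inj (D.mem_nodes.mp hs) (D.mem_nodes.mp hs')) rfl
  have hpair : ∀ (v w : Place k C × Place k C → k),
      ∃ p : Fin 2 → riemannRochSpace (m • D.pole),
        ∀ s ∈ D.nodes, D.lev m s.1 (p 0) = v s ∧ D.lev m s.2 (p 1) = w s := by
    intro v w
    let pick : (Place k C × Place k C → Place k C) → (Place k C × Place k C → k) → Place k C → k :=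
      fun pr val x => if h : ∃ s ∈ D.nodes, pr s = x then val h.choose else 0
    obtain ⟨c0, hc0, h0⟩ := hv (D.nodes.image Prod.fst) Finset.card_image_le (pick Prod.fst v)
    obtain ⟨c1, hc1, h1⟩ := hv (D.nodes.image Prod.snd) Finset.card_image_le (pick Prod.snd w)
    refine ⟨![⟨c0, hc0⟩, ⟨c1, hc1⟩], fun s hs => ⟨?_, ?_⟩⟩
    · have hex : ∃ t ∈ D.nodes, t.1 = s.1 := ⟨s, hs, rfl⟩
      have := h0 s.1 (Finset.mem_image_of_mem _ hs)
      rw [show pick Prod.fst v s.1 = v hex.choose from dif_pos hex,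
        hinj1 _ hex.choose_spec.1 s hs hex.choose_spec.2] at this
      simpa using this
    · have hex : ∃ t ∈ D.nodes, t.2 = s.2 := ⟨s, hs, rfl⟩
      have := h1 s.2 (Finset.mem_image_of_mem _ hs)
      rw [show pick Prod.snd w s.2 = w hex.choose from dif_pos hex,
        hinj2 _ hex.choose_spec.1 s hs hex.choose_spec.2] at this
      simpa using this
  let Ψ : (Fin 2 → riemannRochSpace (m • D.pole)) →ₗ[k] (D.nodes → k) :=
    LinearMap.pi fun s => a s.1 • (D.levHom m s.1.1).comp (LinearMap.proj 0) +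
      b s.1 • (D.levHom m s.1.2).comp (LinearMap.proj 1)
  have hsurj : LinearMap.range Ψ = ⊤ := by
    rw [LinearMap.range_eq_top]
    intro v
    obtain ⟨p, hp⟩ := hpair
      (fun s => if h : s ∈ D.nodes then (if a s = 0 then 0 else v ⟨s, h⟩ / a s) else 0)
      (fun s => if h : s ∈ D.nodes then (if a s = 0 then v ⟨s, h⟩ / b s else 0) else 0)
    refine ⟨p, funext fun s => ?_⟩
    obtain ⟨e0, e1⟩ := hp s.1 s.2
    simp only [Ψ, LinearMap.pi_apply, LinearMap.add_apply, LinearMap.smul_apply,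
      LinearMap.coe_comp, Function.comp_apply, LinearMap.coe_proj, Function.eval, levHom_apply,
      e0, e1, dif_pos s.2, smul_eq_mul]
    by_cases ha : a s.1 = 0
    · have hb := (hab s.1 s.2).resolve_left (not_not.mpr ha)
      simp [ha, mul_div_cancel₀ _ hb]
    · simp [ha, mul_div_cancel₀ _ ha]
  let incl : (Fin 2 → riemannRochSpace (m • D.pole)) →ₗ[k] (Fin 2 → C) :=
    LinearMap.pi fun i => (riemannRochSpace (m • D.pole)).subtype.comp (LinearMap.proj i)
  have hincl : Function.Injective incl := fun p r hpr =>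
    funext fun i => Subtype.ext (congrFun hpr i)
  have hker : (LinearMap.ker Ψ).map incl = D.condSpace m a b := by
    ext p
    rw [D.mem_condSpace]
    constructor
    · rintro ⟨r, hr, rfl⟩
      exact ⟨fun i => (r i).2, fun s hs => congrFun (LinearMap.mem_ker.mp hr) ⟨s, hs⟩⟩
    · rintro ⟨hp, hp'⟩
      exact ⟨fun i => ⟨p i, hp i⟩, LinearMap.mem_ker.mpr (funext fun s => hp' s.1 s.2), rfl⟩
  have hk := (Submodule.equivMapOfInjective incl hincl (LinearMap.ker Ψ)).finrank_eq
  have hrn := Ψ.finrank_range_add_finrank_ker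
  rw [hsurj, finrank_top, Module.finrank_pi, Fintype.card_coe, hk,
    Module.finrank_pi_fintype, Finset.sum_const, Finset.card_univ, Fintype.card_fin,
    smul_eq_mul] at hrn
  rw [hker] at hrn
  refine ⟨hker ▸ inferInstance, ?_, fun t ht => ?_⟩
  · have : (D.nodes.card : ℤ) + Module.finrank k (D.condSpace m a b) =
        2 * Module.finrank k (riemannRochSpace (m • D.pole)) := by exact_mod_cast hrn
    linarith
  · obtain ⟨p, hp⟩ := hpair (fun s => if s = t then b t else 0) (fun s => if s = t then -a t else 0)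
    refine ⟨fun i => (p i : C), D.mem_condSpace.mpr ⟨fun i => (p i).2, fun s hs => ?_⟩, ?_, ?_⟩
    · rw [(hp s hs).1, (hp s hs).2]
      split_ifs with hst
      · subst hst; ring
      · ring
    · simp [(hp t ht).1]
    · simp [(hp t ht).2]

theorem exists_finrank_Nm : ∃ (g : ℤ) (m₁ : ℕ), ∀ m, m₁ ≤ m →
    FiniteDimensional k (D.Nm m) ∧
      (Module.finrank k (D.Nm m) : ℤ) = 2 * (m * D.d + 1 - g) - D.nodes.card := by
  obtain ⟨g, m₁, h⟩ := D.exists_finrank_condSpace
  refine ⟨g, m₁, fun m hm => ?_⟩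
  obtain ⟨h1, h2, -⟩ := h m hm (fun _ => 1) (fun _ => -1) fun _ _ => Or.inl one_ne_zero
  rw [D.Nm_eq_condSpace]
  exact ⟨h1, h2⟩

theorem ubar_mul_mem_Nm {m : ℕ} {p : Fin 2 → C} (hp : p ∈ D.Nm m) :
    (fun _ => D.ubar) * p ∈ D.Nm (m + 1) := by
  rw [D.mem_Nm] at hp ⊢
  refine ⟨Chart.chartAlg_mul_mem D.chartFin.const_ubar_mem hp.1, ?_⟩
  convert hp.2 using 1
  funext i
  simp only [Pi.mul_apply, pow_succ']
  rw [mul_div_mul_left _ _ D.ubar_ne_zero]

theorem Nm_le_succ (m : ℕ) : D.Nm m ≤ D.Nm (m + 1) := by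
  intro p hp
  rw [D.mem_Nm] at hp ⊢
  refine ⟨hp.1, ?_⟩
  convert Chart.chartAlg_mul_mem D.chartInf.const_ubar_mem hp.2 using 1
  funext i
  simp only [Pi.mul_apply, pow_succ', div_eq_mul_inv, mul_inv]
  ring

/-- Multiplication by `ubar` on pairs. -/
def mulU : (Fin 2 → C) →ₗ[k] (Fin 2 → C) := LinearMap.mulLeft k (fun _ => D.ubar)

theorem exists_Nm_succ : ∃ m₁ : ℕ, ∀ m, m₁ ≤ m →
    D.Nm (m + 1) ≤ D.Nm m ⊔ (D.Nm m).map D.mulU := by
  obtain ⟨g, m₁, h⟩ := D.exists_finrank_Nm
  refine ⟨m₁ + 1, fun m hm => ?_⟩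
  obtain ⟨n, rfl⟩ : ∃ n, m = n + 1 := ⟨m - 1, by omega⟩
  have := (h (n + 1) (by omega)).1
  have := (h (n + 1 + 1) (by omega)).1
  have := (h n (by omega)).1
  have hinj : Function.Injective D.mulU := fun p r hpr => funext fun i =>
    mul_left_cancel₀ D.ubar_ne_zero (congrFun hpr i)
  have hinf : D.Nm (n + 1) ⊓ (D.Nm (n + 1)).map D.mulU ≤ (D.Nm n).map D.mulU := by
    rintro _ ⟨hp, r, hr, rfl⟩
    refine ⟨r, D.mem_Nm.mpr ⟨(D.mem_Nm.mp hr).1, ?_⟩, rfl⟩
    convert (D.mem_Nm.mp hp).2 using 1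
    funext i
    simp only [mulU, LinearMap.mulLeft_apply, Pi.mul_apply, pow_succ']
    rw [mul_div_mul_left _ _ D.ubar_ne_zero]
  have hle : D.Nm (n + 1) ⊔ (D.Nm (n + 1)).map D.mulU ≤ D.Nm (n + 1 + 1) := by
    refine sup_le (D.Nm_le_succ _) ?_
    rintro _ ⟨r, hr, rfl⟩
    exact D.ubar_mul_mem_Nm hr
  refine (Submodule.eq_of_le_of_finrank_le hle ?_).ge
  have hadd := Submodule.finrank_sup_add_finrank_inf_eq (D.Nm (n + 1))
    ((D.Nm (n + 1)).map D.mulU)
  have h1 := Submodule.finrank_mono hinf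
  have h2 : Module.finrank k ((D.Nm n).map D.mulU) = Module.finrank k (D.Nm n) :=
    ((Submodule.equivMapOfInjective _ hinj _).finrank_eq).symm
  have h3 : Module.finrank k ((D.Nm (n + 1)).map D.mulU) = Module.finrank k (D.Nm (n + 1)) :=
    ((Submodule.equivMapOfInjective _ hinj _).finrank_eq).symm
  have e1 := (h (n + 1) (by omega)).2
  have e2 := (h (n + 1 + 1) (by omega)).2
  have e3 := (h n (by omega)).2
  push_cast at e1 e2
  have : (2 : ℤ) * Module.finrank k (D.Nm (n + 1)) =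
      Module.finrank k (D.Nm (n + 1 + 1)) + Module.finrank k (D.Nm n) := by
    rw [e1, e2, e3]; ring
  omega

theorem Wm_le_succ (m : ℕ) : D.Wm m ≤ D.Wm (m + 1) := by
  intro p hp
  obtain ⟨a, ha, haO, rfl⟩ := D.mem_redSpace.mp hp
  rw [mem_twistSpace_one] at ha
  refine D.red2_mem_redSpace (mem_twistSpace_one.mpr ⟨ha.1, ?_⟩) haO
  rw [pow_succ, ← div_div, div_eq_mul_inv _ D.u]
  exact mul_mem ha.2 (self_mem_coordRing L D.u⁻¹)

theorem mulU_mem_Wm {m : ℕ} {p : Fin 2 → C} (hp : p ∈ D.Wm m) : D.mulU p ∈ D.Wm (m + 1) := by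
  obtain ⟨a, ha, haO, rfl⟩ := D.mem_redSpace.mp hp
  rw [mem_twistSpace_one] at ha
  have heq : D.mulU (D.red2 a) = D.red2 (D.u * a) := funext fun i => by
    simp [mulU, D.red2_apply, D.red_mul (D.mem_of_mem_O D.chartFin.u_mem i)
      (D.mem_of_mem_O haO i), D.chartFin.red_u]
  rw [heq]
  refine D.red2_mem_redSpace (mem_twistSpace_one.mpr
    ⟨mul_mem (self_mem_coordRing L D.u) ha.1, ?_⟩) (mul_mem D.chartFin.u_mem haO)
  rw [pow_succ', mul_div_mul_left _ _ D.u_ne_zero]
  exact ha.2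

theorem Wm_mono {m m' : ℕ} (h : m ≤ m') : D.Wm m ≤ D.Wm m' := by
  induction h with
  | refl => exact le_rfl
  | step _ ih => exact ih.trans (D.Wm_le_succ _)

theorem exists_mem_Wm {m : ℕ} {p : Fin 2 → C} (hp : p ∈ D.Nm m) :
    ∃ e : ℕ, p ∈ D.Wm (m + e) ∧ (D.mulU ^ e) p ∈ D.Wm (m + e) := by
  obtain ⟨hp1, hp2⟩ := D.mem_Nm.mp hp
  obtain ⟨a, haR, haO, ha⟩ := Chart.mem_chartAlg.mp hp1
  obtain ⟨b, hbR, hbO, hb⟩ := Chart.mem_chartAlg.mp hp2
  obtain ⟨e₁, he₁⟩ := exists_div_pow_mem D.u_ne_zero haR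
  obtain ⟨e₂, he₂⟩ := exists_div_pow_mem (inv_ne_zero D.u_ne_zero) hbR
  refine ⟨max e₁ e₂, ?_, ?_⟩
  · rw [← ha]
    exact D.red2_mem_redSpace (mem_twistSpace_one.mpr ⟨haR, he₁ _ (by omega)⟩) haO
  · have hbu : b * D.u ^ (m + max e₁ e₂) ∈ D.O := mul_mem hbO (pow_mem D.chartFin.u_mem _)
    have heq : (D.mulU ^ max e₁ e₂) p = D.red2 (b * D.u ^ (m + max e₁ e₂)) := by
      rw [show D.mulU = LinearMap.mulLeft k (fun _ => D.ubar) from rfl, LinearMap.pow_mulLeft]
      funext i
      rw [D.red2_apply, D.red_mul (D.mem_of_mem_O hbO i)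
        (D.mem_of_mem_O (pow_mem D.chartFin.u_mem _) i), D.chartFin.red_u_pow,
        ← D.red2_apply b i, hb]
      simp only [LinearMap.mulLeft_apply, Pi.mul_apply, Pi.pow_apply]
      rw [pow_add, ← mul_assoc (p i / D.ubar ^ m), div_mul_cancel₀ _
        (pow_ne_zero _ D.ubar_ne_zero), mul_comm]
    rw [heq]
    refine D.red2_mem_redSpace (mem_twistSpace_one.mpr ⟨?_, ?_⟩) hbu
    · have := he₂ (m + max e₁ e₂) (by omega)
      rw [inv_inv, inv_pow, div_inv_eq_mul] at this
      exact this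
    · rw [mul_div_cancel_right₀ _ (pow_ne_zero _ D.u_ne_zero)]
      exact hbR

/-- In large degree the reductions are exactly the pairs with node conditions. -/
theorem exists_Wm_eq_Nm : ∃ m₂ : ℕ, ∀ m, m₂ ≤ m → D.Wm m = D.Nm m := by
  classical
  obtain ⟨m₁, hsucc⟩ := D.exists_Nm_succ
  obtain ⟨g, m₀, hfin⟩ := D.exists_finrank_Nm
  set m := max m₀ m₁ with hm
  have := (hfin m (le_max_left _ _)).1
  obtain ⟨S, hS⟩ := (Submodule.fg_iff_finiteDimensional (D.Nm m)).mpr ‹_›
  have hmem : ∀ p ∈ S, p ∈ D.Nm m := fun p hp => hS ▸ Submodule.subset_span hp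
  choose! e he1 he2 using fun p hp => D.exists_mem_Wm (hmem p hp)
  set E := S.sup e with hE
  have hup : ∀ (j M : ℕ) (p : Fin 2 → C), p ∈ D.Wm M → (D.mulU ^ j) p ∈ D.Wm (M + j) := by
    intro j
    induction j with
    | zero => intro M p hp; simpa using hp
    | succ j ih =>
      intro M p hp
      rw [pow_succ', Module.End.mul_apply, ← Nat.add_assoc]
      exact D.mulU_mem_Wm (ih M p hp)
  have hkey : ∀ j, j ≤ 2 * E → ∀ p ∈ D.Nm m, (D.mulU ^ j) p ∈ D.Wm (m + 2 * E) := by
    intro j hj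
    suffices h : D.Nm m ≤ (D.Wm (m + 2 * E)).comap (D.mulU ^ j) from fun p hp => h hp
    rw [← hS, Submodule.span_le]
    intro p hp
    have hpe : e p ≤ E := Finset.le_sup hp
    show (D.mulU ^ j) p ∈ D.Wm (m + 2 * E)
    rcases Nat.lt_or_ge j (e p) with hje | hje
    · exact D.Wm_mono (by omega) (hup j _ p (he1 p hp))
    · rcases Nat.le_total j E with hjE | hjE
      · exact D.Wm_mono (by omega) (hup j _ p (he1 p hp))
      · rw [show j = (j - e p) + e p by omega, pow_add, Module.End.mul_apply]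
        exact D.Wm_mono (by omega) (hup (j - e p) _ _ (he2 p hp))
  have hspan : ∀ i, D.Nm (m + i) ≤ ⨆ j ∈ Finset.range (i + 1), (D.Nm m).map (D.mulU ^ j) := by
    intro i
    induction i with
    | zero =>
      refine le_iSup₂_of_le 0 (Finset.mem_range.mpr Nat.one_pos) ?_
      rw [pow_zero, Module.End.one_eq_id, Submodule.map_id]
      exact le_rfl
    | succ i ih =>
      rw [← Nat.add_assoc]
      refine (hsucc (m + i) (by omega)).trans (sup_le ?_ ?_)
      · refine ih.trans (iSup₂_le fun j hj => ?_)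
        exact le_iSup₂_of_le j (Finset.mem_range.mpr
          (by have := Finset.mem_range.mp hj; omega)) le_rfl
      · refine (Submodule.map_mono ih).trans ?_
        rw [Submodule.map_iSup]
        refine iSup_le fun j => ?_
        rw [Submodule.map_iSup]
        refine iSup_le fun hj => ?_
        refine le_iSup₂_of_le (j + 1) (Finset.mem_range.mpr
          (by have := Finset.mem_range.mp hj; omega)) ?_
        rw [← Submodule.map_comp, pow_succ', Module.End.mul_eq_comp]
  have hbase : D.Nm (m + 2 * E) ≤ D.Wm (m + 2 * E) := by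
    refine (hspan _).trans (iSup₂_le fun j hj => ?_)
    rintro _ ⟨p, hp, rfl⟩
    exact hkey j (Nat.lt_succ_iff.mp (Finset.mem_range.mp hj)) p hp
  refine ⟨m + 2 * E, fun M hM => le_antisymm (D.Wm_le_Nm M) ?_⟩
  induction hM with
  | refl => exact hbase
  | @step M hM ih =>
    have hM' : m₁ ≤ M := by
      have := Nat.le.intro (n := m) (k := 2 * E) rfl
      have : m₁ ≤ m := le_max_right _ _
      exact le_trans (le_trans this (Nat.le_add_right m (2 * E))) hM
    refine (hsucc M hM').trans (sup_le (ih.trans (D.Wm_le_succ M)) ?_)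
    rintro _ ⟨p, hp, rfl⟩
    exact D.mulU_mem_Wm (ih hp)

/-- The graded node description, with the dimension of `L(m poles u)`. -/
theorem exists_redSpace_eq : ∃ (g : ℤ) (m₀ : ℕ), ∀ m, m₀ ≤ m →
    D.redSpace (twistSpace L D.u 1 1 m) = D.Nm m ∧
      FiniteDimensional L (twistSpace L D.u 1 1 m) ∧
      (Module.finrank L (twistSpace L D.u 1 1 m) : ℤ) =
        2 * (m * D.d + 1 - g) - D.nodes.card := by
  obtain ⟨g, m₁, hN⟩ := D.exists_finrank_Nm
  obtain ⟨m₂, hW⟩ := D.exists_Wm_eq_Nm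
  obtain ⟨m₃, h3⟩ := D.twist 1 one_ne_zero 1 one_ne_zero (fun v => one_dvd _)
  refine ⟨g, max m₁ (max m₂ m₃), fun m hm => ?_⟩
  have := (h3 m (by omega)).1
  refine ⟨hW m (by omega), this, ?_⟩
  obtain ⟨r, v, hv, hspan⟩ := D.chartFin.exists_reduced_basis (twistSpace L D.u 1 1 m)
  have hf := D.finrank_redSpace hv
  rw [hspan] at hf
  rw [← hf, ← (hN m (by omega)).2]
  exact congrArg _ (congrArg (fun W : Submodule k (Fin 2 → C) => Module.finrank k W)
    (hW m (by omega)))

end BadCurve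

end Fermat.Agent.BAD
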