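import Fermat.Agent.BAD.Core.Twist

/-!
# Approximate roots of functions reducing to `1`
-/

set_option autoImplicit false

noncomputable section

open Fermat.Agent.RED

namespace Fermat.Agent.BAD

variable {L k : Type*} [Field L] [Field k] {A : ValuationSubring L} {π : A →+* k}
  {F C : Type*} [Field F] [Algebra L F] [Field C] [Algebra k C]

theorem exists_one_sub_pow {R : Type*} [CommRing R] {S : Subring R} {y : R} (hy : y ∈ S) (n : ℕ) :
    ∃ z ∈ S, (1 - y) ^ n = 1 - (n : R) * y + y ^ 2 * z := by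
  induction n with
  | zero => exact ⟨0, zero_mem _, by simp⟩
  | succ n ih =>
    obtain ⟨z, hz, h⟩ := ih
    refine ⟨(n : R) + z * (1 - y), add_mem (natCast_mem _ _) (mul_mem hz (sub_mem (one_mem _) hy)),
      ?_⟩
    rw [pow_succ (1 - y), h]
    push_cast
    ring

namespace TwoBranch

variable (D : TwoBranch π F C)

include D

theorem natCast_inv_mem {n : ℕ} (hn : (n : k) ≠ 0) : (n : L) ≠ 0 ∧ (n : L)⁻¹ ∈ A := by
  have h0 : (n : L) ≠ 0 := fun h => hn (by
    have : (n : A) = 0 := Subtype.ext (by push_cast; exact h)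
    simpa using congrArg π this)
  refine ⟨h0, ?_⟩
  by_contra hnot
  have hnu : ((n : A) : L) ∈ A.nonunits := by
    have := inv_mem_nonunits_of_notMem (A := A) hnot
    push_cast
    simpa using this
  exact hn (by simpa using D.residue_eq_zero_of_nonunit _ hnu)

variable {D}

theorem Small.mul {c d : L} {x y : F} (hx : D.Small c x) (hy : D.Small d y) :
    D.Small (c * d) (x * y) := by
  show (c * d)⁻¹ • (x * y) ∈ D.O
  rw [mul_inv, ← smul_mul_smul_comm]
  exact mul_mem hx hy

theorem Small.smul {c a : L} {x : F} (hx : D.Small c x) (ha : a ∈ A) : D.Small c (a • x) := by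
  show c⁻¹ • a • x ∈ D.O
  rw [smul_comm]
  exact D.smul_mem_O hx ha

theorem Small.mem_O {c : L} {x : F} (hc : c ≠ 0) (hcA : c ∈ A) (hx : D.Small c x) : x ∈ D.O := by
  simpa [smul_smul, mul_inv_cancel₀ hc] using D.smul_mem_O hx hcA

/-- Two roots of unity-like reductions with small defect are close. -/
theorem Small.root_unique {n : ℕ} (hn : (n : k) ≠ 0) {f a b : F} {c : L} (hf : f ∈ D.O)
    (hf1 : ∀ i, D.red i f = 1) (ha : a ∈ D.O) (ha1 : ∀ i, D.red i a = 1) (hb : b ∈ D.O)
    (hb1 : ∀ i, D.red i b = 1) (hsa : D.Small c (a ^ n * f - 1))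
    (hsb : D.Small c (b ^ n * f - 1)) : D.Small c (a - b) := by
  set S := ∑ i ∈ Finset.range n, a ^ i * b ^ (n - 1 - i) with hS
  have hSO : S ∈ D.O := sum_mem fun i _ => mul_mem (pow_mem ha _) (pow_mem hb _)
  refine Small.cancel (g := S * f) ?_ (mul_mem hSO hf) fun i => ?_
  · have := hsa.sub hsb
    rwa [show a ^ n * f - 1 - (b ^ n * f - 1) = (a - b) * (S * f) by
      rw [← mul_assoc, mul_comm (a - b), hS, geom_sum₂_mul]; ring] at this
  · rw [D.red_mul (D.mem_of_mem_O hSO i) (D.mem_of_mem_O hf i), hf1, mul_one, hS,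
      D.red_sum _ _ fun j _ =>
        mul_mem (pow_mem (D.mem_of_mem_O ha i) _) (pow_mem (D.mem_of_mem_O hb i) _)]
    have h1 : ∀ j ∈ Finset.range n, D.red i (a ^ j * b ^ (n - 1 - j)) = 1 := fun j _ => by
      rw [D.red_mul (pow_mem (D.mem_of_mem_O ha i) _) (pow_mem (D.mem_of_mem_O hb i) _),
        D.red_pow (D.mem_of_mem_O ha i), D.red_pow (D.mem_of_mem_O hb i), ha1, hb1, one_pow,
        one_pow, one_mul]
    rw [Finset.sum_congr rfl h1, Finset.sum_const, Finset.card_range, nsmul_one,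
      ← map_natCast (algebraMap k C)]
    exact (map_ne_zero _).mpr hn

end TwoBranch

/-- An element with both reductions `1` making `a ^ n * f` regular on a chart can be improved to
one with `a ^ n * f` arbitrarily close to `1`. -/
theorem exists_approx_root (D : TwoBranch π F C) {u : F} {n : ℕ} (hn : (n : k) ≠ 0) {f a₀ : F}
    (hf : f ∈ D.O) (hf1 : ∀ i, D.red i f = 1) (ha : a₀ ∈ D.O) (ha1 : ∀ i, D.red i a₀ = 1)
    (haR : a₀ ^ n * f ∈ coordRing L u) {c : L} (hc : c ≠ 0) :
    ∃ a ∈ D.O, a ^ n * f ∈ coordRing L u ∧ (∀ i, D.red i a = 1) ∧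
      D.Small c (a ^ n * f - 1) := by
  obtain ⟨hn0, hninv⟩ := D.natCast_inv_mem hn
  have hr : ∀ a ∈ D.O, (∀ i, D.red i a = 1) → a ^ n * f - 1 ∈ D.O ∧
      ∀ i, D.red i (a ^ n * f - 1) = 0 := by
    refine fun a ha ha1 => ⟨sub_mem (mul_mem (pow_mem ha n) hf) (one_mem _), fun i => ?_⟩
    rw [D.red_sub (mul_mem (pow_mem (D.mem_of_mem_O ha i) n) (D.mem_of_mem_O hf i)) (one_mem _),
      D.red_mul (pow_mem (D.mem_of_mem_O ha i) n) (D.mem_of_mem_O hf i),
      D.red_pow (D.mem_of_mem_O ha i), ha1, hf1, D.red_one, one_pow, one_mul, sub_self]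
  obtain ⟨d, hd, hdn, hds⟩ := D.exists_small_of_red_eq_zero (hr a₀ ha ha1).1 (hr a₀ ha ha1).2
  have hdA : d ∈ A := A.nonunits_subset hdn
  suffices h : ∀ N : ℕ, ∃ a ∈ D.O, a ^ n * f ∈ coordRing L u ∧ (∀ i, D.red i a = 1) ∧
      D.Small (d ^ (N + 1)) (a ^ n * f - 1) by
    obtain ⟨N, hN⟩ := D.arch d hdn c hc
    obtain ⟨a, h1, h2, h3, h4⟩ := h N
    refine ⟨a, h1, h2, h3, TwoBranch.Small.mono (pow_ne_zero _ hd) h4 ?_⟩
    rw [pow_succ, mul_div_right_comm]
    exact mul_mem hN hdA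
  intro N
  induction N with
  | zero => exact ⟨a₀, ha, haR, ha1, by simpa using hds⟩
  | succ N ih =>
    obtain ⟨a, haO, haR, ha1, hs⟩ := ih
    obtain ⟨hrO, hr0⟩ := hr a haO ha1
    set r := a ^ n * f - 1 with hr_def
    set y := (n : L)⁻¹ • r with hy_def
    have hyO : y ∈ D.O := D.smul_mem_O hrO hninv
    have hyR : y ∈ coordRing L u := Subalgebra.smul_mem _ (sub_mem haR (one_mem _)) _
    have hny : (n : F) * y = r := by
      rw [hy_def, Algebra.smul_def, ← map_natCast (algebraMap L F), ← mul_assoc, ← map_mul,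
        mul_inv_cancel₀ hn0, map_one, one_mul]
    obtain ⟨z, hz, hpow⟩ := exists_one_sub_pow hyO n
    refine ⟨a * (1 - y), mul_mem haO (sub_mem (one_mem _) hyO), ?_, fun i => ?_, ?_⟩
    · rw [mul_pow, mul_right_comm]
      exact mul_mem haR (pow_mem (sub_mem (one_mem _) hyR) n)
    · have hy0 : D.red i y = 0 := by
        have := D.red_smul (D.mem_of_mem_O hrO i) ⟨_, hninv⟩
        rw [hr0, smul_zero] at this
        exact this
      rw [D.red_mul (D.mem_of_mem_O haO i) (sub_mem (one_mem _) (D.mem_of_mem_O hyO i)),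
        D.red_sub (one_mem _) (D.mem_of_mem_O hyO i), D.red_one, hy0, ha1, sub_zero, mul_one]
    · have heq : (a * (1 - y)) ^ n * f - 1 = -(r * r) + y * y * ((1 + r) * z) := by
        rw [mul_pow, mul_right_comm, show a ^ n * f = 1 + r by rw [hr_def]; ring, hpow, hny]
        ring
      have hsy : D.Small (d ^ (N + 1)) y := hs.smul hninv
      rw [heq]
      refine TwoBranch.Small.mono (c := d ^ (N + 1) * d ^ (N + 1))
        (mul_ne_zero (pow_ne_zero _ hd) (pow_ne_zero _ hd))
        ((hs.mul hs).neg.add ((hsy.mul hsy).mul_right (mul_mem (add_mem (one_mem _) hrO) hz))) ?_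
      rw [← pow_add, show N + 1 + (N + 1) = N + (N + 1 + 1) by omega, pow_add,
        mul_div_cancel_right₀ _ (pow_ne_zero _ hd)]
      exact pow_mem hdA N

end Fermat.Agent.BAD
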