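import Fermat.Agent.BAD.Core.Tau
import Fermat.Agent.BAD.Core.Root
import Mathlib.LinearAlgebra.Basis.VectorSpace

/-!
# A twist with trivial node lines is trivial
-/

set_option autoImplicit false

noncomputable section

open AlgebraicCurve Fermat.Agent.RED

namespace Fermat.Agent.BAD

variable {L k : Type*} [Field L] [Field k] {A : ValuationSubring L} {π : A →+* k}
  {F C : Type*} [Field F] [Algebra L F] [Field C] [Algebra k C]

namespace TwoBranch

variable (D : TwoBranch π F C)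

theorem exists_smul_mem_O (g : F) : ∃ c ∈ A, c ≠ 0 ∧ c • g ∈ D.O := by
  have key : ∀ i, ∃ c ∈ A, c ≠ 0 ∧ c • g ∈ D.V i := by
    intro i
    rcases eq_or_ne g 0 with rfl | hg
    · exact ⟨1, one_mem _, one_ne_zero, by simp [zero_mem]⟩
    obtain ⟨c, hc, hr⟩ := D.scale i g hg
    rw [← D.red_of_mem hc] at hr
    have hc0 : c ≠ 0 := fun h0 => hr (by simp [h0])
    by_cases hcA : c ∈ A
    · exact ⟨c, hcA, hc0, hc⟩
    · refine ⟨1, one_mem _, one_ne_zero, ?_⟩
      have := D.smul_mem hc ⟨c⁻¹, A.nonunits_subset (inv_mem_nonunits_of_notMem hcA)⟩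
      simpa [smul_smul, inv_mul_cancel₀ hc0] using this
  choose c hcA hc0 hc using key
  refine ⟨c 0 * c 1, mul_mem (hcA 0) (hcA 1), mul_ne_zero (hc0 0) (hc0 1),
    D.mem_O.mpr (Fin.forall_fin_two.mpr ⟨?_, ?_⟩)⟩
  · rw [mul_comm, ← smul_smul]
    exact D.smul_mem (hc 0) ⟨_, hcA 1⟩
  · rw [← smul_smul]
    exact D.smul_mem (hc 1) ⟨_, hcA 0⟩

end TwoBranch

namespace BadCurve

variable (D : BadCurve π F C)

theorem twistCond_mono {n : ℕ} {f : F} {m m' : ℕ} {a : F} (h : m ≤ m')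
    (ha : TwistCond L D.u n f m a) : TwistCond L D.u n f m' a := by
  induction h with
  | refl => exact ha
  | step _ ih => exact (D.twistCond_succ ih).1

theorem twistCond_upow_mul {n : ℕ} {f : F} {m : ℕ} {a : F} (e : ℕ)
    (ha : TwistCond L D.u n f m a) : TwistCond L D.u n f (m + e) (D.u ^ e * a) := by
  have := twistCond_mul ha (twistCond_upow D.u_ne_zero n e)
  rwa [mul_one, mul_comm a] at this

theorem exists_twistCond_of_fin {n : ℕ} (hn : 0 < n) {f a : F}
    (h : a ^ n * f ∈ coordRing L D.u) : ∃ M₀, ∀ M, M₀ ≤ M → TwistCond L D.u n f M a := by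
  obtain ⟨e, he⟩ := exists_div_pow_mem D.u_ne_zero h
  refine ⟨e, fun M hM => ⟨h, ?_⟩⟩
  rw [div_pow, ← pow_mul, div_mul_eq_mul_div]
  exact he _ (le_trans hM (Nat.le_mul_of_pos_right M hn))

theorem exists_twistCond_of_inf {n : ℕ} (hn : 0 < n) {f b : F}
    (h : b ^ n * f ∈ coordRing L D.u⁻¹) :
    ∃ M₀, ∀ M, M₀ ≤ M → TwistCond L D.u n f M (D.u ^ M * b) := by
  obtain ⟨e, he⟩ := exists_div_pow_mem (inv_ne_zero D.u_ne_zero) h
  refine ⟨e, fun M hM => ⟨?_, ?_⟩⟩
  · have := he _ (le_trans hM (Nat.le_mul_of_pos_right M hn))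
    rw [inv_inv, inv_pow, div_inv_eq_mul] at this
    convert this using 1
    rw [mul_pow, ← pow_mul]
    ring
  · rw [mul_div_cancel_left₀ _ (pow_ne_zero _ D.u_ne_zero)]
    exact h

/-- A congruence modulo a scalar between twisted spaces descends the degree. -/
theorem exists_lower {n : ℕ} (hn : 0 < n) {f : F} {R P e : ℕ} (hRP : R ≤ P)
    [FiniteDimensional L (twistSpace L D.u n f R)] [FiniteDimensional L (twistSpace L D.u n f P)]
    [FiniteDimensional L (twistSpace L D.u n f (R + e))]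
    (hR : D.Wt n f R = D.Nm R) (hP : D.Wt n f P = D.Nm P)
    (hRe : D.Wt n f (R + e) = D.Nm (R + e)) {c : L} (hc : c ≠ 0) (hcA : c ∈ A) {x y : F}
    (hx : TwistCond L D.u n f P x) (hxO : x ∈ D.O) (hy : TwistCond L D.u n f (R + e) y)
    (hxy : D.Small c (D.u ^ e * x - y)) :
    ∃ z, TwistCond L D.u n f R z ∧ z ∈ D.O ∧ D.Small c (x - z) := by
  classical
  obtain ⟨r, v, hv, hvs⟩ := D.chartFin.exists_reduced_basis (twistSpace L D.u n f R)
  obtain ⟨r', w, hw, hws⟩ := D.chartFin.exists_reduced_basis (twistSpace L D.u n f (R + e))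
  obtain ⟨p', vP, hvP, hvPs⟩ := D.chartFin.exists_reduced_basis (twistSpace L D.u n f P)
  have hvN : Submodule.span k (Set.range fun j => D.red2 (v j)) = D.Nm R := by
    rw [← D.redSpace_eq_span hv, hvs]
    exact hR
  have hwN : Submodule.span k (Set.range fun j => D.red2 (w j)) = D.Nm (R + e) := by
    rw [← D.redSpace_eq_span hw, hws]
    exact hRe
  have hPN : Submodule.span k (Set.range fun j => D.red2 (vP j)) = D.Nm P := by
    rw [← D.redSpace_eq_span hvP, hvPs]
    exact hP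
  have hvV : ∀ j, TwistCond L D.u n f R (v j) := fun j =>
    (mem_twistSpace hn).mp (hvs ▸ Submodule.subset_span ⟨j, rfl⟩)
  have : Module.Finite k (D.Nm P) :=
    hPN ▸ Module.Finite.span_of_finite k (Set.finite_range _)
  have : Module.Finite k (D.Nm R) :=
    hvN ▸ Module.Finite.span_of_finite k (Set.finite_range _)
  have hle : D.Nm R ≤ D.Nm P := by
    rw [← hvN, Submodule.span_le]
    rintro _ ⟨j, rfl⟩
    exact hP ▸ (D.mem_Wt hn).mpr ⟨v j, D.twistCond_mono hRP (hvV j), hv.mem j, rfl⟩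
  obtain ⟨Q', hQ'⟩ := Submodule.exists_isCompl ((D.Nm R).comap (D.Nm P).subtype)
  set Q := Q'.map (D.Nm P).subtype with hQ_def
  have hQle : Q ≤ D.Nm P := Submodule.map_subtype_le _ _
  have hQinf : ∀ p ∈ Q, p ∈ D.Nm R → p = 0 := by
    rintro _ ⟨q, hq, rfl⟩ hqR
    have : q ∈ (D.Nm R).comap (D.Nm P).subtype ⊓ Q' := ⟨hqR, hq⟩
    rw [hQ'.inf_eq_bot, Submodule.mem_bot] at this
    rw [this, map_zero]
  have hQsup : D.Nm P ≤ D.Nm R ⊔ Q := by
    intro p hp
    have hmem : (⟨p, hp⟩ : D.Nm P) ∈ (D.Nm R).comap (D.Nm P).subtype ⊔ Q' :=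
      hQ'.sup_eq_top ▸ Submodule.mem_top
    obtain ⟨a, ha, b, hb, hab⟩ := Submodule.mem_sup.mp hmem
    exact Submodule.mem_sup.mpr ⟨_, ha, _, ⟨b, hb, rfl⟩, congrArg Subtype.val hab⟩
  have : Module.Finite k Q := Submodule.finiteDimensional_of_le hQle
  let bQ := Module.finBasis k Q
  have hex : ∀ j, ∃ a, TwistCond L D.u n f P a ∧ a ∈ D.O ∧ D.red2 a = (bQ j : Fin 2 → C) :=
    fun j => (D.mem_Wt hn).mp (hP.symm ▸ hQle (bQ j).2)
  choose t ht htO htr using hex
  have hliQ : LinearIndependent k fun j => (bQ j : Fin 2 → C) :=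
    bQ.linearIndependent.map' Q.subtype (LinearMap.ker_eq_bot.mpr Q.subtype_injective)
  have hspanQ : Submodule.span k (Set.range fun j => (bQ j : Fin 2 → C)) = Q := by
    rw [show (Set.range fun j => (bQ j : Fin 2 → C)) = Q.subtype '' Set.range bQ by
      rw [← Set.range_comp]; rfl, ← Submodule.map_span, bQ.span_eq, Submodule.map_subtype_top]
  -- a reduced family spanning the space of degree `P`
  have hvt : D.Reduced (Sum.elim v t) := by
    refine ⟨Sum.rec hv.mem htO, ?_⟩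
    have heq : (fun j => D.red2 (Sum.elim v t j)) =
        Sum.elim (fun j => D.red2 (v j)) (fun j => (bQ j : Fin 2 → C)) := by
      funext j
      cases j <;> simp [htr]
    rw [heq]
    refine hv.indep.sum_type hliQ ?_
    rw [hvN, hspanQ, Submodule.disjoint_def]
    exact fun p hpR hpQ => hQinf p hpQ hpR
  have hspanP : Submodule.span L (Set.range (Sum.elim v t)) = twistSpace L D.u n f P := by
    refine Submodule.eq_of_le_of_finrank_le (Submodule.span_le.mpr ?_) ?_
    · rintro _ ⟨j | j, rfl⟩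
      · exact (mem_twistSpace hn).mpr (D.twistCond_mono hRP (hvV j))
      · exact (mem_twistSpace hn).mpr (ht j)
    · rw [← D.finrank_Wt, hP, finrank_span_eq_card (D.linearIndependent_of_red2 hvt.mem hvt.indep),
        Fintype.card_sum, Fintype.card_fin, Fintype.card_fin]
      refine (Submodule.finrank_mono hQsup).trans ?_
      refine (Submodule.finrank_add_le_finrank_add_finrank _ _).trans (Nat.add_le_add_right ?_ _)
      rw [← hvN, finrank_span_eq_card hv.indep, Fintype.card_fin]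
  -- a reduced family seeing the part outside degree `R`
  set μ : (Fin 2 → C) →ₗ[k] (Fin 2 → C) := LinearMap.mulLeft k (fun _ => D.ubar ^ e) with hμ
  have hμinj : Function.Injective μ := fun p q hpq =>
    funext fun i => mul_left_cancel₀ (pow_ne_zero e D.ubar_ne_zero) (congrFun hpq i)
  have hsep : D.Reduced (Sum.elim (fun j => D.u ^ e * t j) w) := by
    refine ⟨Sum.rec (fun j => mul_mem (pow_mem D.chartFin.u_mem e) (htO j)) hw.mem, ?_⟩
    have heq : (fun j => D.red2 (Sum.elim (fun j => D.u ^ e * t j) w j)) =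
        Sum.elim (μ ∘ fun j => (bQ j : Fin 2 → C)) (fun j => D.red2 (w j)) := by
      funext j i
      rcases j with j | j
      · simp only [Sum.elim_inl, Function.comp_apply, hμ, LinearMap.mulLeft_apply, Pi.mul_apply,
          D.red2_apply, ← htr j]
        rw [D.red_mul (pow_mem (D.mem_of_mem_O D.chartFin.u_mem i) e) (D.mem_of_mem_O (htO j) i),
          D.chartFin.red_u_pow]
      · rfl
    rw [heq]
    refine (hliQ.map' μ (LinearMap.ker_eq_bot.mpr hμinj)).sum_type hw.indep ?_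
    rw [Set.range_comp, ← Submodule.map_span, hspanQ, hwN, Submodule.disjoint_def]
    rintro _ ⟨p, hp, rfl⟩ hmem
    refine (congrArg μ (hQinf p hp (D.mem_Nm.mpr ⟨(D.mem_Nm.mp (hQle hp)).1, ?_⟩))).trans
      (map_zero μ)
    convert (D.mem_Nm.mp hmem).2 using 1
    funext i
    simp only [hμ, LinearMap.mulLeft_apply, Pi.mul_apply]
    rw [pow_add, mul_comm (D.ubar ^ R) (D.ubar ^ e),
      mul_div_mul_left _ _ (pow_ne_zero e D.ubar_ne_zero)]
  -- the coefficients outside degree `R` are small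
  obtain ⟨β, hβ⟩ := (Submodule.mem_span_range_iff_exists_fun L).mp
    (hspanP ▸ (mem_twistSpace hn).mpr hx :
      x ∈ Submodule.span L (Set.range (Sum.elim v t)))
  rw [Fintype.sum_sum_type] at hβ
  simp only [Sum.elim_inl, Sum.elim_inr] at hβ
  set z := ∑ j, β (Sum.inl j) • v j with hz
  have hzV : TwistCond L D.u n f R z :=
    (mem_twistSpace hn).mp (sum_mem fun j _ => Submodule.smul_mem _ _
      ((mem_twistSpace hn).mpr (hvV j)))
  have hrest : D.u ^ e * z - y ∈ Submodule.span L (Set.range w) := by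
    rw [hws]
    exact sub_mem ((mem_twistSpace hn).mpr (D.twistCond_upow_mul e hzV))
      ((mem_twistSpace hn).mpr hy)
  obtain ⟨γ, hγ⟩ := (Submodule.mem_span_range_iff_exists_fun L).mp hrest
  have hcomb : D.u ^ e * x - y =
      ∑ j, Sum.elim (fun j => β (Sum.inr j)) γ j • Sum.elim (fun j => D.u ^ e * t j) w j := by
    rw [Fintype.sum_sum_type]
    simp only [Sum.elim_inl, Sum.elim_inr]
    rw [hγ, ← hβ, mul_add, Finset.mul_sum (s := (Finset.univ : Finset (Fin _)))
      (f := fun j => β (Sum.inr j) • t j)]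
    simp only [mul_smul_comm]
    ring
  rw [hcomb] at hxy
  have hsmall := hsep.small_coeff _ hxy
  have hxz : D.Small c (x - z) := by
    rw [← hβ, add_sub_cancel_left]
    show c⁻¹ • _ ∈ D.O
    rw [Finset.smul_sum]
    refine sum_mem fun j _ => ?_
    rw [smul_smul, inv_mul_eq_div]
    exact D.smul_mem_O (htO j) (hsmall (Sum.inl j))
  refine ⟨z, hzV, ?_, hxz⟩
  have := sub_mem hxO (hxz.mem_O hc hcA)
  rwa [sub_sub_cancel] at this

/-- If `f` reduces to `1` and all twisted spaces in large degree reduce to the untwisted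
sections, then `f` is a constant times an `n`-th power. -/
theorem exists_eq_smul_pow {n : ℕ} (hn : (n : k) ≠ 0) {f : F} (hf : D.RedOne f)
    (hdiv : ∀ v : Place L F, (n : ℤ) ∣ v.ord f) {m₁ : ℕ}
    (hW : ∀ m, m₁ ≤ m → D.Wt n f m = D.Nm m) :
    ∃ (e : L) (a : F), e ≠ 0 ∧ a ≠ 0 ∧ f = e • a ^ n := by
  classical
  have hn0 : 0 < n := Nat.pos_of_ne_zero fun h => hn (by rw [h, Nat.cast_zero])
  by_cases hex : ∃ a, a ≠ 0 ∧ TwistCond L D.u n f 0 a
  · obtain ⟨a, ha, h1, h2⟩ := hex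
    rw [pow_zero, div_one] at h2
    obtain ⟨α, hα⟩ := D.const _ h1 h2
    have hα0 : α ≠ 0 := fun h0 => by
      rw [h0, map_zero] at hα
      exact mul_ne_zero (pow_ne_zero _ ha) hf.ne_zero hα
    refine ⟨α, a⁻¹, hα0, inv_ne_zero ha, ?_⟩
    rw [Algebra.smul_def, ← hα, inv_pow, mul_right_comm, mul_inv_cancel₀ (pow_ne_zero _ ha),
      one_mul]
  exfalso
  push Not at hex
  obtain ⟨m₀, hm₀⟩ := D.exists_Wt_spec hn0 hf hdiv
  set m := max m₀ m₁ with hm
  have hfin : ∀ M, m ≤ M → FiniteDimensional L (twistSpace L D.u n f M) :=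
    fun M hM => (hm₀ M (by omega)).1
  have hWM : ∀ M, m ≤ M → D.Wt n f M = D.Nm M := fun M hM => hW M (by omega)
  -- a scalar bounding the first component of `u ^ m * x - y`
  obtain ⟨c₀, hc₀A, hc₀, hbound⟩ : ∃ c₀ ∈ A, c₀ ≠ 0 ∧ ∀ (c : L) (x y : F),
      TwistCond L D.u n f m x → TwistCond L D.u n f m y → D.Small c (D.u ^ m * x - y) →
      D.Small (c / c₀) x := by
    have := hfin m le_rfl
    set V := twistSpace L D.u n f m
    set W := V.map (LinearMap.mulLeft L (D.u ^ m)) ⊔ V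
    obtain ⟨r, v, hv, hvs⟩ := D.chartFin.exists_reduced_basis W
    have hdec : ∀ j, ∃ x ∈ V, ∃ y ∈ V, v j = D.u ^ m * x - y := by
      intro j
      have hmem : v j ∈ W := hvs ▸ Submodule.subset_span ⟨j, rfl⟩
      obtain ⟨_, ⟨x, hx, rfl⟩, y, hy, hxy⟩ := Submodule.mem_sup.mp hmem
      exact ⟨x, hx, -y, neg_mem hy, by rw [← hxy]; simp⟩
    choose xs hxs ys hys hvxy using hdec
    choose cs hcsA hcs hcsO using fun j => D.exists_smul_mem_O (xs j)
    refine ⟨∏ j, cs j, prod_mem fun j _ => hcsA j, Finset.prod_ne_zero_iff.mpr fun j _ => hcs j,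
      fun c x y hx hy hsmall => ?_⟩
    have hxV : x ∈ V := (mem_twistSpace hn0).mpr hx
    have hyV : y ∈ V := (mem_twistSpace hn0).mpr hy
    have hmem : D.u ^ m * x - y ∈ Submodule.span L (Set.range v) :=
      hvs ▸ sub_mem (Submodule.mem_sup_left ⟨x, hxV, rfl⟩) (Submodule.mem_sup_right hyV)
    obtain ⟨β, hβ⟩ := (Submodule.mem_span_range_iff_exists_fun L).mp hmem
    rw [← hβ] at hsmall
    have hβc := hv.small_coeff _ hsmall
    have hxeq : x = ∑ j, β j • xs j := by
      set d := x - ∑ j, β j • xs j with hd_def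
      have h1 : D.u ^ m * d = y - ∑ j, β j • ys j := by
        simp only [hvxy, smul_sub, Finset.sum_sub_distrib, ← mul_smul_comm, ← Finset.mul_sum] at hβ
        rw [hd_def, mul_sub]
        linear_combination (norm := ring) -hβ
      have hdV : d ∈ V := sub_mem hxV (sum_mem fun j _ => Submodule.smul_mem _ _ (hxs j))
      have hudV : D.u ^ m * d ∈ V :=
        h1 ▸ sub_mem hyV (sum_mem fun j _ => Submodule.smul_mem _ _ (hys j))
      have h2 : TwistCond L D.u n f 0 d := by
        refine ⟨((mem_twistSpace hn0).mp hdV).1, ?_⟩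
        have h3 := ((mem_twistSpace hn0).mp hudV).2
        rw [mul_div_cancel_left₀ _ (pow_ne_zero _ D.u_ne_zero)] at h3
        rwa [pow_zero, div_one]
      by_contra hne
      exact hex d (sub_ne_zero.mpr hne) h2
    show (c / ∏ j, cs j)⁻¹ • x ∈ D.O
    rw [hxeq, Finset.smul_sum]
    refine sum_mem fun j hj => ?_
    rw [← Finset.prod_erase_mul _ _ hj, smul_smul, show (c / ((∏ i ∈ Finset.univ.erase j, cs i) *
      cs j))⁻¹ * β j = (β j / c * ∏ i ∈ Finset.univ.erase j, cs i) * cs j by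
        rw [inv_div]; ring, ← smul_smul]
    exact D.smul_mem_O (hcsO j) (mul_mem (hβc j) (prod_mem fun i _ => hcsA i))
  obtain ⟨x₀, hx₀, hx₀0⟩ := D.nontriv
  set c := c₀ * x₀ with hc_def
  have hc : c ≠ 0 := mul_ne_zero hc₀ hx₀0
  have hcn : c ∈ A.nonunits := by
    rw [ValuationSubring.mem_nonunits_iff] at hx₀ ⊢
    rw [map_mul]
    exact lt_of_le_of_lt (mul_le_of_le_one_left' ((A.valuation_le_one_iff _).mpr hc₀A)) hx₀
  have hcA : c ∈ A := A.nonunits_subset hcn
  -- approximate roots on the two charts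
  have hroot : ∃ (a b : F), a ∈ D.O ∧ b ∈ D.O ∧ a ^ n * f ∈ coordRing L D.u ∧
      b ^ n * f ∈ coordRing L D.u⁻¹ ∧ (∀ i, D.red i a = 1) ∧ D.Small c (a - b) := by
    have h1 : (1 : Fin 2 → C) ∈ D.Nm m := D.mem_Nm.mpr ⟨Chart.one_mem_chartAlg, by
      convert Chart.chartAlg_pow_mem D.chartInf.const_ubar_mem m using 1
      funext i
      simp [div_eq_mul_inv]⟩
    have h2 : (fun _ => D.ubar ^ m) ∈ D.Nm m := D.mem_Nm.mpr
      ⟨Chart.chartAlg_pow_mem D.chartFin.const_ubar_mem m, by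
        convert Chart.one_mem_chartAlg (D := D.toBadBase) (u := D.u⁻¹) using 1
        funext i
        simp [div_self (pow_ne_zero m D.ubar_ne_zero)]⟩
    obtain ⟨a₀, ha₀, ha₀O, ha₀r⟩ := (D.mem_Wt hn0).mp ((hWM m le_rfl).symm ▸ h1)
    obtain ⟨a₁, ha₁, ha₁O, ha₁r⟩ := (D.mem_Wt hn0).mp ((hWM m le_rfl).symm ▸ h2)
    obtain ⟨a, haO, haR, ha1, has⟩ := exists_approx_root D.toTwoBranch hn hf.mem hf.red ha₀O
      (fun i => congrFun ha₀r i) ha₀.1 hc
    obtain ⟨b, hbO, hbR, hb1, hbs⟩ := exists_approx_root D.toTwoBranch hn hf.mem hf.red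
      (D.div_u_pow_mem_O ha₁O m) (fun i => by
        rw [D.red_div_u_pow ha₁O, ← D.red2_apply, ha₁r]
        exact div_self (pow_ne_zero m D.ubar_ne_zero)) ha₁.2 hc
    exact ⟨a, b, haO, hbO, haR, hbR, ha1,
      TwoBranch.Small.root_unique hn hf.mem hf.red haO ha1 hbO hb1 has hbs⟩
  obtain ⟨a, b, haO, hbO, haR, hbR, ha1, hab⟩ := hroot
  obtain ⟨Ma, hMa⟩ := D.exists_twistCond_of_fin hn0 haR
  obtain ⟨Mb, hMb⟩ := D.exists_twistCond_of_inf hn0 hbR
  set M := max (2 * m) (max Ma Mb) with hM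
  have haV := hMa M (by omega)
  have hbV := hMb M (by omega)
  have huO : ∀ j, D.u ^ j ∈ D.O := fun j => pow_mem D.chartFin.u_mem j
  obtain ⟨N, hN⟩ : ∃ N, M = N + m := ⟨M - m, by omega⟩
  have := hfin m le_rfl
  have := hfin M (by omega)
  have := hfin N (by omega)
  have := hfin (N + m) (by omega)
  have := hfin (m + N) (by omega)
  have := hfin (M + N) (by omega)
  have := hfin (m + m) (by omega)
  obtain ⟨z, hz, -, hzs⟩ := D.exists_lower hn0 (R := N) (P := M + N) (e := m) (by omega)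
    (hWM N (by omega)) (hWM _ (by omega)) (hWM _ (by omega)) hc hcA
    (D.twistCond_upow_mul N haV) (mul_mem (huO N) haO) (hN ▸ hbV) (by
      convert hab.mul_left (huO M) using 1
      rw [hN, pow_add]
      ring)
  obtain ⟨a₂, ha₂, ha₂O, ha₂s⟩ := D.exists_lower hn0 (R := m) (P := M) (e := N) (by omega)
    (hWM m le_rfl) (hWM _ (by omega)) (hWM _ (by omega)) hc hcA haV haO
    (D.twistCond_mono (by omega) hz) hzs
  obtain ⟨a', ha', -, ha's⟩ := D.exists_lower hn0 (R := m) (P := m + m) (e := N) (by omega)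
    (hWM m le_rfl) (hWM _ (by omega)) (hWM _ (by omega)) hc hcA
    (D.twistCond_upow_mul m ha₂) (mul_mem (huO m) ha₂O)
    ((show m + N = M by omega) ▸ hbV) (by
      convert (hab.sub ha₂s).mul_left (huO M) using 1
      rw [hN, pow_add]
      ring)
  have h0 := hbound c a₂ a' ha₂ ha' ha's
  rw [hc_def, mul_div_cancel_left₀ _ hc₀] at h0
  have e1 := TwoBranch.Small.red_eq_zero hx₀0 hx₀ h0 0
  have e2 := TwoBranch.Small.red_congr hc hcn ha₂O ha₂s 0
  rw [e1, ha1] at e2
  exact one_ne_zero e2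

end BadCurve

end Fermat.Agent.BAD
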