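import Fermat.Agent.BAD.Core.Scale

/-!
# The two theorems on the abstract bad reduction data
-/

set_option autoImplicit false

noncomputable section

open AlgebraicCurve Fermat.Agent.RED

namespace Fermat.Agent.BAD

variable {L k : Type*} [Field L] [Field k]

namespace BadCurve

variable {A : ValuationSubring L} {π : A →+* k} {F C : Type*} [Field F] [Algebra L F]
  [IsAlgClosed L] [Field C] [Algebra k C] [IsAlgClosed k] (D : BadCurve π F C)

omit [IsAlgClosed L] [IsAlgClosed k] in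
theorem dvd_ord_smul_pow_mul {n : ℕ} {c : L} (hc : c ≠ 0) {a f : F} (ha : a ≠ 0) (hf : f ≠ 0)
    (hdiv : ∀ v : Place L F, (n : ℤ) ∣ v.ord f) (v : Place L F) :
    (n : ℤ) ∣ v.ord (c • (a ^ n * f)) := by
  rw [Algebra.smul_def, v.ord_mul ((map_ne_zero _).mpr hc) (mul_ne_zero (pow_ne_zero _ ha) hf),
    FF.ord_algebraMap, zero_add, v.ord_mul (pow_ne_zero _ ha) hf, ← zpow_natCast, v.ord_zpow]
  exact dvd_add (dvd_mul_right _ _) (hdiv v)

omit [IsAlgClosed k] in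
/-- A symmetry inducing the identity on reductions satisfies `(σ - 1) ^ 2 = 0` on classes of
order dividing `n`. -/
theorem inertia_sq (σ : SemilinearAut L F) (hσ : D.Sym σ (RingEquiv.refl C))
    (n : ℕ) (hn : (n : k) ≠ 0) (f : F) (hf : f ≠ 0)
    (hdiv : ∀ v : Place L F, (n : ℤ) ∣ v.ord f) :
    ∃ (e : L) (a : F), e ≠ 0 ∧ a ≠ 0 ∧ σ • σ • f * f = e • a ^ n * (σ • f) ^ 2 := by
  have hn0 : 0 < n := Nat.pos_of_ne_zero fun h => hn (by rw [h, Nat.cast_zero])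
  obtain ⟨c, a, hc, ha, hO, hr, -⟩ := D.exists_unit_scale hn0 hf
  set F' := c • (a ^ n * f) with hF'
  have hF'0 : F' ≠ 0 := smul_ne_zero hc (mul_ne_zero (pow_ne_zero _ ha) hf)
  have hσF' : σ • F' ≠ 0 := (smul_ne_zero_iff_ne σ).mpr hF'0
  set g := σ • F' * F'⁻¹ with hg_def
  have hg : D.RedOne g := ⟨mul_mem (hσ.mem_O hO) (D.inv_mem_O hO hr), fun i => by
    rw [D.red_mul (D.mem_of_mem_O (hσ.mem_O hO) i) (D.inv_mem_of_red_ne_zero (D.mem_of_mem_O hO i)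
      (hr i)), hσ.red_eq i F' (D.mem_of_mem_O hO i), D.red_inv (D.mem_of_mem_O hO i) (hr i),
      RingEquiv.refl_apply, mul_inv_cancel₀ (hr i)]⟩
  have hFdiv := dvd_ord_smul_pow_mul hc ha hf hdiv
  have hgdiv := dvd_ord_mul hσF' (inv_ne_zero hF'0) (dvd_ord_smul σ hFdiv) (dvd_ord_inv hFdiv)
  obtain ⟨e, a₁, he, ha₁, heq⟩ :=
    D.exists_eq_smul_pow_of_sym hσ D.nodePow_refl hn hg hgdiv
  set c₁ := SemilinearAut.baseAut σ c with hc₁
  set c₂ := SemilinearAut.baseAut σ c₁ with hc₂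
  have hc₁0 : c₁ ≠ 0 := (map_ne_zero _).mpr hc
  have hc₂0 : c₂ ≠ 0 := (map_ne_zero _).mpr hc₁0
  have hσa : σ • a ≠ 0 := (smul_ne_zero_iff_ne σ).mpr ha
  have hσσa : σ • σ • a ≠ 0 := (smul_ne_zero_iff_ne σ).mpr hσa
  have hσf : σ • f ≠ 0 := (smul_ne_zero_iff_ne σ).mpr hf
  refine ⟨e * c₁ ^ 2 / (c₂ * c), a₁ * (σ • a) ^ 2 / (σ • σ • a * a),
    div_ne_zero (mul_ne_zero he (pow_ne_zero _ hc₁0)) (mul_ne_zero hc₂0 hc),
    div_ne_zero (mul_ne_zero ha₁ (pow_ne_zero _ hσa)) (mul_ne_zero hσσa ha), ?_⟩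
  simp only [hg_def, hF', smul_mul', semilinear_smul_smul, smul_inv'', smul_pow', ← hc₁, ← hc₂,
    pow_one] at heq
  simp only [Algebra.smul_def, map_div₀, map_mul, map_pow, mul_pow, div_pow, ← pow_mul] at heq ⊢
  have i1 : algebraMap L F c ≠ 0 := (map_ne_zero _).mpr hc
  have i2 : algebraMap L F c₁ ≠ 0 := (map_ne_zero _).mpr hc₁0
  have i3 : algebraMap L F c₂ ≠ 0 := (map_ne_zero _).mpr hc₂0
  field_simp at heq ⊢
  linear_combination heq

/-- A symmetry inducing the `q`-power Frobenius acts as `q` on the classes whose functions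
reduce to constants times `n`-th powers, after squaring. -/
theorem frobenius_sq (σ : SemilinearAut L F) (σC : C ≃+* C) (hσ : D.Sym σ σC)
    (hΦ : ∀ c : C, D.Φ (D.Φ (σC (σC c))) = c ^ (D.q * D.q))
    (n : ℕ) (hn : (n : k) ≠ 0) (f : F) (hf : f ≠ 0)
    (hdiv : ∀ v : Place L F, (n : ℤ) ∣ v.ord f) (hred : D.RedIsPow n f) :
    ∃ (e : L) (a : F), e ≠ 0 ∧ a ≠ 0 ∧ σ • σ • f = e • a ^ n * f ^ (D.q * D.q) := by
  have hn0 : 0 < n := Nat.pos_of_ne_zero fun h => hn (by rw [h, Nat.cast_zero])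
  obtain ⟨c, a, hc, ha, hO, hr, hrf⟩ := D.exists_unit_scale hn0 hf
  set F' := c • (a ^ n * f) with hF'
  have hroot : ∀ i, ∃ h : C, D.red i F' = h ^ n := by
    intro i
    obtain ⟨s, r, hs, hs0, hrs⟩ := hrf i
    obtain ⟨α, h, hh⟩ := hred i s hs hs0
    obtain ⟨β, hβ⟩ := IsAlgClosed.exists_pow_nat_eq α hn0
    exact ⟨r * (β • h), by rw [hrs, hh, mul_pow, _root_.smul_pow, hβ]⟩
  choose h hh using hroot
  have hh0 : ∀ i, h i ≠ 0 := fun i h0 => hr i (by rw [hh, h0, zero_pow hn0.ne'])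
  obtain ⟨l, hlO, hl⟩ := D.chartFin.exists_red_eq h
  have hl0 : ∀ i, D.red i l ≠ 0 := fun i => by rw [hl]; exact hh0 i
  have hlne : l ≠ 0 := fun h0 => hl0 0 (by rw [h0, TwoBranch.red_zero])
  have hliO : l⁻¹ ∈ D.O := D.inv_mem_O hlO hl0
  set g := c • ((a * l⁻¹) ^ n * f) with hg_def
  have hgF : g = l⁻¹ ^ n * F' := by
    rw [hg_def, hF', mul_smul_comm]
    congr 1
    ring
  have hg : D.RedOne g := ⟨hgF ▸ mul_mem (pow_mem hliO n) hO, fun i => by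
    rw [hgF, D.red_mul (pow_mem (D.mem_of_mem_O hliO i) n) (D.mem_of_mem_O hO i),
      D.red_pow (D.mem_of_mem_O hliO i), D.red_inv (D.mem_of_mem_O hlO i) (hl0 i), hl, hh,
      ← mul_pow, inv_mul_cancel₀ (hh0 i), one_pow]⟩
  have hal : a * l⁻¹ ≠ 0 := mul_ne_zero ha (inv_ne_zero hlne)
  have hsym : D.Sym (σ * σ) (σC.trans σC) := by
    refine ⟨by rw [mul_smul, hσ.map_u, hσ.map_u], fun i x hx => ?_, fun i x hx => ?_⟩
    · rw [mul_smul]
      exact hσ.mem i _ (hσ.mem i x hx)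
    · rw [mul_smul, hσ.red_eq i _ (hσ.mem i x hx), hσ.red_eq i x hx, RingEquiv.trans_apply]
  obtain ⟨e, a₁, he, ha₁, heq⟩ := D.exists_eq_smul_pow_of_sym hsym
    (hsym.nodePow (N := D.q * D.q) fun x => by rw [RingEquiv.trans_apply]; exact hΦ x) hn hg
    (dvd_ord_smul_pow_mul hc hal hf hdiv)
  set c₂ := SemilinearAut.baseAut (σ * σ) c with hc₂
  have hc₂0 : c₂ ≠ 0 := (map_ne_zero _).mpr hc
  set N := D.q * D.q
  set a₂ := (σ * σ) • (a * l⁻¹) with ha₂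
  have ha₂0 : a₂ ≠ 0 := (smul_ne_zero_iff_ne _).mpr hal
  refine ⟨e * c ^ N / c₂, a₁ * (a * l⁻¹) ^ N / a₂,
    div_ne_zero (mul_ne_zero he (pow_ne_zero _ hc)) hc₂0,
    div_ne_zero (mul_ne_zero ha₁ (pow_ne_zero _ hal)) ha₂0, ?_⟩
  rw [hg_def, semilinear_smul_smul, smul_mul', smul_pow', ← hc₂, ← ha₂] at heq
  rw [← mul_smul]
  simp only [Algebra.smul_def, map_div₀, map_mul, map_pow, mul_pow, div_pow] at heq ⊢
  have i3 : algebraMap L F c₂ ≠ 0 := (map_ne_zero _).mpr hc₂0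
  field_simp
  linear_combination heq

end BadCurve

end Fermat.Agent.BAD
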