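import Fermat.Agent.BAD.Core.Basis

/-!
# The reduced algebra of a chart is the algebra of the nodes
-/

set_option autoImplicit false

noncomputable section

open AlgebraicCurve IntermediateField Polynomial Fermat.Agent.RED WithZero

namespace Fermat.Agent.BAD

variable {L k : Type*} [Field L] [Field k]

section Places

variable {K E : Type*} [Field K] [Field E] [Algebra K E] (x : Place K E)

open Classical in
/-- The value at a place, extended by zero. -/
def pv (hd : x.deg = 1) (f : E) : K :=
  if h : f ∈ x.toValuationSubring then placeVal x hd ⟨f, h⟩ else 0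

variable {x} {hd : x.deg = 1}

theorem pv_of_mem {f : E} (h : f ∈ x.toValuationSubring) : pv x hd f = placeVal x hd ⟨f, h⟩ :=
  dif_pos h

theorem pv_zero : pv x hd (0 : E) = 0 := by
  rw [pv_of_mem (zero_mem _)]
  exact map_zero (placeVal x hd)

theorem pv_one : pv x hd (1 : E) = 1 := by
  rw [pv_of_mem (one_mem _)]
  exact map_one (placeVal x hd)

theorem pv_add {f g : E} (hf : f ∈ x.toValuationSubring) (hg : g ∈ x.toValuationSubring) :
    pv x hd (f + g) = pv x hd f + pv x hd g := by
  rw [pv_of_mem hf, pv_of_mem hg, pv_of_mem (add_mem hf hg), ← map_add]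
  rfl

theorem pv_sub {f g : E} (hf : f ∈ x.toValuationSubring) (hg : g ∈ x.toValuationSubring) :
    pv x hd (f - g) = pv x hd f - pv x hd g := by
  rw [pv_of_mem hf, pv_of_mem hg, pv_of_mem (sub_mem hf hg), ← map_sub]
  rfl

theorem pv_mul {f g : E} (hf : f ∈ x.toValuationSubring) (hg : g ∈ x.toValuationSubring) :
    pv x hd (f * g) = pv x hd f * pv x hd g := by
  rw [pv_of_mem hf, pv_of_mem hg, pv_of_mem (mul_mem hf hg), ← map_mul]
  rfl

theorem pv_pow {f : E} (hf : f ∈ x.toValuationSubring) (n : ℕ) :
    pv x hd (f ^ n) = pv x hd f ^ n := by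
  rw [pv_of_mem hf, pv_of_mem (pow_mem hf n), ← map_pow]
  rfl

theorem pv_algebraMap (a : K) : pv x hd (algebraMap K E a) = a := by
  rw [pv_of_mem (x.algebraMap_mem' a)]
  exact placeVal_algebraMap x hd a

theorem smul_mem_place {f : E} (hf : f ∈ x.toValuationSubring) (a : K) :
    a • f ∈ x.toValuationSubring := by
  rw [Algebra.smul_def]
  exact mul_mem (x.algebraMap_mem' a) hf

theorem pv_smul {f : E} (hf : f ∈ x.toValuationSubring) (a : K) :
    pv x hd (a • f) = a * pv x hd f := by
  rw [Algebra.smul_def, pv_mul (x.algebraMap_mem' a) hf, pv_algebraMap]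

theorem pv_eq_zero_iff {f : E} (hf : f ∈ x.toValuationSubring) :
    pv x hd f = 0 ↔ f = 0 ∨ 0 < x.ord f := by
  rw [pv_of_mem hf]
  exact placeVal_eq_zero_iff x hd ⟨f, hf⟩

variable (x)

/-- Vanishing to order at least `r`. -/
def Vanish (r : ℕ) (f : E) : Prop := x.adicValuation f ≤ exp (-(r : ℤ))

variable {x}

theorem vanish_iff {r : ℕ} {f : E} : Vanish x r f ↔ f = 0 ∨ (r : ℤ) ≤ x.ord f := by
  rw [Vanish, x.adicValuation_le_exp_iff, neg_neg]

theorem vanish_zero_iff {f : E} : Vanish x 0 f ↔ f ∈ x.toValuationSubring := by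
  rw [vanish_iff, mem_iff_ord_nonneg]
  rcases eq_or_ne f 0 with rfl | hf
  · simp
  · simp [hf]

theorem vanish_one_iff {f : E} :
    Vanish x 1 f ↔ f ∈ x.toValuationSubring ∧ pv x hd f = 0 := by
  constructor
  · intro h
    have hmem : f ∈ x.toValuationSubring := by
      rw [mem_iff_ord_nonneg]
      rcases vanish_iff.mp h with rfl | h'
      · simp
      · omega
    refine ⟨hmem, (pv_eq_zero_iff hmem).mpr ?_⟩
    rcases vanish_iff.mp h with h0 | h'
    · exact Or.inl h0
    · exact Or.inr (by omega)
  · rintro ⟨hmem, h0⟩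
    rcases (pv_eq_zero_iff hmem).mp h0 with h' | h'
    · exact vanish_iff.mpr (Or.inl h')
    · exact vanish_iff.mpr (Or.inr (by omega))

theorem Vanish.add {r : ℕ} {f g : E} (hf : Vanish x r f) (hg : Vanish x r g) :
    Vanish x r (f + g) := (Valuation.map_add _ _ _).trans (max_le hf hg)

theorem Vanish.neg {r : ℕ} {f : E} (hf : Vanish x r f) : Vanish x r (-f) := by
  simpa [Vanish, Valuation.map_neg] using hf

theorem Vanish.sub {r : ℕ} {f g : E} (hf : Vanish x r f) (hg : Vanish x r g) :
    Vanish x r (f - g) := sub_eq_add_neg f g ▸ hf.add hg.neg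

theorem Vanish.mul {r s : ℕ} {f g : E} (hf : Vanish x r f) (hg : Vanish x s g) :
    Vanish x (r + s) (f * g) := by
  unfold Vanish at *
  rw [map_mul, Nat.cast_add, neg_add, WithZero.exp_add]
  exact mul_le_mul' hf hg

theorem Vanish.mono {r s : ℕ} {f : E} (hf : Vanish x r f) (h : s ≤ r) : Vanish x s f := by
  rcases vanish_iff.mp hf with h0 | h0
  · exact vanish_iff.mpr (Or.inl h0)
  · exact vanish_iff.mpr (Or.inr (le_trans (by exact_mod_cast h) h0))

theorem Vanish.smul {r : ℕ} {f : E} (hf : Vanish x r f) (a : K) : Vanish x r (a • f) := by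
  rw [Algebra.smul_def]
  simpa using (vanish_zero_iff.mpr (x.algebraMap_mem' a)).mul hf

theorem Vanish.pow {r : ℕ} {f : E} (hf : Vanish x r f) (k : ℕ) : Vanish x (k * r) (f ^ k) := by
  induction k with
  | zero => simpa using vanish_zero_iff.mpr (one_mem x.toValuationSubring)
  | succ k ih => rw [Nat.succ_mul, pow_succ]; exact ih.mul hf

/-- Removing the leading term. -/
theorem exists_sub_vanish (hd : x.deg = 1) {r : ℕ} {f s : E} (hf : Vanish x r f)
    (hs : x.ord s = 1) : ∃ a : K, Vanish x (r + 1) (f - a • s ^ r) := by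
  have hs0 : s ≠ 0 := fun h0 => by simp [h0] at hs
  have hsr : x.ord (s ^ r) = r := by
    rw [← zpow_natCast, x.ord_zpow, hs, mul_one]
  have hmem : f / s ^ r ∈ x.toValuationSubring := by
    rw [mem_iff_ord_nonneg]
    rcases vanish_iff.mp hf with rfl | h'
    · simp
    · rcases eq_or_ne f 0 with rfl | hf0
      · simp
      rw [div_eq_mul_inv, x.ord_mul hf0 (inv_ne_zero (pow_ne_zero _ hs0)), x.ord_inv, hsr]
      omega
  refine ⟨pv x hd (f / s ^ r), ?_⟩
  have h1 : Vanish x 1 (f / s ^ r - algebraMap K E (pv x hd (f / s ^ r))) := by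
    refine (vanish_one_iff (hd := hd)).mpr ⟨sub_mem hmem (x.algebraMap_mem' _), ?_⟩
    rw [pv_sub hmem (x.algebraMap_mem' _), pv_algebraMap, sub_self]
  have h2 : Vanish x r (s ^ r) := vanish_iff.mpr (Or.inr hsr.ge)
  have h3 := h2.mul h1
  rw [mul_sub, mul_div_cancel₀ _ (pow_ne_zero _ hs0), mul_comm (s ^ r), ← Algebra.smul_def] at h3
  exact h3

end Places

variable {A : ValuationSubring L} {π : A →+* k} {F C : Type*} [Field F] [Algebra L F] [Field C]
    [Algebra k C] {D : BadBase π F C}

namespace Chart

variable {u : F} {ubar : C} {d : ℕ} (h : Chart D u ubar d)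

include h

omit h in
/-- The reductions of the functions of a chart. -/
def chartAlg (D : BadBase π F C) (u : F) : Submodule k (Fin 2 → C) :=
  D.redSpace (Subalgebra.toSubmodule (coordRing L u))

omit h in
theorem mem_chartAlg {p : Fin 2 → C} :
    p ∈ chartAlg D u ↔ ∃ a ∈ coordRing L u, a ∈ D.O ∧ D.red2 a = p := D.mem_redSpace

omit h in
theorem chartAlg_mul_mem {p r : Fin 2 → C} (hp : p ∈ chartAlg D u) (hr : r ∈ chartAlg D u) :
    p * r ∈ chartAlg D u := by
  obtain ⟨a, haR, haO, rfl⟩ := mem_chartAlg.mp hp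
  obtain ⟨b, hbR, hbO, rfl⟩ := mem_chartAlg.mp hr
  exact mem_chartAlg.mpr ⟨a * b, mul_mem haR hbR, mul_mem haO hbO,
    funext fun i => D.red_mul (D.mem_of_mem_O haO i) (D.mem_of_mem_O hbO i)⟩

omit h in
theorem one_mem_chartAlg : (1 : Fin 2 → C) ∈ chartAlg D u :=
  mem_chartAlg.mpr ⟨1, one_mem _, one_mem _, funext fun _ => D.red_one⟩

omit h in
theorem chartAlg_pow_mem {p : Fin 2 → C} (hp : p ∈ chartAlg D u) (k : ℕ) :
    p ^ k ∈ chartAlg D u := by
  induction k with
  | zero => rw [pow_zero]; exact one_mem_chartAlg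
  | succ k ih => rw [pow_succ]; exact chartAlg_mul_mem ih hp

theorem const_ubar_mem : (fun _ => ubar) ∈ chartAlg D u :=
  mem_chartAlg.mpr ⟨u, self_mem_coordRing L u, h.u_mem, funext h.red_u⟩

theorem chartAlg_apply_mem {p : Fin 2 → C} (hp : p ∈ chartAlg D u) (i : Fin 2) :
    p i ∈ coordRing k ubar := by
  obtain ⟨a, haR, haO, rfl⟩ := mem_chartAlg.mp hp
  exact h.red_mem_coordRing haR haO i

theorem chartAlg_mem_place {p : Fin 2 → C} (hp : p ∈ chartAlg D u) (i : Fin 2)
    {x : Place k C} (hx : ubar ∈ x.toValuationSubring) : p i ∈ x.toValuationSubring :=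
  mem_place_of_mem_coordRing _ _ x hx (h.chartAlg_apply_mem hp i)

theorem exists_pull (i : Fin 2) {c : C} (hc : c ∈ coordRing k ubar) :
    ∃ p ∈ chartAlg D u, p i = c ∧ ∀ j, j ≠ i → p j = D.Φ c := by
  revert i
  rw [Fin.forall_fin_two]
  refine ⟨?_, ?_⟩
  · obtain ⟨a, haR, haO, h0, h1⟩ := h.lift₀ c hc
    refine ⟨D.red2 a, mem_chartAlg.mpr ⟨a, haR, haO, rfl⟩, h0, fun j hj => ?_⟩
    fin_cases j
    · exact absurd rfl hj
    · exact h1
  · obtain ⟨a, haR, haO, h1, h0⟩ := h.lift₁ c hc
    refine ⟨D.red2 a, mem_chartAlg.mpr ⟨a, haR, haO, rfl⟩, h1, fun j hj => ?_⟩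
    fin_cases j
    · exact h0
    · exact absurd rfl hj

theorem Φ_mem_coordRing {c : C} (hc : c ∈ coordRing k ubar) :
    D.Φ c ∈ coordRing k ubar := by
  obtain ⟨p, hp, -, hp1⟩ := h.exists_pull 0 hc
  exact hp1 1 (by decide) ▸ h.chartAlg_apply_mem hp 1

theorem exists_delta : ∃ ε : C, ε ≠ 0 ∧ ε ∈ coordRing k ubar ∧
    ∀ i : Fin 2, Pi.single i ε ∈ chartAlg D u := by
  obtain ⟨e, ε, hε, hεR, he, hred⟩ := h.exists_separating
  refine ⟨ε, hε, hεR, fun i => mem_chartAlg.mpr ⟨e i, (he i).1, (he i).2, funext fun j => ?_⟩⟩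
  rw [D.red2_apply, hred, Pi.single_apply]

omit h in
/-- The value of a pair at a point. -/
def ev (hd : ∀ x : Place k C, x.deg = 1) (z : Fin 2 × Place k C) (p : Fin 2 → C) : k :=
  pv z.2 (hd z.2) (p z.1)

/-- Two points have the same image in the reduced chart. -/
def Rel (z w : Fin 2 × Place k C) : Prop :=
  ∀ p ∈ chartAlg D u, ev h.coord.deg_one z p = ev h.coord.deg_one w p

theorem Rel.symm {z w : Fin 2 × Place k C} (hr : h.Rel z w) : h.Rel w z :=
  fun p hp => (hr p hp).symm

theorem Rel.trans {z w y : Fin 2 × Place k C} (h1 : h.Rel z w) (h2 : h.Rel w y) :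
    h.Rel z y := fun p hp => (h1 p hp).trans (h2 p hp)

theorem eq_of_rel_same {i : Fin 2} {x y : Place k C} (hx : ubar ∈ x.toValuationSubring)
    (hy : ubar ∈ y.toValuationSubring) (hr : h.Rel (i, x) (i, y)) : x = y := by
  by_contra hne
  obtain ⟨s, hs, hs0, hsx, hsy⟩ := h.coord.separate x y hx hy hne
  obtain ⟨p, hp, hpi, -⟩ := h.exists_pull i hs
  have := hr p hp
  simp only [ev, hpi] at this
  rw [(pv_eq_zero_iff (mem_place_of_mem_coordRing _ _ x hx hs)).mpr (Or.inr hsx)] at this
  rcases (pv_eq_zero_iff (mem_place_of_mem_coordRing _ _ y hy hs)).mp this.symm with h0 | h0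
  · exact hs0 h0
  · omega

/-- A regular function has only finitely many zeros on the finite part. -/
theorem finite_zeros {g : C} (hg0 : g ≠ 0) (hg : g ∈ coordRing k ubar) :
    {x : Place k C | ubar ∈ x.toValuationSubring ∧ pv x (h.coord.deg_one x) g = 0}.Finite := by
  classical
  have := h.finite_C
  obtain ⟨p, hp0, hp⟩ := exists_aeval_mul_mem_coordRing (K := k) (x := ubar) g⁻¹
  choose E hE hdeg using h.coord.exists_zeros
  have hp' : p ≠ 0 := fun h0 => hp0 (by simp [h0])
  refine ((p.roots.toFinset.biUnion fun a => (E a).support).finite_toSet).subset ?_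
  rintro x ⟨hx, hx0⟩
  have hgx := mem_place_of_mem_coordRing _ _ x hx hg
  have hqx := mem_place_of_mem_coordRing _ _ x hx hp
  set c := pv x (h.coord.deg_one x) ubar with hc
  have hev : ∀ r : k[X], aeval ubar r ∈ x.toValuationSubring ∧
      pv x (h.coord.deg_one x) (aeval ubar r) = r.eval c := by
    intro r
    induction r using Polynomial.induction_on' with
    | add a b ha hb =>
      rw [map_add, Polynomial.eval_add]
      exact ⟨add_mem ha.1 hb.1, by rw [pv_add ha.1 hb.1, ha.2, hb.2]⟩
    | monomial k a =>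
      rw [aeval_monomial, eval_monomial]
      exact ⟨mul_mem (x.algebraMap_mem' a) (pow_mem hx k), by
        rw [pv_mul (x.algebraMap_mem' a) (pow_mem hx k), pv_algebraMap, pv_pow hx]⟩
  have hroot : p.eval c = 0 := by
    rw [← (hev p).2, show aeval ubar p = (aeval ubar p * g⁻¹) * g by field_simp,
      pv_mul hqx hgx, hx0, mul_zero]
  have hsub : ubar - algebraMap k C c ∈ x.toValuationSubring :=
    sub_mem hx (x.algebraMap_mem' c)
  have hne : ubar - algebraMap k C c ≠ 0 := fun h0 =>
    h.transcendental_ubar (sub_eq_zero.mp h0 ▸ isAlgebraic_algebraMap c)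
  have hord : 0 < x.ord (ubar - algebraMap k C c) := by
    refine ((pv_eq_zero_iff (hd := h.coord.deg_one x) hsub).mp ?_).resolve_left hne
    rw [pv_sub hx (x.algebraMap_mem' c), pv_algebraMap, hc, sub_self]
  simp only [Finset.coe_biUnion, Set.mem_iUnion, Finset.mem_coe, Finsupp.mem_support_iff]
  refine ⟨c, by simpa [hp'] using hroot, ?_⟩
  rw [hE]
  omega

/-- A product of separators. -/
theorem exists_indicator {z : Fin 2 × Place k C} (hz : ubar ∈ z.2.toValuationSubring)
    (T : Finset (Fin 2 × Place k C)) (hT : ∀ w ∈ T, ubar ∈ w.2.toValuationSubring) :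
    ∃ p ∈ chartAlg D u, ev h.coord.deg_one z p = 1 ∧
      ∀ w ∈ T, ¬ h.Rel z w → Vanish w.2 1 (p w.1) := by
  classical
  induction T using Finset.induction_on with
  | empty => exact ⟨1, one_mem_chartAlg, by simp [ev, pv_one], by simp⟩
  | insert w T _ ih =>
    obtain ⟨p, hp, hpz, hpT⟩ := ih fun v hv => hT v (Finset.mem_insert_of_mem hv)
    by_cases hr : h.Rel z w
    · refine ⟨p, hp, hpz, fun v hv hv' => ?_⟩
      rcases Finset.mem_insert.mp hv with rfl | hv
      · exact absurd hr hv'
      · exact hpT v hv hv'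
    · obtain ⟨s, hs, hne⟩ : ∃ s ∈ chartAlg D u,
          ev h.coord.deg_one z s ≠ ev h.coord.deg_one w s := by
        simpa [Rel] using hr
      set β := ev h.coord.deg_one w s
      set α := ev h.coord.deg_one z s
      set t := (α - β)⁻¹ • (s - β • (1 : Fin 2 → C)) with ht
      have htU : t ∈ chartAlg D u :=
        Submodule.smul_mem _ _ (sub_mem hs (Submodule.smul_mem _ _ one_mem_chartAlg))
      have hval : ∀ v : Fin 2 × Place k C, ubar ∈ v.2.toValuationSubring →
          ev h.coord.deg_one v t = (α - β)⁻¹ * (ev h.coord.deg_one v s - β) := by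
        intro v hv
        have h1 := h.chartAlg_mem_place hs v.1 hv
        have h2 : β • (1 : C) ∈ v.2.toValuationSubring := smul_mem_place (one_mem _) β
        simp only [ev, ht, Pi.smul_apply, Pi.sub_apply, Pi.one_apply]
        rw [pv_smul (sub_mem h1 h2), pv_sub h1 h2, pv_smul (one_mem _), pv_one, mul_one]
      have hw := hT w (Finset.mem_insert_self _ _)
      refine ⟨p * t, chartAlg_mul_mem hp htU, ?_, fun v hv hv' => ?_⟩
      · have : ev h.coord.deg_one z (p * t) =
            ev h.coord.deg_one z p * ev h.coord.deg_one z t :=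
          pv_mul (h.chartAlg_mem_place hp z.1 hz) (h.chartAlg_mem_place htU z.1 hz)
        rw [this, hpz, hval z hz, one_mul, inv_mul_cancel₀ (sub_ne_zero.mpr hne)]
      · rcases Finset.mem_insert.mp hv with rfl | hv
        · refine Vanish.mono (r := 0 + 1) ?_ le_rfl
          refine (vanish_zero_iff.mpr (h.chartAlg_mem_place hp v.1 hw)).mul
            ((vanish_one_iff (hd := h.coord.deg_one v.2)).mpr
              ⟨h.chartAlg_mem_place htU v.1 hw, ?_⟩)
          have := hval v hw
          simp only [ev] at this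
          rw [this]
          exact mul_eq_zero_of_right _ (sub_self β)
        · exact Vanish.mono (r := 1 + 0) ((hpT v hv hv').mul
            (vanish_zero_iff.mpr (h.chartAlg_mem_place htU v.1
              (hT v (Finset.mem_insert_of_mem hv))))) le_rfl

/-- The reduced chart consists of the pairs of regular functions agreeing at related points. -/
theorem mem_chartAlg_iff {p : Fin 2 → C} :
    p ∈ chartAlg D u ↔ (∀ i, p i ∈ coordRing k ubar) ∧
      ∀ x y : Place k C, ubar ∈ x.toValuationSubring → ubar ∈ y.toValuationSubring →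
        h.Rel ((0 : Fin 2), x) ((1 : Fin 2), y) →
        pv x (h.coord.deg_one x) (p 0) = pv y (h.coord.deg_one y) (p 1) := by
  classical
  refine ⟨fun hp => ⟨h.chartAlg_apply_mem hp, fun x y _ _ hr => hr p hp⟩, ?_⟩
  rintro ⟨hpR, hpN⟩
  obtain ⟨ε, hε, hεR, hδ⟩ := h.exists_delta
  set Z₀ := (h.finite_zeros hε hεR).toFinset with hZ₀
  set Z := (Finset.univ : Finset (Fin 2)) ×ˢ Z₀ with hZ
  have hZmem : ∀ z ∈ Z, ubar ∈ z.2.toValuationSubring := fun z hz => by
    simp only [hZ, hZ₀, Finset.mem_product, Set.Finite.mem_toFinset, Set.mem_ofPred_eq] at hz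
    exact hz.2.1
  have hagree : ∀ r : Fin 2 → C, (∀ i, r i ∈ coordRing k ubar) →
      (∀ x y : Place k C, ubar ∈ x.toValuationSubring → ubar ∈ y.toValuationSubring →
        h.Rel ((0 : Fin 2), x) ((1 : Fin 2), y) →
        pv x (h.coord.deg_one x) (r 0) = pv y (h.coord.deg_one y) (r 1)) →
      ∀ z w : Fin 2 × Place k C, ubar ∈ z.2.toValuationSubring →
        ubar ∈ w.2.toValuationSubring → h.Rel z w →
        ev h.coord.deg_one z r = ev h.coord.deg_one w r := by
    intro r _ hr z w hz hw hzw
    obtain ⟨i, x⟩ := z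
    obtain ⟨j, y⟩ := w
    fin_cases i <;> fin_cases j
    · obtain rfl : x = y := h.eq_of_rel_same hz hw hzw
      rfl
    · exact hr x y hz hw hzw
    · exact (hr y x hw hz hzw.symm).symm
    · obtain rfl : x = y := h.eq_of_rel_same hz hw hzw
      rfl
  have step : ∀ r : ℕ, ∀ T : Finset (Fin 2 × Place k C), T ⊆ Z →
      ∃ a ∈ chartAlg D u, (∀ z ∈ Z, Vanish z.2 r (p z.1 - a z.1)) ∧
        ∀ z ∈ T, Vanish z.2 (r + 1) (p z.1 - a z.1) := by
    intro r
    induction r using Nat.strong_induction_on with
    | _ r ihr =>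
      intro T
      induction T using Finset.induction_on with
      | empty =>
        intro _
        cases r with
        | zero =>
          refine ⟨0, Submodule.zero_mem _, fun z hz => vanish_zero_iff.mpr ?_, by simp⟩
          simpa using mem_place_of_mem_coordRing _ _ z.2 (hZmem z hz) (hpR z.1)
        | succ r =>
          obtain ⟨a, ha, -, ha'⟩ := ihr r (Nat.lt_succ_self r) Z subset_rfl
          exact ⟨a, ha, ha', by simp⟩
      | insert z T _ ih =>
        intro hTZ
        obtain ⟨a, ha, haZ, haT⟩ := ih ((Finset.subset_insert z T).trans hTZ)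
        have hzZ := hTZ (Finset.mem_insert_self z T)
        have hz := hZmem z hzZ
        obtain ⟨s, hs, hs1⟩ := h.coord.exists_ord_one z.2 hz
        have hs0 : s ≠ 0 := fun h0 => by simp [h0] at hs1
        obtain ⟨e, he, hez, heZ⟩ := h.exists_indicator hz Z hZmem
        obtain ⟨P, hP, hPi, hPo⟩ := h.exists_pull z.1 hs
        obtain ⟨lam, hlam⟩ := exists_sub_vanish (h.coord.deg_one z.2) (haZ z hzZ) hs1
        set m := e ^ (r + 1) * P ^ r with hm
        have hmU : m ∈ chartAlg D u :=
          chartAlg_mul_mem (chartAlg_pow_mem he _) (chartAlg_pow_mem hP _)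
        have hmz : Vanish z.2 (r + 1) (m z.1 - s ^ r) := by
          have h1 : Vanish z.2 1 ((e ^ (r + 1)) z.1 - 1) := by
            refine (vanish_one_iff (hd := h.coord.deg_one z.2)).mpr
              ⟨sub_mem (pow_mem (h.chartAlg_mem_place he z.1 hz) _) (one_mem _), ?_⟩
            rw [Pi.pow_apply, pv_sub (pow_mem (h.chartAlg_mem_place he z.1 hz) _) (one_mem _),
              pv_pow (h.chartAlg_mem_place he z.1 hz), pv_one]
            have : pv z.2 (h.coord.deg_one z.2) (e z.1) = 1 := hez
            rw [this, one_pow, sub_self]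
          have h2 : Vanish z.2 r (s ^ r) := vanish_iff.mpr (Or.inr (by
            rw [← zpow_natCast, z.2.ord_zpow, hs1, mul_one]))
          rw [hm, Pi.mul_apply, Pi.pow_apply P r, hPi, ← sub_one_mul]
          exact (h1.mul h2).mono (by omega)
        have hmw : ∀ w ∈ Z, w ≠ z →
            Vanish w.2 r (m w.1) ∧ (¬ h.Rel z w ∨ 0 < r → Vanish w.2 (r + 1) (m w.1)) := by
          intro w hwZ hne
          have hw := hZmem w hwZ
          have heO : Vanish w.2 0 ((e ^ (r + 1)) w.1) :=
            vanish_zero_iff.mpr (pow_mem (h.chartAlg_mem_place he w.1 hw) _)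
          have hPO : Vanish w.2 0 ((P ^ r) w.1) :=
            vanish_zero_iff.mpr (pow_mem (h.chartAlg_mem_place hP w.1 hw) _)
          by_cases hr : h.Rel z w
          · have hj : w.1 ≠ z.1 := by
              intro hij
              refine hne ?_
              obtain ⟨i, x⟩ := z
              obtain ⟨j, y⟩ := w
              simp only at hij
              subst hij
              obtain rfl : x = y := h.eq_of_rel_same hz hw hr
              rfl
            have hP2 : Vanish w.2 2 (P w.1) := by
              rw [hPo w.1 hj]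
              obtain ⟨c', hc'⟩ := D.Φ_pow s
              have h0 : pv w.2 (h.coord.deg_one w.2) (D.Φ s) = 0 := by
                have := hr P hP
                simp only [ev, hPi, hPo w.1 hj] at this
                rw [← this]
                exact (pv_eq_zero_iff (mem_place_of_mem_coordRing _ _ z.2 hz hs)).mpr
                  (Or.inr (by rw [hs1]; exact one_pos))
              rcases (pv_eq_zero_iff (mem_place_of_mem_coordRing _ _ w.2 hw
                  (h.Φ_mem_coordRing hs))).mp h0 with h' | h'
              · exact vanish_iff.mpr (Or.inl h')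
              · refine vanish_iff.mpr (Or.inr ?_)
                rw [hc', ← zpow_natCast, w.2.ord_zpow] at h' ⊢
                have hq : (2 : ℤ) ≤ D.q := by exact_mod_cast D.two_le_q
                have hc1 : 1 ≤ w.2.ord c' := pos_of_mul_pos_right h' (by omega)
                push_cast
                exact le_trans hq (le_mul_of_one_le_right (by omega) hc1)
            have h2 : Vanish w.2 (0 + r * 2) (m w.1) := by
              rw [hm, Pi.mul_apply]
              exact heO.mul (hP2.pow r)
            refine ⟨h2.mono (by omega), fun hor => h2.mono ?_⟩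
            rcases hor with h' | h'
            · exact absurd hr h'
            · omega
          · have h1 : Vanish w.2 ((r + 1) * 1 + 0) (m w.1) := by
              rw [hm, Pi.mul_apply]
              exact ((heZ w hwZ hr).pow (r + 1)).mul hPO
            exact ⟨h1.mono (by omega), fun _ => h1.mono (by omega)⟩
        refine ⟨a + lam • m, add_mem ha (Submodule.smul_mem _ _ hmU), fun w hwZ => ?_,
          fun w hw => ?_⟩
        · have : p w.1 - (a + lam • m) w.1 = (p w.1 - a w.1) - lam • m w.1 := by
            simp only [Pi.add_apply, Pi.smul_apply]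
            ring
          rw [this]
          rcases eq_or_ne w z with rfl | hne
          · have h2 : Vanish w.2 r (m w.1) := by
              have h3 : Vanish w.2 r (s ^ r) := vanish_iff.mpr (Or.inr (by
                rw [← zpow_natCast, w.2.ord_zpow, hs1, mul_one]))
              simpa using (hmz.mono (Nat.le_succ r)).add h3
            exact (haZ w hwZ).sub (h2.smul lam)
          · exact (haZ w hwZ).sub ((hmw w hwZ hne).1.smul lam)
        · have : p w.1 - (a + lam • m) w.1 = (p w.1 - a w.1) - lam • m w.1 := by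
            simp only [Pi.add_apply, Pi.smul_apply]
            ring
          rw [this]
          rcases eq_or_ne w z with rfl | hne
          · have : p w.1 - a w.1 - lam • m w.1 =
                (p w.1 - a w.1 - lam • s ^ r) - lam • (m w.1 - s ^ r) := by
              rw [smul_sub]
              ring
            rw [this]
            exact hlam.sub (hmz.smul lam)
          · rcases Finset.mem_insert.mp hw with h' | hwT
            · exact absurd h' hne
            have hwZ : w ∈ Z := hTZ hw
            by_cases hcase : ¬ h.Rel z w ∨ 0 < r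
            · exact (haT w hwT).sub (((hmw w hwZ hne).2 hcase).smul lam)
            · push Not at hcase
              obtain ⟨hrel, hr0⟩ := hcase
              obtain rfl : r = 0 := Nat.le_zero.mp hr0
              have hwp := hZmem w hwZ
              have hpa : ∀ v : Fin 2 × Place k C, ubar ∈ v.2.toValuationSubring →
                  p v.1 - a v.1 ∈ v.2.toValuationSubring := fun v hv =>
                sub_mem (mem_place_of_mem_coordRing _ _ v.2 hv (hpR v.1))
                  (h.chartAlg_mem_place ha v.1 hv)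
              refine (vanish_one_iff (hd := h.coord.deg_one w.2)).mpr ⟨?_, ?_⟩
              · exact sub_mem (hpa w hwp) (smul_mem_place (h.chartAlg_mem_place hmU w.1 hwp) lam)
              · have hq := hagree p hpR hpN z w hz hwp hrel
                have haq := hrel a ha
                have hmq := hrel m hmU
                simp only [ev] at hq haq hmq
                have h0 : pv z.2 (h.coord.deg_one z.2) (p z.1 - a z.1 - lam • m z.1) = 0 := by
                  have h4 : Vanish z.2 (0 + 1) (p z.1 - a z.1 - lam • m z.1) := by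
                    have : p z.1 - a z.1 - lam • m z.1 =
                        (p z.1 - a z.1 - lam • s ^ 0) - lam • (m z.1 - s ^ 0) := by
                      rw [smul_sub]
                      ring
                    rw [this]
                    exact hlam.sub (hmz.smul lam)
                  exact (vanish_one_iff.mp h4).2
                rw [pv_sub (hpa z hz) (smul_mem_place (h.chartAlg_mem_place hmU z.1 hz) lam),
                  pv_sub (mem_place_of_mem_coordRing _ _ z.2 hz (hpR z.1))
                    (h.chartAlg_mem_place ha z.1 hz),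
                  pv_smul (h.chartAlg_mem_place hmU z.1 hz), hq, haq, hmq] at h0
                rw [pv_sub (hpa w hwp) (smul_mem_place (h.chartAlg_mem_place hmU w.1 hwp) lam),
                  pv_sub (mem_place_of_mem_coordRing _ _ w.2 hwp (hpR w.1))
                    (h.chartAlg_mem_place ha w.1 hwp),
                  pv_smul (h.chartAlg_mem_place hmU w.1 hwp)]
                exact h0
  set r := Z₀.sup (fun x => (x.ord ε).toNat) with hr
  obtain ⟨a, ha, haZ, -⟩ := step r ∅ (Finset.empty_subset _)
  have hdiv : ∀ i, (p i - a i) / ε ∈ coordRing k ubar := by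
    intro i
    refine h.coord.mem_coordRing_of_forall _ fun x hx => ?_
    have hnum : p i - a i ∈ x.toValuationSubring :=
      mem_place_of_mem_coordRing _ _ x hx (sub_mem (hpR i) (h.chartAlg_apply_mem ha i))
    rw [mem_iff_ord_nonneg]
    rcases eq_or_ne (p i - a i) 0 with h0 | h0
    · simp [h0]
    rw [div_eq_mul_inv, x.ord_mul h0 (inv_ne_zero hε), x.ord_inv]
    have hεx := mem_place_of_mem_coordRing _ _ x hx hεR
    by_cases hxZ : x ∈ Z₀
    · have := (vanish_iff.mp (haZ (i, x) (by simp [hZ, hxZ]))).resolve_left h0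
      have hle : ((x.ord ε).toNat : ℤ) ≤ r := by
        exact_mod_cast Finset.le_sup (f := fun x : Place k C => (x.ord ε).toNat) hxZ
      simp only at this
      omega
    · have hval : pv x (h.coord.deg_one x) ε ≠ 0 := fun h' =>
        hxZ (by simpa [hZ₀] using ⟨hx, h'⟩)
      rw [ne_eq, pv_eq_zero_iff hεx, not_or] at hval
      have := ord_nonneg_of_mem x hnum
      omega
  choose P hP hPi hPo using fun i => h.exists_pull i (hdiv i)
  have heq : p = a + (Pi.single 0 ε * P 0 + Pi.single 1 ε * P 1) := by
    funext i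
    fin_cases i <;> simp [hPi, mul_div_cancel₀ _ hε]
  rw [heq]
  exact add_mem ha (add_mem (chartAlg_mul_mem (hδ 0) (hP 0)) (chartAlg_mul_mem (hδ 1) (hP 1)))

/-- Every pair of reductions is attained on `O`. -/
theorem exists_red_eq (p : Fin 2 → C) : ∃ a ∈ D.O, ∀ i, D.red i a = p i := by
  have := h.finite_C
  obtain ⟨ε, hε, -, hδ⟩ := h.exists_delta
  choose s hs0 hs using fun i => exists_aeval_mul_mem_coordRing (K := k) (x := ubar) (p i)
  set den : Fin 2 → C := Pi.single 0 ε + Pi.single 1 ε with hden
  have hdenv : ∀ i, den i = ε := fun i => by fin_cases i <;> simp [hden]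
  obtain ⟨P, hP, hP0, -⟩ := h.exists_pull 0 (hs 0)
  obtain ⟨Q, hQ, hQ1, -⟩ := h.exists_pull 1 (hs 1)
  obtain ⟨a, -, haO, ha⟩ := mem_chartAlg.mp
    (add_mem (chartAlg_mul_mem (hδ 0) hP) (chartAlg_mul_mem (hδ 1) hQ))
  obtain ⟨R, hR, hR0, -⟩ := h.exists_pull 0 (aeval_mem_coordRing k ubar (s 0))
  obtain ⟨S, hS, hS1, -⟩ := h.exists_pull 1 (aeval_mem_coordRing k ubar (s 1))
  obtain ⟨b, -, hbO, hb⟩ := mem_chartAlg.mp
    (add_mem (chartAlg_mul_mem (hδ 0) hR) (chartAlg_mul_mem (hδ 1) hS))
  have hbv : ∀ i, D.red i b = ε * aeval ubar (s i) := fun i => by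
    rw [← D.red2_apply, hb]
    fin_cases i <;> simp [hR0, hS1]
  have hav : ∀ i, D.red i a = ε * (aeval ubar (s i) * p i) := fun i => by
    rw [← D.red2_apply, ha]
    fin_cases i <;> simp [hP0, hQ1]
  have hb0 : ∀ i, D.red i b ≠ 0 := fun i => by rw [hbv]; exact mul_ne_zero hε (hs0 i)
  refine ⟨a * b⁻¹, mul_mem haO (D.inv_mem_O hbO hb0), fun i => ?_⟩
  rw [D.red_mul (D.mem_of_mem_O haO i) (D.inv_mem_of_red_ne_zero (D.mem_of_mem_O hbO i) (hb0 i)),
    D.red_inv (D.mem_of_mem_O hbO i) (hb0 i), hav, hbv]
  have := hs0 i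
  field_simp

end Chart

end Fermat.Agent.BAD
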