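import Fermat.Agent.BAD.Core.Symmetry
import Mathlib.FieldTheory.IsAlgClosed.Basic

/-!
# Scaling a function to a unit on both branches
-/

set_option autoImplicit false

noncomputable section

open AlgebraicCurve Fermat.Agent.RED

namespace Fermat.Agent.BAD

variable {L k : Type*} [Field L] [Field k] {A : ValuationSubring L} {π : A →+* k}
  {F C : Type*} [Field F] [Algebra L F] [Field C] [Algebra k C]

namespace TwoBranch

variable (D : TwoBranch π F C) {i : Fin 2}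

/-- Large powers of a function vanishing on a branch absorb any scalar. -/
theorem exists_pow_smul_small {e : F} (he : e ∈ D.V i) (he0 : D.red i e = 0) (β : L) :
    ∃ M₀ : ℕ, ∀ M, M₀ ≤ M → β • e ^ M ∈ D.V i ∧ D.red i (β • e ^ M) = 0 := by
  rcases eq_or_ne e 0 with rfl | hne
  · refine ⟨1, fun M hM => ?_⟩
    rw [zero_pow (by omega), smul_zero]
    exact ⟨zero_mem _, D.red_zero⟩
  rcases eq_or_ne β 0 with rfl | hβ
  · exact ⟨0, fun M _ => by rw [zero_smul]; exact ⟨zero_mem _, D.red_zero⟩⟩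
  obtain ⟨d, hd, hr⟩ := D.scale i e hne
  rw [← D.red_of_mem hd] at hr
  have hd0 : d ≠ 0 := fun h0 => hr (by simp [h0])
  have hdA : d ∉ A := fun hdA => hr (by simpa [he0] using D.red_smul he ⟨d, hdA⟩)
  have hx : d⁻¹ ∈ A.nonunits := inv_mem_nonunits_of_notMem hdA
  obtain ⟨N, hN⟩ := D.arch _ hx β⁻¹ (inv_ne_zero hβ)
  refine ⟨N + 1, fun M hM => ?_⟩
  obtain ⟨j, rfl⟩ : ∃ j, M = N + 1 + j := ⟨M - (N + 1), by omega⟩
  have hmem : β * (d⁻¹) ^ (N + 1 + j) ∈ A.nonunits := by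
    rw [show β * (d⁻¹) ^ (N + 1 + j) = ((d⁻¹) ^ N / β⁻¹) * (d⁻¹) ^ j * d⁻¹ by
      rw [div_inv_eq_mul]; ring]
    rw [ValuationSubring.mem_nonunits_iff] at hx ⊢
    rw [map_mul]
    exact lt_of_le_of_lt (mul_le_of_le_one_left'
      ((A.valuation_le_one_iff _).mpr (mul_mem hN (pow_mem (A.nonunits_subset
        ((ValuationSubring.mem_nonunits_iff _).mpr hx)) j)))) hx
  have heq : β • e ^ (N + 1 + j) =
      ((⟨_, A.nonunits_subset hmem⟩ : A) : L) • (d • e) ^ (N + 1 + j) := by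
    rw [_root_.smul_pow, smul_smul]
    congr 1
    show β = β * (d⁻¹) ^ (N + 1 + j) * d ^ (N + 1 + j)
    rw [mul_assoc, ← mul_pow, inv_mul_cancel₀ hd0, one_pow, mul_one]
  rw [heq]
  refine ⟨D.smul_mem (pow_mem hd _) _, ?_⟩
  rw [D.red_smul (pow_mem hd _), D.residue_eq_zero_of_nonunit _ hmem, zero_smul]

end TwoBranch

namespace BadCurve

variable (D : BadCurve π F C)

/-- A function with prescribed scales on the two branches. -/
theorem exists_scaled_unit {b : L} (hb : b ≠ 0) :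
    ∃ w : F, (w ∈ D.V 0 ∧ D.red 0 w ≠ 0) ∧ b • w ∈ D.V 1 ∧ D.red 1 (b • w) ≠ 0 := by
  obtain ⟨e, he, her⟩ := D.chartFin.exists_red_eq ![1, 0]
  obtain ⟨e', he', her'⟩ := D.chartFin.exists_red_eq ![0, 1]
  obtain ⟨M₀, hM₀⟩ := D.exists_pow_smul_small (D.mem_of_mem_O he' 0) (by simpa using her' 0) b⁻¹
  obtain ⟨M₁, hM₁⟩ := D.exists_pow_smul_small (D.mem_of_mem_O he 1) (by simpa using her 1) b
  set M := max M₀ M₁
  obtain ⟨h0, h0'⟩ := hM₀ M (le_max_left _ _)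
  obtain ⟨h1, h1'⟩ := hM₁ M (le_max_right _ _)
  refine ⟨e ^ M + b⁻¹ • e' ^ M, ⟨add_mem (pow_mem (D.mem_of_mem_O he 0) _) h0, ?_⟩, ?_⟩
  · rw [D.red_add (pow_mem (D.mem_of_mem_O he 0) _) h0, h0', D.red_pow (D.mem_of_mem_O he 0), her]
    simp
  · rw [smul_add, smul_smul, mul_inv_cancel₀ hb, one_smul]
    refine ⟨add_mem h1 (pow_mem (D.mem_of_mem_O he' 1) _), ?_⟩
    rw [D.red_add h1 (pow_mem (D.mem_of_mem_O he' 1) _), h1', D.red_pow (D.mem_of_mem_O he' 1),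
      her']
    simp

/-- Up to constants and `n`-th powers every function is a unit on both branches. -/
theorem exists_unit_scale [IsAlgClosed L] {n : ℕ} (hn : 0 < n) {f : F} (hf : f ≠ 0) :
    ∃ (c : L) (a : F), c ≠ 0 ∧ a ≠ 0 ∧ c • (a ^ n * f) ∈ D.O ∧
      (∀ i, D.red i (c • (a ^ n * f)) ≠ 0) ∧
      ∀ i, ∃ (s : L) (r : C), s • f ∈ D.V i ∧ D.red i (s • f) ≠ 0 ∧
        D.red i (c • (a ^ n * f)) = r ^ n * D.red i (s • f) := by
  obtain ⟨s₀, hs₀, hr₀⟩ := D.scale 0 f hf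
  obtain ⟨s₁, hs₁, hr₁⟩ := D.scale 1 f hf
  rw [← D.red_of_mem hs₀] at hr₀
  rw [← D.red_of_mem hs₁] at hr₁
  have h0 : s₀ ≠ 0 := fun h => hr₀ (by simp [h])
  have h1 : s₁ ≠ 0 := fun h => hr₁ (by simp [h])
  obtain ⟨b, hb⟩ := IsAlgClosed.exists_pow_nat_eq (s₀ / s₁) hn
  have hb0 : b ≠ 0 := fun h => by
    rw [h, zero_pow hn.ne'] at hb
    exact div_ne_zero h0 h1 hb.symm
  obtain ⟨w, ⟨hw0, hw0'⟩, hw1, hw1'⟩ := D.exists_scaled_unit hb0
  have e0 : s₀ • (w ^ n * f) = w ^ n * (s₀ • f) := (mul_smul_comm _ _ _).symm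
  have e1 : s₀ • (w ^ n * f) = (b • w) ^ n * (s₁ • f) := by
    rw [_root_.smul_pow, hb, smul_mul_smul_comm, div_mul_cancel₀ _ h1]
  have m0 : w ^ n * (s₀ • f) ∈ D.V 0 := mul_mem (pow_mem hw0 n) hs₀
  have m1 : (b • w) ^ n * (s₁ • f) ∈ D.V 1 := mul_mem (pow_mem hw1 n) hs₁
  have r0 : D.red 0 (s₀ • (w ^ n * f)) = D.red 0 w ^ n * D.red 0 (s₀ • f) := by
    rw [e0, D.red_mul (pow_mem hw0 n) hs₀, D.red_pow hw0]
  have r1 : D.red 1 (s₀ • (w ^ n * f)) = D.red 1 (b • w) ^ n * D.red 1 (s₁ • f) := by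
    rw [e1, D.red_mul (pow_mem hw1 n) hs₁, D.red_pow hw1]
  refine ⟨s₀, w, h0, fun hw => hw0' (by rw [hw, TwoBranch.red_zero]),
    D.mem_O.mpr (Fin.forall_fin_two.mpr ⟨e0 ▸ m0, e1 ▸ m1⟩),
    Fin.forall_fin_two.mpr ⟨?_, ?_⟩,
    Fin.forall_fin_two.mpr ⟨⟨s₀, _, hs₀, hr₀, r0⟩, ⟨s₁, _, hs₁, hr₁, r1⟩⟩⟩
  · rw [r0]
    exact mul_ne_zero (pow_ne_zero _ hw0') hr₀
  · rw [r1]
    exact mul_ne_zero (pow_ne_zero _ hw1') hr₁

end BadCurve

end Fermat.Agent.BAD
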