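import Fermat.Agent.BAD.Core.Lift

/-!
# Symmetries act on the node lines by a power
-/

set_option autoImplicit false

noncomputable section

open AlgebraicCurve Polynomial Fermat.Agent.RED

namespace Fermat.Agent.BAD

variable {L k : Type*} [Field L] [Field k] {A : ValuationSubring L} {π : A →+* k}
  {F C : Type*} [Field F] [Algebra L F] [Field C] [Algebra k C]

theorem semilinear_smul_smul (σ : SemilinearAut L F) (c : L) (f : F) :
    σ • (c • f) = SemilinearAut.baseAut σ c • (σ • f) := by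
  rw [Algebra.smul_def, Algebra.smul_def, smul_mul', SemilinearAut.smul_algebraMap]

theorem semilinear_smul_div (σ : SemilinearAut L F) (a b : F) :
    σ • (a / b) = σ • a / σ • b := map_div₀ (SemilinearAut.toRingAut σ) a b

theorem semilinear_smul_mem_coordRing (σ : SemilinearAut L F) {u : F} (hu : σ • u = u) {f : F}
    (hf : f ∈ coordRing L u) : σ • f ∈ coordRing L u := by
  obtain ⟨P, hP, hroot⟩ : ∃ P : Polynomial L[X], P.Monic ∧ P.eval₂ (coordEval L u) f = 0 := hf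
  set τ : F →+* F := (SemilinearAut.toRingAut σ).toRingHom with hτ
  refine mem_coordRing_of_monic ((P.map (coordEval L u)).map τ) ((hP.map _).map _) (fun i => ?_) ?_
  · rw [Polynomial.coeff_map, Polynomial.coeff_map]
    show σ • (aeval u (P.coeff i)) ∈ coordRing L u
    rw [aeval_eq_sum_range, Finset.smul_sum]
    refine sum_mem fun j _ => ?_
    rw [semilinear_smul_smul, smul_pow', hu]
    exact Subalgebra.smul_mem _ (pow_mem (self_mem_coordRing L u) j) _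
  · show Polynomial.eval (τ f) _ = 0
    rw [Polynomial.eval_map_apply, Polynomial.eval_map, hroot, map_zero]

theorem dvd_ord_smul (σ : SemilinearAut L F) {n : ℕ} {f : F}
    (h : ∀ v : Place L F, (n : ℤ) ∣ v.ord f) (v : Place L F) : (n : ℤ) ∣ v.ord (σ • f) := by
  have h' := SemilinearAut.ord_smul σ (σ⁻¹ • v) f
  rw [smul_inv_smul] at h'
  rw [h']
  exact h _

theorem dvd_ord_mul {n : ℕ} {f g : F} (hf : f ≠ 0) (hg : g ≠ 0)
    (h : ∀ v : Place L F, (n : ℤ) ∣ v.ord f) (h' : ∀ v : Place L F, (n : ℤ) ∣ v.ord g)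
    (v : Place L F) : (n : ℤ) ∣ v.ord (f * g) := by
  rw [v.ord_mul hf hg]
  exact dvd_add (h v) (h' v)

theorem dvd_ord_inv {n : ℕ} {f : F} (h : ∀ v : Place L F, (n : ℤ) ∣ v.ord f) (v : Place L F) :
    (n : ℤ) ∣ v.ord f⁻¹ := by
  rw [v.ord_inv]
  exact dvd_neg.mpr (h v)

theorem dvd_ord_pow {n : ℕ} {f : F} (h : ∀ v : Place L F, (n : ℤ) ∣ v.ord f) (j : ℕ)
    (v : Place L F) : (n : ℤ) ∣ v.ord (f ^ j) := by
  rw [← zpow_natCast, v.ord_zpow]
  exact (h v).mul_left _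

namespace Chart

variable {D : BadBase π F C} {u : F} {ubar : C} {d : ℕ} (h : Chart D u ubar d)

include h

/-- At glued points the square of the correspondence fixes values. -/
theorem pv_Φ_Φ_of_rel {x y : Place k C} (hr : h.Rel ((0 : Fin 2), x) ((1 : Fin 2), y)) {c : C}
    (hc : c ∈ coordRing k ubar) :
    pv x (h.coord.deg_one x) (D.Φ (D.Φ c)) = pv x (h.coord.deg_one x) c ∧
      pv y (h.coord.deg_one y) (D.Φ (D.Φ c)) = pv y (h.coord.deg_one y) c := by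
  have key : ∀ i j : Fin 2, j ≠ i → ∀ c ∈ coordRing k ubar, ∃ p ∈ chartAlg D u,
      p i = c ∧ p j = D.Φ c := fun i j hij c hc => by
    obtain ⟨p, hp, hi, hj⟩ := h.exists_pull i hc
    exact ⟨p, hp, hi, hj j hij⟩
  obtain ⟨p, hp, hp0, hp1⟩ := key 0 1 (by decide) c hc
  obtain ⟨r, hr', hr1, hr0⟩ := key 1 0 (by decide) _ (h.Φ_mem_coordRing hc)
  obtain ⟨p', hp', hp1', hp0'⟩ := key 1 0 (by decide) c hc
  obtain ⟨r', hr'', hr0', hr1'⟩ := key 0 1 (by decide) _ (h.Φ_mem_coordRing hc)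
  have e1 := hr p hp
  have e2 := hr r hr'
  have e3 := hr p' hp'
  have e4 := hr r' hr''
  simp only [ev, hp0, hp1, hr0, hr1, hp0', hp1', hr0', hr1'] at e1 e2 e3 e4
  exact ⟨e2.trans e1.symm, e4.symm.trans e3⟩

end Chart

namespace BadCurve

variable (D : BadCurve π F C)

/-- `T` raises the values at the nodes to the `N`-th power. -/
def NodePow (T : C ≃+* C) (N : ℕ) : Prop :=
  ∀ s ∈ D.nodes, ∀ (m : ℕ) (c : C), c ∈ riemannRochSpace (m • D.pole) →
    D.lev m s.1 (T c) = D.lev m s.1 c ^ N ∧ D.lev m s.2 (T c) = D.lev m s.2 c ^ N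

theorem nodePow_refl : D.NodePow (RingEquiv.refl C) 1 :=
  fun _ _ _ _ _ => ⟨(pow_one _).symm, (pow_one _).symm⟩

variable {D}

theorem Sym.map_ubar {σ : SemilinearAut L F} {T : C ≃+* C} (hσ : D.Sym σ T) : T D.ubar = D.ubar := by
  rw [← D.chartFin.red_u 0, ← hσ.red_eq 0 D.u (D.mem_of_mem_O D.chartFin.u_mem 0), hσ.map_u]

theorem Sym.mem_O {σ : SemilinearAut L F} {T : C ≃+* C} (hσ : D.Sym σ T) {f : F} (hf : f ∈ D.O) :
    σ • f ∈ D.O := D.mem_O.mpr fun i => hσ.mem i f (D.mem_of_mem_O hf i)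

theorem Sym.map_coordRing {σ : SemilinearAut L F} {T : C ≃+* C} (hσ : D.Sym σ T) {w : F}
    {wbar : C} {d : ℕ} (h : Chart D.toBadBase w wbar d) (hw : σ • w = w) {c : C}
    (hc : c ∈ coordRing k wbar) : T c ∈ coordRing k wbar := by
  obtain ⟨a, haR, haO, ha0, -⟩ := h.lift₀ c hc
  rw [← ha0, ← hσ.red_eq 0 a (D.mem_of_mem_O haO 0)]
  exact h.red_mem_coordRing (semilinear_smul_mem_coordRing σ hw haR) (hσ.mem_O haO) 0

theorem Sym.map_u_inv {σ : SemilinearAut L F} {T : C ≃+* C} (hσ : D.Sym σ T) :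
    σ • D.u⁻¹ = D.u⁻¹ := by
  rw [smul_inv'', hσ.map_u]

theorem Sym.twistCond {σ : SemilinearAut L F} {T : C ≃+* C} (hσ : D.Sym σ T) {n : ℕ} {f : F}
    {m : ℕ} {a : F} (ha : TwistCond L D.u n f m a) :
    TwistCond L D.u n (σ • f) m (σ • a) := by
  refine ⟨?_, ?_⟩
  · rw [← smul_pow', ← smul_mul']
    exact semilinear_smul_mem_coordRing σ hσ.map_u ha.1
  · have h2 := semilinear_smul_mem_coordRing σ hσ.map_u_inv ha.2
    rwa [smul_mul', smul_pow', semilinear_smul_div, smul_pow', hσ.map_u] at h2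

theorem Sym.nodePow {σ : SemilinearAut L F} {T : C ≃+* C} (hσ : D.Sym σ T) {N : ℕ}
    (hΦ : ∀ c : C, D.Φ (D.Φ (T c)) = c ^ N) : D.NodePow T N := by
  intro s hs m c hc
  obtain ⟨hc1, hc2⟩ := D.mem_rr_iff.mp hc
  rcases D.mem_nodes.mp hs with ⟨hx, hy, hr⟩ | ⟨hx, hy, hr⟩
  · obtain ⟨e1, e2⟩ := D.chartFin.pv_Φ_Φ_of_rel hr (hσ.map_coordRing D.chartFin hσ.map_u hc1)
    rw [hΦ, pv_pow ((D.rr_mem_place hc).1 hx)] at e1
    rw [hΦ, pv_pow ((D.rr_mem_place hc).1 hy)] at e2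
    rw [D.lev_of_mem hx, D.lev_of_mem hx, D.lev_of_mem hy, D.lev_of_mem hy]
    exact ⟨e1.symm, e2.symm⟩
  · obtain ⟨e1, e2⟩ :=
      D.chartInf.pv_Φ_Φ_of_rel hr (hσ.map_coordRing D.chartInf hσ.map_u_inv hc2)
    rw [hΦ, pv_pow ((D.rr_mem_place hc).2 hx)] at e1
    rw [hΦ, pv_pow ((D.rr_mem_place hc).2 hy)] at e2
    rw [map_div₀, map_pow, hσ.map_ubar] at e1 e2
    rw [D.lev_of_notMem hx, D.lev_of_notMem hx, D.lev_of_notMem hy, D.lev_of_notMem hy]
    exact ⟨e1.symm, e2.symm⟩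

variable (D)

/-- A symmetry acting by `N`-th powers at the nodes sends a function reducing to `1` with
divisor divisible by `n` to its `N`-th power, up to constants and `n`-th powers. -/
theorem exists_eq_smul_pow_of_sym {σ : SemilinearAut L F} {T : C ≃+* C} (hσ : D.Sym σ T) {N : ℕ}
    (hpow : D.NodePow T N) {n : ℕ} (hn : (n : k) ≠ 0) {g : F} (hg : D.RedOne g)
    (hdiv : ∀ v : Place L F, (n : ℤ) ∣ v.ord g) :
    ∃ (e : L) (a : F), e ≠ 0 ∧ a ≠ 0 ∧ σ • g = e • a ^ n * g ^ N := by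
  have hn0 : 0 < n := Nat.pos_of_ne_zero fun h => hn (by rw [h, Nat.cast_zero])
  have hgi : D.RedOne g⁻¹ := ⟨D.inv_mem_O hg.mem fun i => by rw [hg.red]; exact one_ne_zero,
    fun i => by rw [D.red_inv (D.mem_of_mem_O hg.mem i) (by rw [hg.red]; exact one_ne_zero),
      hg.red, inv_one]⟩
  have hσg : D.RedOne (σ • g) := ⟨hσ.mem_O hg.mem,
    fun i => by rw [hσ.red_eq i g (D.mem_of_mem_O hg.mem i), hg.red, map_one]⟩
  set ψ := σ • g * g⁻¹ ^ N with hψ
  have hψ1 : D.RedOne ψ := ⟨mul_mem hσg.mem (pow_mem hgi.mem N), fun i => by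
    rw [D.red_mul (D.mem_of_mem_O hσg.mem i) (pow_mem (D.mem_of_mem_O hgi.mem i) N), hσg.red,
      D.red_pow (D.mem_of_mem_O hgi.mem i), hgi.red, one_pow, one_mul]⟩
  have hψdiv : ∀ v : Place L F, (n : ℤ) ∣ v.ord ψ :=
    dvd_ord_mul hσg.ne_zero (pow_ne_zero _ hgi.ne_zero) (dvd_ord_smul σ hdiv)
      (dvd_ord_pow (dvd_ord_inv hdiv) N)
  obtain ⟨m₁, h₁⟩ := D.exists_Wt_spec hn0 hg hdiv
  obtain ⟨m₂, h₂⟩ := D.exists_Wt_spec hn0 hgi (dvd_ord_inv hdiv)
  obtain ⟨m₃, h₃⟩ := D.exists_Wt_spec hn0 hψ1 hψdiv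
  set m := max m₁ m₂ with hm
  have hW : ∀ M, max m₃ (m + N * m) ≤ M → D.Wt n ψ M = D.Nm M := by
    intro M hM
    refine (h₃ M (by omega)).2.2 fun s hs => ?_
    obtain ⟨p, hp, hp0, -⟩ := (h₁ m (by omega)).2.1 s hs
    obtain ⟨r, hr, hr0, -⟩ := (h₂ m (by omega)).2.1 s hs
    have hprr := (D.Wt_mem_rr hn0 hg hp).1
    have hrrr := (D.Wt_mem_rr hn0 hgi hr).1
    obtain ⟨a, ha, haO, rfl⟩ := (D.mem_Wt hn0).mp hp
    obtain ⟨b, hb, hbO, rfl⟩ := (D.mem_Wt hn0).mp hr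
    -- the product of the two sections has equal values at the node
    have hab : TwistCond L D.u 1 1 (m + m) (a * b) := by
      have h := twistCond_mul ha hb
      rw [mul_inv_cancel₀ hg.ne_zero] at h
      obtain ⟨h', h''⟩ := h
      rw [mul_one] at h' h''
      refine ⟨?_, ?_⟩
      · rw [pow_one, mul_one]
        exact mem_coordRing_of_pow hn0 h'
      · rw [pow_one, mul_one]
        exact mem_coordRing_of_pow hn0 h''
    have habN : D.red2 a * D.red2 b ∈ D.Nm (m + m) := by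
      refine D.Wm_le_Nm _ ?_
      have h := D.red2_mem_redSpace (V := twistSpace L D.u 1 1 (m + m))
        ((mem_twistSpace one_pos).mpr hab) (mul_mem haO hbO)
      rwa [show D.red2 (a * b) = D.red2 a * D.red2 b from
        funext fun i => D.red_mul (D.mem_of_mem_O haO i) (D.mem_of_mem_O hbO i)] at h
    have hval := (D.mem_Nm_iff.mp habN).2 s hs
    rw [Pi.mul_apply, Pi.mul_apply, D.lev_mul (hprr 0) (hrrr 0),
      D.lev_mul (hprr 1) (hrrr 1)] at hval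
    -- transport by the symmetry
    have hσa : TwistCond L D.u n (σ • g) m (σ • a) := hσ.twistCond ha
    have hσaW : D.red2 (σ • a) ∈ D.Wt n (σ • g) m :=
      (D.mem_Wt hn0).mpr ⟨_, hσa, hσ.mem_O haO, rfl⟩
    have hσrr := (D.Wt_mem_rr hn0 hσg hσaW).1
    have hbN : TwistCond L D.u n (g⁻¹ ^ N) (N * m) (b ^ N) := twistCond_pow hb N
    have hbNW : D.red2 (b ^ N) ∈ D.Wt n (g⁻¹ ^ N) (N * m) :=
      (D.mem_Wt hn0).mpr ⟨_, hbN, pow_mem hbO N, rfl⟩
    have hgN1 : D.RedOne (g⁻¹ ^ N) := ⟨pow_mem hgi.mem N, fun i => by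
      rw [D.red_pow (D.mem_of_mem_O hgi.mem i), hgi.red, one_pow]⟩
    have hbrr := (D.Wt_mem_rr hn0 hgN1 hbNW).1
    have hprod : D.red2 (σ • a * b ^ N) ∈ D.Wt n ψ (m + N * m) :=
      (D.mem_Wt hn0).mpr
        ⟨_, twistCond_mul hσa hbN, mul_mem (hσ.mem_O haO) (pow_mem hbO N), rfl⟩
    have hred : ∀ i, D.red2 (σ • a * b ^ N) i = D.red2 (σ • a) i * D.red2 (b ^ N) i :=
      fun i => D.red_mul (D.mem_of_mem_O (hσ.mem_O haO) i) (pow_mem (D.mem_of_mem_O hbO i) N)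
    have hT : ∀ i, D.red2 (σ • a) i = T (D.red2 a i) :=
      fun i => hσ.red_eq i a (D.mem_of_mem_O haO i)
    have hP : ∀ i, D.red2 (b ^ N) i = D.red2 b i ^ N :=
      fun i => D.red_pow (D.mem_of_mem_O hbO i) N
    have e0 : D.lev (m + N * m) s.1 (D.red2 (σ • a * b ^ N) 0) =
        (D.lev m s.1 (D.red2 a 0) * D.lev m s.1 (D.red2 b 0)) ^ N := by
      rw [hred, D.lev_mul (hσrr 0) (hbrr 0), hT, hP, (hpow s hs m _ (hprr 0)).1,
        mul_comm N m, D.lev_pow (hrrr 0), mul_pow]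
    have e1 : D.lev (m + N * m) s.2 (D.red2 (σ • a * b ^ N) 1) =
        (D.lev m s.2 (D.red2 a 1) * D.lev m s.2 (D.red2 b 1)) ^ N := by
      rw [hred, D.lev_mul (hσrr 1) (hbrr 1), hT, hP, (hpow s hs m _ (hprr 1)).2,
        mul_comm N m, D.lev_pow (hrrr 1), mul_pow]
    obtain ⟨p', hp', f0, f1⟩ := D.exists_raise hn0 (show m + N * m ≤ M by omega) hs hprod
    refine ⟨p', hp', ?_, ?_⟩
    · rw [f0, f1, e0, e1, hval]
    · rw [f0, e0]
      exact pow_ne_zero _ (mul_ne_zero hp0 hr0)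
  obtain ⟨e, a, he, ha, heq⟩ := D.exists_eq_smul_pow hn hψ1 hψdiv hW
  refine ⟨e, a, he, ha, ?_⟩
  rw [← heq, hψ, mul_assoc, ← mul_pow, inv_mul_cancel₀ hg.ne_zero, one_pow, mul_one]

end BadCurve

end Fermat.Agent.BAD
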