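import Fermat.Agent.BAD.Core.Graded

/-!
# The lines at the nodes of a twisted space
-/

set_option autoImplicit false

noncomputable section

open AlgebraicCurve IntermediateField Polynomial Fermat.Agent.RED

namespace Fermat.Agent.BAD

variable {L k : Type*} [Field L] [Field k] {A : ValuationSubring L} {π : A →+* k}
  {F C : Type*} [Field F] [Algebra L F] [Field C] [Algebra k C]

namespace BadCurve

variable (D : BadCurve π F C)

/-- Integral on both branches with both reductions `1`. -/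
structure RedOne (f : F) : Prop where
  mem : f ∈ D.O
  red : ∀ i, D.red i f = 1

theorem RedOne.ne_zero {f : F} (hf : D.RedOne f) : f ≠ 0 := fun h => by
  have := hf.red 0
  rw [h, TwoBranch.red_zero] at this
  exact zero_ne_one this

/-- The reductions of a twisted space. -/
def Wt (n : ℕ) (f : F) (m : ℕ) : Submodule k (Fin 2 → C) :=
  D.redSpace (twistSpace L D.u n f m)

theorem mem_Wt {n : ℕ} (hn : 0 < n) {f : F} {m : ℕ} {p : Fin 2 → C} :
    p ∈ D.Wt n f m ↔ ∃ a, TwistCond L D.u n f m a ∧ a ∈ D.O ∧ D.red2 a = p := by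
  simp only [Wt, TwoBranch.mem_redSpace, mem_twistSpace hn]

theorem Wt_mem_rr {n : ℕ} (hn : 0 < n) {f : F} (hf : D.RedOne f) {m : ℕ} {p : Fin 2 → C}
    (hp : p ∈ D.Wt n f m) : (∀ i, p i ∈ riemannRochSpace (m • D.pole)) ∧
      p ^ n ∈ D.Nm (m * n) := by
  obtain ⟨a, ⟨ha1, ha2⟩, haO, rfl⟩ := (D.mem_Wt hn).mp hp
  have hO : a ^ n * f ∈ D.O := mul_mem (pow_mem haO n) hf.mem
  have hO' : (a / D.u ^ m) ^ n * f ∈ D.O :=
    mul_mem (pow_mem (D.div_u_pow_mem_O haO m) n) hf.mem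
  have hr : ∀ i, D.red i (a ^ n * f) = D.red2 a i ^ n := fun i => by
    rw [D.red_mul (pow_mem (D.mem_of_mem_O haO i) n) (D.mem_of_mem_O hf.mem i), hf.red, mul_one,
      D.red_pow (D.mem_of_mem_O haO i), D.red2_apply]
  have hr' : ∀ i, D.red i ((a / D.u ^ m) ^ n * f) = (D.red2 a i / D.ubar ^ m) ^ n := fun i => by
    rw [D.red_mul (pow_mem (D.mem_of_mem_O (D.div_u_pow_mem_O haO m) i) n)
      (D.mem_of_mem_O hf.mem i), hf.red, mul_one,
      D.red_pow (D.mem_of_mem_O (D.div_u_pow_mem_O haO m) i), D.red_div_u_pow haO, D.red2_apply]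
  refine ⟨fun i => D.mem_rr_iff.mpr ⟨?_, ?_⟩, D.mem_Nm.mpr ⟨?_, ?_⟩⟩
  · exact mem_coordRing_of_pow hn (hr i ▸ D.chartFin.red_mem_coordRing ha1 hO i)
  · exact mem_coordRing_of_pow hn (hr' i ▸ D.chartInf.red_mem_coordRing ha2 hO' i)
  · exact Chart.mem_chartAlg.mpr ⟨_, ha1, hO, funext hr⟩
  · refine Chart.mem_chartAlg.mpr ⟨_, ha2, hO', funext fun i => ?_⟩
    rw [D.red2_apply, hr', Pi.pow_apply, div_pow, ← pow_mul]

theorem lev_pow {m : ℕ} {c : C} (hc : c ∈ riemannRochSpace (m • D.pole)) (n : ℕ) (x : Place k C) :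
    D.lev (m * n) x (c ^ n) = D.lev m x c ^ n := by
  by_cases hx : D.ubar ∈ x.toValuationSubring
  · rw [D.lev_of_mem hx, D.lev_of_mem hx, pv_pow ((D.rr_mem_place hc).1 hx)]
  · rw [D.lev_of_notMem hx, D.lev_of_notMem hx, pow_mul, ← div_pow,
      pv_pow ((D.rr_mem_place hc).2 hx)]

theorem lev_mul {m m' : ℕ} {c c' : C} (hc : c ∈ riemannRochSpace (m • D.pole))
    (hc' : c' ∈ riemannRochSpace (m' • D.pole)) (x : Place k C) :
    D.lev (m + m') x (c * c') = D.lev m x c * D.lev m' x c' := by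
  by_cases hx : D.ubar ∈ x.toValuationSubring
  · simp only [D.lev_of_mem hx]
    exact pv_mul ((D.rr_mem_place hc).1 hx) ((D.rr_mem_place hc').1 hx)
  · simp only [D.lev_of_notMem hx]
    rw [pow_add, ← div_mul_div_comm,
      pv_mul ((D.rr_mem_place hc).2 hx) ((D.rr_mem_place hc').2 hx)]

theorem Wt_lev_pow_eq {n : ℕ} (hn : 0 < n) {f : F} (hf : D.RedOne f) {m : ℕ} {p : Fin 2 → C}
    (hp : p ∈ D.Wt n f m) {s : Place k C × Place k C} (hs : s ∈ D.nodes) :
    D.lev m s.1 (p 0) ^ n = D.lev m s.2 (p 1) ^ n := by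
  obtain ⟨hrr, hN⟩ := D.Wt_mem_rr hn hf hp
  have := (D.mem_Nm_iff.mp hN).2 s hs
  rwa [Pi.pow_apply, Pi.pow_apply, D.lev_pow (hrr 0), D.lev_pow (hrr 1)] at this

theorem finrank_Wt {n : ℕ} {f : F} {m : ℕ} [FiniteDimensional L (twistSpace L D.u n f m)] :
    Module.finrank k (D.Wt n f m) = Module.finrank L (twistSpace L D.u n f m) := by
  obtain ⟨r, v, hv, hspan⟩ := D.chartFin.exists_reduced_basis (twistSpace L D.u n f m)
  have hf := D.finrank_redSpace hv
  rwa [hspan] at hf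

/-- In large degree every node has a section not vanishing there, and a twisted space with all
node values trivial is the untwisted one. -/
theorem exists_Wt_spec {n : ℕ} (hn : 0 < n) {f : F} (hf : D.RedOne f)
    (hdiv : ∀ v : Place L F, (n : ℤ) ∣ v.ord f) : ∃ m₀ : ℕ, ∀ m, m₀ ≤ m →
      FiniteDimensional L (twistSpace L D.u n f m) ∧
      (∀ s ∈ D.nodes, ∃ p ∈ D.Wt n f m, D.lev m s.1 (p 0) ≠ 0 ∧ D.lev m s.2 (p 1) ≠ 0) ∧
      ((∀ s ∈ D.nodes, ∃ p ∈ D.Wt n f m,
          D.lev m s.1 (p 0) = D.lev m s.2 (p 1) ∧ D.lev m s.1 (p 0) ≠ 0) →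
        D.Wt n f m = D.Nm m) := by
  classical
  obtain ⟨g, m₁, hc⟩ := D.exists_finrank_condSpace
  obtain ⟨g', m₂, hW⟩ := D.exists_redSpace_eq
  obtain ⟨m₃, ht⟩ := D.twist n hn.ne' f hf.ne_zero hdiv
  obtain ⟨gN, mN, hN⟩ := D.exists_finrank_Nm
  refine ⟨max (max m₁ m₂) (max m₃ mN), fun m hm => ?_⟩
  obtain ⟨hfd, htw⟩ := ht m (by omega)
  obtain ⟨-, -, h1⟩ := hW m (by omega)
  have hdim : (Module.finrank k (D.Wt n f m) : ℤ) = 2 * (m * D.d + 1 - g') - D.nodes.card := by
    rw [D.finrank_Wt, htw, h1]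
  have hgg : g' = g := by
    obtain ⟨-, e1, -⟩ := hc m (by omega) (fun _ => 1) (fun _ => -1) fun _ _ => Or.inl one_ne_zero
    obtain ⟨hWm, hfd1, e2⟩ := hW m (by omega)
    have : (Module.finrank k (D.Nm m) : ℤ) = 2 * (m * D.d + 1 - g') - D.nodes.card := by
      rw [← e2, ← D.finrank_Wt (n := 1) (f := 1)]
      exact congrArg (fun x : ℕ => (x : ℤ))
        (congrArg (fun W : Submodule k (Fin 2 → C) => Module.finrank k W) hWm.symm)
    rw [D.Nm_eq_condSpace, e1] at this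
    linarith
  subst hgg
  -- a functional killing the values at each node
  have hline : ∀ s ∈ D.nodes, ∃ ab : k × k, (ab.1 ≠ 0 ∨ ab.2 ≠ 0) ∧
      ∀ p ∈ D.Wt n f m, ab.1 * D.lev m s.1 (p 0) + ab.2 * D.lev m s.2 (p 1) = 0 := by
    intro s hs
    by_cases h0 : ∀ p ∈ D.Wt n f m, D.lev m s.1 (p 0) = 0
    · exact ⟨(1, 0), Or.inl one_ne_zero, fun p hp => by simp [h0 p hp]⟩
    · push Not at h0
      obtain ⟨w, hw, hw0⟩ := h0
      refine ⟨(-D.lev m s.2 (w 1), D.lev m s.1 (w 0)), Or.inr hw0, fun p hp => ?_⟩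
      set t := D.lev m s.1 (p 0) / D.lev m s.1 (w 0) with ht'
      have hv : p - t • w ∈ D.Wt n f m := sub_mem hp (Submodule.smul_mem _ t hw)
      have hlin : ∀ (i : Fin 2) (x : Place k C),
          D.lev m x ((p - t • w) i) = D.lev m x (p i) - t * D.lev m x (w i) := by
        intro i x
        have := map_sub (D.levHom m x) ⟨p i, (D.Wt_mem_rr hn hf hp).1 i⟩
          (t • ⟨w i, (D.Wt_mem_rr hn hf hw).1 i⟩)
        rw [map_smul] at this
        simpa [levHom_apply] using this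
      have h2 := D.Wt_lev_pow_eq hn hf hv hs
      rw [hlin, hlin, ht', div_mul_cancel₀ _ hw0, sub_self, zero_pow hn.ne'] at h2
      have h3 := eq_zero_of_pow_eq_zero h2.symm
      dsimp only
      linear_combination D.lev m s.1 (w 0) * h3 + D.lev m s.2 (w 1) *
        (div_mul_cancel₀ (D.lev m s.1 (p 0)) hw0)
  choose ab hab hker using hline
  let a : Place k C × Place k C → k := fun s => if h : s ∈ D.nodes then (ab s h).1 else 0
  let b : Place k C × Place k C → k := fun s => if h : s ∈ D.nodes then (ab s h).2 else 0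
  have hab' : ∀ s ∈ D.nodes, a s ≠ 0 ∨ b s ≠ 0 := fun s hs => by
    simpa [a, b, dif_pos hs] using hab s hs
  obtain ⟨hfdc, hdimc, hex⟩ := hc m (by omega) a b hab'
  have heq : D.Wt n f m = D.condSpace m a b := by
    have hle : D.Wt n f m ≤ D.condSpace m a b := fun p hp =>
      D.mem_condSpace.mpr ⟨(D.Wt_mem_rr hn hf hp).1, fun s hs => by
        simpa [a, b, dif_pos hs] using hker s hs p hp⟩
    exact Submodule.eq_of_le_of_finrank_le hle (by omega)
  refine ⟨hfd, fun s hs => ?_, fun htriv => ?_⟩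
  · obtain ⟨p, hp, e0, e1⟩ := hex s hs
    rw [← heq] at hp
    have hpow := D.Wt_lev_pow_eq hn hf hp hs
    refine ⟨p, hp, fun h => ?_, fun h => ?_⟩
    · rw [h, zero_pow hn.ne'] at hpow
      have h' := eq_zero_of_pow_eq_zero hpow.symm
      rcases hab' s hs with h'' | h''
      · exact h'' (neg_eq_zero.mp (e1 ▸ h'))
      · exact h'' (e0 ▸ h)
    · rw [h, zero_pow hn.ne'] at hpow
      have h' := eq_zero_of_pow_eq_zero hpow
      rcases hab' s hs with h'' | h''
      · exact h'' (neg_eq_zero.mp (e1 ▸ h))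
      · exact h'' (e0 ▸ h')
  · obtain ⟨hfdN, hdimN⟩ := hN m (by omega)
    have hle : D.Wt n f m ≤ D.Nm m := by
      intro p hp
      refine D.mem_Nm_iff.mpr ⟨(D.Wt_mem_rr hn hf hp).1, fun s hs => ?_⟩
      obtain ⟨w, hw, hw1, hw0⟩ := htriv s hs
      have e1 := hker s hs p hp
      have e2 := hker s hs w hw
      rw [← hw1, ← add_mul] at e2
      have e3 := (mul_eq_zero.mp e2).resolve_right hw0
      have hb0 : (ab s hs).2 ≠ 0 := by
        rcases hab s hs with h' | h'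
        · intro hb
          exact h' (by simpa [hb] using e3)
        · exact h'
      have e4 : (ab s hs).2 * (D.lev m s.2 (p 1) - D.lev m s.1 (p 0)) = 0 := by
        linear_combination e1 - D.lev m s.1 (p 0) * e3
      exact (sub_eq_zero.mp ((mul_eq_zero.mp e4).resolve_left hb0)).symm
    refine Submodule.eq_of_le_of_finrank_le hle ?_
    have : gN = g' := by
      obtain ⟨-, e1, -⟩ := hc m (by omega) (fun _ => 1) (fun _ => -1) fun _ _ => Or.inl one_ne_zero
      rw [← D.Nm_eq_condSpace, hdimN] at e1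
      linarith
    subst this
    omega

theorem twistCond_succ {n : ℕ} {f : F} {m : ℕ} {a : F} (ha : TwistCond L D.u n f m a) :
    TwistCond L D.u n f (m + 1) a ∧ TwistCond L D.u n f (m + 1) (D.u * a) := by
  refine ⟨?_, ?_⟩
  · simpa using twistCond_mul ha (twistCond_one_one n 1)
  · have := twistCond_mul ha (twistCond_upow D.u_ne_zero n 1)
    rwa [mul_one, pow_one, mul_comm] at this

/-- Raise the degree of a section keeping its values at a node. -/
theorem exists_raise {n : ℕ} (hn : 0 < n) {f : F} {m M : ℕ} (hM : m ≤ M)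
    {s : Place k C × Place k C} (hs : s ∈ D.nodes) {p : Fin 2 → C} (hp : p ∈ D.Wt n f m) :
    ∃ p' ∈ D.Wt n f M, D.lev M s.1 (p' 0) = D.lev m s.1 (p 0) ∧
      D.lev M s.2 (p' 1) = D.lev m s.2 (p 1) := by
  induction hM with
  | refl => exact ⟨p, hp, rfl, rfl⟩
  | @step M _ ih =>
    obtain ⟨p', hp', e0, e1⟩ := ih
    obtain ⟨a, ha, haO, rfl⟩ := (D.mem_Wt hn).mp hp'
    rcases D.mem_nodes.mp hs with ⟨hx, hy, -⟩ | ⟨hx, hy, -⟩
    · refine ⟨D.red2 a, (D.mem_Wt hn).mpr ⟨a, (D.twistCond_succ ha).1, haO, rfl⟩, ?_, ?_⟩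
      · rw [D.lev_of_mem hx, ← e0, D.lev_of_mem hx]
      · rw [D.lev_of_mem hy, ← e1, D.lev_of_mem hy]
    · have hr : ∀ i, D.red i (D.u * a) = D.ubar * D.red2 a i := fun i => by
        rw [D.red_mul (D.mem_of_mem_O D.chartFin.u_mem i) (D.mem_of_mem_O haO i),
          D.chartFin.red_u, D.red2_apply]
      refine ⟨D.red2 (D.u * a), (D.mem_Wt hn).mpr
        ⟨_, (D.twistCond_succ ha).2, mul_mem D.chartFin.u_mem haO, rfl⟩, ?_, ?_⟩
      · rw [D.lev_of_notMem hx, ← e0, D.lev_of_notMem hx, D.red2_apply, hr, pow_succ',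
          mul_div_mul_left _ _ D.ubar_ne_zero]
      · rw [D.lev_of_notMem hy, ← e1, D.lev_of_notMem hy, D.red2_apply, hr, pow_succ',
          mul_div_mul_left _ _ D.ubar_ne_zero]

end BadCurve

end Fermat.Agent.BAD
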