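import Fermat.Agent.BAD.Core.NodeAlgebra

/-!
# Twisted Riemann-Roch spaces and the change of chart
-/

set_option autoImplicit false

noncomputable section

open AlgebraicCurve IntermediateField Polynomial Fermat.Agent.RED

namespace Fermat.Agent.BAD

section Coord

variable {K E : Type*} [Field K] [Field E] [Algebra K E] {x : E}

theorem mem_coordRing_of_pow {y : E} {n : ℕ} (hn : 0 < n) (h : y ^ n ∈ coordRing K x) :
    y ∈ coordRing K x := by
  let _ : Algebra K[X] E := (coordEval K x).toAlgebra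
  exact IsIntegral.of_pow hn h

/-- A root of a monic polynomial with integral coefficients is integral. -/
theorem mem_coordRing_of_monic {y : E} (P : E[X]) (hP : P.Monic)
    (hc : ∀ i, P.coeff i ∈ coordRing K x) (hroot : P.eval y = 0) : y ∈ coordRing K x := by
  let _ : Algebra K[X] E := (coordEval K x).toAlgebra
  let S : Subalgebra K[X] E := integralClosure K[X] E
  have : Algebra.IsIntegral K[X] S := ⟨fun a =>
    (isIntegral_algHom_iff S.val Subtype.val_injective).mp a.2⟩
  have hl : P ∈ Polynomial.lifts (algebraMap S E) := by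
    rw [Polynomial.lifts_iff_coeff_lifts]
    exact fun i => ⟨⟨P.coeff i, hc i⟩, rfl⟩
  obtain ⟨Q, hQ, -, hQm⟩ := Polynomial.lifts_and_natDegree_eq_and_monic hl hP
  have hy : IsIntegral S y := ⟨Q, hQm, by rw [eval₂_eq_eval_map, hQ, hroot]⟩
  exact isIntegral_trans (R := K[X]) (A := S) y hy

theorem inv_pow_aeval_mem {p : K[X]} {j : ℕ} (hx : x ≠ 0) (hj : p.natDegree ≤ j) :
    aeval x p / x ^ j ∈ coordRing K x⁻¹ := by
  rw [aeval_eq_sum_range, Finset.sum_div]
  refine sum_mem fun i hi => ?_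
  have hij : i ≤ j := (Nat.lt_succ_iff.mp (Finset.mem_range.mp hi)).trans hj
  have : p.coeff i • x ^ i / x ^ j = p.coeff i • (x⁻¹) ^ (j - i) := by
    rw [inv_pow, Algebra.smul_def, Algebra.smul_def, mul_div_assoc]
    congr 1
    field_simp
    rw [← pow_add, Nat.add_sub_cancel' hij]
  rw [this]
  exact Subalgebra.smul_mem _ (pow_mem (self_mem_coordRing K x⁻¹) _) _

/-- An element integral at finite distance becomes integral at infinity after division. -/
theorem exists_div_pow_mem {y : E} (hx : x ≠ 0) (hy : y ∈ coordRing K x) :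
    ∃ e : ℕ, ∀ e', e ≤ e' → y / x ^ e' ∈ coordRing K x⁻¹ := by
  obtain ⟨P, hP, hroot⟩ : ∃ P : Polynomial K[X], P.Monic ∧ P.eval₂ (coordEval K x) y = 0 := hy
  refine ⟨(Finset.range (P.natDegree + 1)).sup fun i => (P.coeff i).natDegree, fun e he => ?_⟩
  set Q : E[X] := P.map (coordEval K x) with hQ
  have hQm : Q.Monic := hP.map _
  refine mem_coordRing_of_monic (Q.scaleRoots ((x ^ e)⁻¹))
    ((monic_scaleRoots_iff _).mpr hQm) (fun i => ?_) ?_
  · rw [coeff_scaleRoots, hQ, hP.natDegree_map, coeff_map, inv_pow, ← div_eq_mul_inv, ← pow_mul]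
    rcases lt_trichotomy i P.natDegree with hi | hi | hi
    · refine inv_pow_aeval_mem hx ((le_trans ?_ he).trans (Nat.le_mul_of_pos_right e (by omega)))
      exact Finset.le_sup (f := fun i => (P.coeff i).natDegree) (Finset.mem_range.mpr (by omega))
    · subst hi
      rw [hP.coeff_natDegree, Nat.sub_self, Nat.mul_zero, pow_zero, div_one, map_one]
      exact one_mem _
    · rw [coeff_eq_zero_of_natDegree_lt hi, map_zero, zero_div]
      exact zero_mem _
  · rw [div_eq_inv_mul, scaleRoots_eval_mul, hQ, eval_map, hroot, mul_zero]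

end Coord

section Twist

variable {L : Type*} [Field L] {F : Type*} [Field F] [Algebra L F] {u : F}

theorem twistCond_zero {n : ℕ} (hn : 0 < n) (f : F) (m : ℕ) : TwistCond L u n f m 0 := by
  simp [TwistCond, zero_pow hn.ne', zero_mem]

theorem mem_coordRing_add_pow {x y f : F} {n : ℕ} (hn : 0 < n) (hx : x ^ n * f ∈ coordRing L u)
    (hy : y ^ n * f ∈ coordRing L u) : (x + y) ^ n * f ∈ coordRing L u := by
  rw [add_pow, Finset.sum_mul]
  refine sum_mem fun i hi => ?_
  have hi' : i ≤ n := Nat.lt_succ_iff.mp (Finset.mem_range.mp hi)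
  rw [show x ^ i * y ^ (n - i) * (n.choose i : F) * f =
    (x ^ i * y ^ (n - i) * f) * (n.choose i : F) by ring]
  refine mul_mem (mem_coordRing_of_pow hn ?_) (natCast_mem _ _)
  have : (x ^ i * y ^ (n - i) * f) ^ n = (x ^ n * f) ^ i * (y ^ n * f) ^ (n - i) := by
    simp only [mul_pow, ← pow_mul]
    rw [show f ^ n = f ^ i * f ^ (n - i) by rw [← pow_add, Nat.add_sub_cancel' hi'],
      mul_comm i n, mul_comm (n - i) n]
    ring
  rw [this]
  exact mul_mem (pow_mem hx _) (pow_mem hy _)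

theorem mem_twistSpace {n : ℕ} (hn : 0 < n) {f : F} {m : ℕ} {a : F} :
    a ∈ twistSpace L u n f m ↔ TwistCond L u n f m a := by
  refine ⟨fun h => ?_, fun h => Submodule.subset_span h⟩
  induction h using Submodule.span_induction with
  | mem x hx => exact hx
  | zero => exact twistCond_zero hn f m
  | add x y _ _ hx hy =>
    exact ⟨mem_coordRing_add_pow hn hx.1 hy.1, by
      rw [add_div]
      exact mem_coordRing_add_pow hn hx.2 hy.2⟩
  | smul c x _ hx =>
    refine ⟨?_, ?_⟩
    · rw [_root_.smul_pow, smul_mul_assoc]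
      exact Subalgebra.smul_mem _ hx.1 _
    · rw [smul_div_assoc, _root_.smul_pow, smul_mul_assoc]
      exact Subalgebra.smul_mem _ hx.2 _

theorem mem_twistSpace_one {m : ℕ} {a : F} :
    a ∈ twistSpace L u 1 1 m ↔ a ∈ coordRing L u ∧ a / u ^ m ∈ coordRing L u⁻¹ := by
  rw [mem_twistSpace one_pos]
  simp [TwistCond]

theorem twistCond_mul {n : ℕ} {f g : F} {m m' : ℕ} {a b : F} (ha : TwistCond L u n f m a)
    (hb : TwistCond L u n g m' b) : TwistCond L u n (f * g) (m + m') (a * b) := by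
  refine ⟨?_, ?_⟩
  · rw [mul_pow, mul_mul_mul_comm]
    exact mul_mem ha.1 hb.1
  · rw [pow_add, ← div_mul_div_comm, mul_pow, mul_mul_mul_comm]
    exact mul_mem ha.2 hb.2

theorem twistCond_pow {n : ℕ} {f : F} {m : ℕ} {a : F} (ha : TwistCond L u n f m a) (k : ℕ) :
    TwistCond L u n (f ^ k) (k * m) (a ^ k) := by
  induction k with
  | zero => simp [TwistCond, one_mem]
  | succ k ih =>
    rw [pow_succ, pow_succ, Nat.succ_mul]
    exact twistCond_mul ih ha

theorem twistCond_one_one (n m : ℕ) : TwistCond L u n 1 m 1 := by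
  refine ⟨by simp [one_mem], ?_⟩
  simpa [one_div, inv_pow] using pow_mem (pow_mem (self_mem_coordRing L u⁻¹) m) n

theorem twistCond_upow (hu : u ≠ 0) (n m : ℕ) : TwistCond L u n 1 m (u ^ m) := by
  refine ⟨?_, ?_⟩
  · rw [mul_one]
    exact pow_mem (pow_mem (self_mem_coordRing L u) m) n
  · rw [div_self (pow_ne_zero _ hu), one_pow, one_mul]
    exact one_mem _

end Twist

section Branch

variable {L k : Type*} [Field L] [Field k] {A : ValuationSubring L} {π : A →+* k}
  {F C : Type*} [Field F] [Algebra L F] [Field C] [Algebra k C] (D : BadCurve π F C)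

namespace BadCurve

theorem u_ne_zero : D.u ≠ 0 := fun h => D.chartFin.transcendental_u (h ▸ isAlgebraic_zero)

theorem ubar_ne_zero : D.ubar ≠ 0 := D.chartFin.ubar_ne_zero

theorem red_u_pow_ne_zero (i : Fin 2) (m : ℕ) : D.red i (D.u ^ m) ≠ 0 := by
  rw [D.chartFin.red_u_pow]
  exact pow_ne_zero _ D.ubar_ne_zero

theorem u_pow_inv_mem_O (m : ℕ) : (D.u ^ m)⁻¹ ∈ D.O :=
  D.inv_mem_O (pow_mem D.chartFin.u_mem m) fun i => D.red_u_pow_ne_zero i m

theorem div_u_pow_mem_O {a : F} (ha : a ∈ D.O) (m : ℕ) : a / D.u ^ m ∈ D.O :=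
  div_eq_mul_inv a (D.u ^ m) ▸ mul_mem ha (D.u_pow_inv_mem_O m)

theorem red_div_u_pow {a : F} (ha : a ∈ D.O) (m : ℕ) (i : Fin 2) :
    D.red i (a / D.u ^ m) = D.red i a / D.ubar ^ m := by
  rw [div_eq_mul_inv, D.red_mul (D.mem_of_mem_O ha i) (D.mem_of_mem_O (D.u_pow_inv_mem_O m) i),
    D.red_inv (D.mem_of_mem_O (pow_mem D.chartFin.u_mem m) i) (D.red_u_pow_ne_zero i m),
    D.chartFin.red_u_pow, ← div_eq_mul_inv]

/-- Pairs of reductions regular at finite distance are regular at infinity after division. -/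
theorem exists_div_pow_mem_chartAlg {p : Fin 2 → C} (hp : p ∈ Chart.chartAlg D.toBadBase D.u) :
    ∃ e : ℕ, ∀ e', e ≤ e' →
      (fun i => p i / D.ubar ^ e') ∈ Chart.chartAlg D.toBadBase D.u⁻¹ := by
  obtain ⟨a, haR, haO, rfl⟩ := Chart.mem_chartAlg.mp hp
  obtain ⟨e, he⟩ := exists_div_pow_mem D.u_ne_zero haR
  exact ⟨e, fun e' he' => Chart.mem_chartAlg.mpr
    ⟨_, he e' he', D.div_u_pow_mem_O haO e', funext fun i => D.red_div_u_pow haO e' i⟩⟩

end BadCurve

end Branch

end Fermat.Agent.BAD
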